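import Mathlib
import Fermat.Prelude.Def_GaloisRep_Adic
import Fermat.Prelude.Def_GaloisRep_DeformationCondition

/-!
# S53, work package WP4: the matrix layer

Matrix-valued Galois representations `r : G →* Matrix (Fin 2) (Fin 2) A` and their
relation to `GaloisRepAdic A`.
-/

set_option autoImplicit false

open scoped TensorProduct
open IsLocalRing

namespace Fermat.Agent.S53.Mat

/-- The absolute Galois group of `ℚ`. -/
abbrev GQ : Type := AlgebraicClosure ℚ ≃ₐ[ℚ] AlgebraicClosure ℚ

section Basic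

variable {A : Type} [CommRing A]

/-- A vector all of whose coordinates lie in `I` lies in `I • ⊤`. -/
theorem pi_mem_smul_top {ι : Type} [Fintype ι] [DecidableEq ι] (I : Ideal A) (w : ι → A)
    (hw : ∀ i, w i ∈ I) : w ∈ I • (⊤ : Submodule A (ι → A)) := by
  have : w = ∑ i, w i • (Pi.single i (1 : A) : ι → A) := by
    ext j
    simp [Finset.sum_apply, Pi.single_apply]
  rw [this]
  exact Submodule.sum_mem _ fun i _ => Submodule.smul_mem_smul (hw i) Submodule.mem_top

/-- An element of `I • ⊤` has all its coordinates (w.r.t. any linear functional) in `I`. -/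
theorem map_mem_of_mem_smul_top {V : Type} [AddCommGroup V] [Module A V] (I : Ideal A)
    (f : V →ₗ[A] A) {x : V} (hx : x ∈ I • (⊤ : Submodule A V)) : f x ∈ I := by
  refine Submodule.smul_induction_on hx ?_ ?_
  · intro a ha v _
    rw [map_smul, smul_eq_mul]
    exact I.mul_mem_right _ ha
  · intro x y hx hy
    rw [map_add]
    exact I.add_mem hx hy

variable [IsLocalRing A]

/-- Finite-level adic continuity for a matrix-valued representation. -/
def MatContinuous (r : GQ →* Matrix (Fin 2) (Fin 2) A) : Prop :=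
  ∀ n : ℕ, ∃ L : IntermediateField ℚ (AlgebraicClosure ℚ), FiniteDimensional ℚ L ∧
    ∀ σ : GQ, (∀ x ∈ L, σ x = x) → ∀ i j, (r σ - 1) i j ∈ maximalIdeal A ^ n

/-- The `GaloisRepAdic` attached to a continuous matrix-valued representation. -/
noncomputable def ofMat (r : GQ →* Matrix (Fin 2) (Fin 2) A) (hr : MatContinuous r) :
    GaloisRepAdic A where
  V := Fin 2 → A
  finrank_eq := by simp
  ρ := ((Matrix.toLinAlgEquiv' : Matrix (Fin 2) (Fin 2) A ≃ₐ[A] Module.End A (Fin 2 → A)) :
    Matrix (Fin 2) (Fin 2) A →* Module.End A (Fin 2 → A)).comp r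
  isAdicContinuous := by
    intro n
    obtain ⟨L, hL, h⟩ := hr n
    refine ⟨L, hL, fun σ hσ v => ?_⟩
    have h1 : (((Matrix.toLinAlgEquiv' : Matrix (Fin 2) (Fin 2) A ≃ₐ[A] Module.End A (Fin 2 → A)) :
        Matrix (Fin 2) (Fin 2) A →* Module.End A (Fin 2 → A)).comp r) σ v - v
        = (r σ - 1).mulVec v := by
      simp [Matrix.sub_mulVec]
    rw [h1]
    refine pi_mem_smul_top _ _ fun i => ?_
    rw [Matrix.mulVec, dotProduct]
    exact Ideal.sum_mem _ fun j _ => Ideal.mul_mem_right _ _ (h σ hσ i j)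

theorem ofMat_ρ (r : GQ →* Matrix (Fin 2) (Fin 2) A) (hr : MatContinuous r) (σ : GQ) :
    (ofMat r hr).ρ σ = Matrix.toLin' (r σ) := rfl

@[simp]
theorem ofMat_ρ_apply (r : GQ →* Matrix (Fin 2) (Fin 2) A) (hr : MatContinuous r) (σ : GQ)
    (v : Fin 2 → A) : (ofMat r hr).ρ σ v = (r σ).mulVec v := rfl

end Basic

section FromBasis

open Module

variable {A : Type} [CommRing A] [IsLocalRing A]

/-- The matrix-valued representation attached to a `GaloisRepAdic` and a basis. -/
noncomputable def matOf (ρ : GaloisRepAdic A) (b : Basis (Fin 2) A ρ.V) :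
    GQ →* Matrix (Fin 2) (Fin 2) A :=
  ((LinearMap.toMatrixAlgEquiv b : Module.End A ρ.V ≃ₐ[A] Matrix (Fin 2) (Fin 2) A) :
    Module.End A ρ.V →* Matrix (Fin 2) (Fin 2) A).comp ρ.ρ

theorem matOf_apply (ρ : GaloisRepAdic A) (b : Basis (Fin 2) A ρ.V) (σ : GQ) :
    matOf ρ b σ = LinearMap.toMatrix b b (ρ.ρ σ) := rfl

theorem matOf_continuous (ρ : GaloisRepAdic A) (b : Basis (Fin 2) A ρ.V) :
    MatContinuous (matOf ρ b) := by
  intro n
  obtain ⟨L, hL, h⟩ := ρ.isAdicContinuous n
  refine ⟨L, hL, fun σ hσ i j => ?_⟩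
  have h1 : (matOf ρ b σ - 1) i j = b.coord i (ρ.ρ σ (b j) - b j) := by
    rw [Matrix.sub_apply, matOf_apply, LinearMap.toMatrix_apply, map_sub, Basis.coord_apply,
      Basis.coord_apply, Basis.repr_self, Matrix.one_apply, Finsupp.single_apply]
    simp only [eq_comm]
  rw [h1]
  exact map_mem_of_mem_smul_top _ _ (h σ hσ (b j))

/-- Every `GaloisRepAdic` is equivalent to the matrix representation in any basis. -/
noncomputable def equivOfMatMatOf (ρ : GaloisRepAdic A) (b : Basis (Fin 2) A ρ.V) :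
    GaloisRepAdic.Equiv ρ (ofMat (matOf ρ b) (matOf_continuous ρ b)) where
  toLinearEquiv := b.equivFun
  map_apply σ x := by
    rw [ofMat_ρ_apply, matOf_apply]
    exact (LinearMap.toMatrix_mulVec_repr b b (ρ.ρ σ) x).symm

theorem isEquiv_ofMat_matOf (ρ : GaloisRepAdic A) (b : Basis (Fin 2) A ρ.V) :
    ρ.IsEquiv (ofMat (matOf ρ b) (matOf_continuous ρ b)) :=
  ⟨equivOfMatMatOf ρ b⟩

/-- A basis of the underlying module of a `GaloisRepAdic`. -/
noncomputable def someBasis (ρ : GaloisRepAdic A) : Basis (Fin 2) A ρ.V :=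
  Module.finBasisOfFinrankEq A ρ.V ρ.finrank_eq

theorem exists_isEquiv_ofMat (ρ : GaloisRepAdic A) :
    ∃ (r : GQ →* Matrix (Fin 2) (Fin 2) A) (hr : MatContinuous r), ρ.IsEquiv (ofMat r hr) :=
  ⟨_, _, isEquiv_ofMat_matOf ρ (someBasis ρ)⟩

end FromBasis

section Conj

variable {A : Type} [CommRing A] [IsLocalRing A]

/-- The linear automorphism of `Fin 2 → A` given by an invertible matrix. -/
noncomputable def unitsLinearEquiv {R : Type} [CommRing R] (P : (Matrix (Fin 2) (Fin 2) R)ˣ) :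
    (Fin 2 → R) ≃ₗ[R] (Fin 2 → R) :=
  LinearEquiv.ofLinearMap (Matrix.toLin' (P : Matrix (Fin 2) (Fin 2) R))
    (Matrix.toLin' ((P⁻¹ : (Matrix (Fin 2) (Fin 2) R)ˣ) : Matrix (Fin 2) (Fin 2) R))
    (by rw [← Matrix.toLin'_mul, Units.mul_inv, Matrix.toLin'_one])
    (by rw [← Matrix.toLin'_mul, Units.inv_mul, Matrix.toLin'_one])

@[simp]
theorem unitsLinearEquiv_apply {R : Type} [CommRing R] (P : (Matrix (Fin 2) (Fin 2) R)ˣ)
    (x : Fin 2 → R) : unitsLinearEquiv P x = (P : Matrix (Fin 2) (Fin 2) R).mulVec x := rfl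

/-- The equivalence of matrix representations given by a conjugating invertible matrix. -/
noncomputable def equivOfConj {r r' : GQ →* Matrix (Fin 2) (Fin 2) A} (hr : MatContinuous r)
    (hr' : MatContinuous r') (P : (Matrix (Fin 2) (Fin 2) A)ˣ)
    (h : ∀ σ, (P : Matrix (Fin 2) (Fin 2) A) * r σ = r' σ * P) :
    GaloisRepAdic.Equiv (ofMat r hr) (ofMat r' hr') where
  toLinearEquiv := unitsLinearEquiv P
  map_apply σ x := by
    show (P : Matrix (Fin 2) (Fin 2) A).mulVec ((r σ).mulVec x) =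
      (r' σ).mulVec ((P : Matrix (Fin 2) (Fin 2) A).mulVec x)
    rw [Matrix.mulVec_mulVec, Matrix.mulVec_mulVec, h σ]

theorem isEquiv_ofMat_iff {r r' : GQ →* Matrix (Fin 2) (Fin 2) A} (hr : MatContinuous r)
    (hr' : MatContinuous r') :
    (ofMat r hr).IsEquiv (ofMat r' hr') ↔
      ∃ P : (Matrix (Fin 2) (Fin 2) A)ˣ,
        ∀ σ, (P : Matrix (Fin 2) (Fin 2) A) * r σ = r' σ * P := by
  constructor
  · rintro ⟨E⟩
    let e : (Fin 2 → A) ≃ₗ[A] (Fin 2 → A) := E.toLinearEquiv
    have hE : ∀ σ x, e ((r σ).mulVec x) = (r' σ).mulVec (e x) := fun σ x => E.map_apply σ x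
    refine ⟨⟨LinearMap.toMatrix' e.toLinearMap, LinearMap.toMatrix' e.symm.toLinearMap, ?_, ?_⟩,
      fun σ => ?_⟩
    · rw [← LinearMap.toMatrix'_comp, LinearEquiv.comp_symm, LinearMap.toMatrix'_id]
    · rw [← LinearMap.toMatrix'_comp, LinearEquiv.symm_comp, LinearMap.toMatrix'_id]
    · show LinearMap.toMatrix' e.toLinearMap * r σ = r' σ * LinearMap.toMatrix' e.toLinearMap
      apply Matrix.toLin'.injective
      refine LinearMap.ext fun x => ?_
      rw [Matrix.toLin'_mul, Matrix.toLin'_mul, Matrix.toLin'_toMatrix']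
      exact hE σ x
  · rintro ⟨P, h⟩
    exact ⟨equivOfConj hr hr' P h⟩

end Conj

section BaseChange

variable {A : Type} [CommRing A] {B : Type} [CommRing B]

/-- Push-forward of a matrix-valued representation along a ring homomorphism. -/
noncomputable def mapMat (φ : A →+* B) (r : GQ →* Matrix (Fin 2) (Fin 2) A) :
    GQ →* Matrix (Fin 2) (Fin 2) B :=
  (φ.mapMatrix (m := Fin 2)).toMonoidHom.comp r

@[simp]
theorem mapMat_apply (φ : A →+* B) (r : GQ →* Matrix (Fin 2) (Fin 2) A) (σ : GQ) (i j : Fin 2) :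
    mapMat φ r σ i j = φ (r σ i j) := rfl

theorem mapMat_apply' (φ : A →+* B) (r : GQ →* Matrix (Fin 2) (Fin 2) A) (σ : GQ) :
    mapMat φ r σ = (r σ).map φ := rfl

theorem mapMat_comp {C : Type} [CommRing C] (φ : A →+* B) (ψ : B →+* C)
    (r : GQ →* Matrix (Fin 2) (Fin 2) A) : mapMat ψ (mapMat φ r) = mapMat (ψ.comp φ) r := by
  ext σ i j
  rfl

theorem mapMat_id (r : GQ →* Matrix (Fin 2) (Fin 2) A) : mapMat (RingHom.id A) r = r := by
  ext σ i j
  rfl

variable [IsLocalRing A] [IsLocalRing B]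

theorem map_maximalIdeal_pow_le (φ : A →+* B) (hφ : IsLocalHom φ) (n : ℕ) :
    (maximalIdeal A ^ n).map φ ≤ maximalIdeal B ^ n := by
  rw [Ideal.map_pow]
  exact Ideal.pow_right_mono (Ideal.map_le_iff_le_comap.mpr fun a ha =>
    Ideal.mem_comap.mpr (haveI := hφ; map_nonunit φ a ha)) n

theorem MatContinuous.map {r : GQ →* Matrix (Fin 2) (Fin 2) A} (hr : MatContinuous r)
    (φ : A →+* B) (hφ : IsLocalHom φ) : MatContinuous (mapMat φ r) := by
  intro n
  obtain ⟨L, hL, h⟩ := hr n
  refine ⟨L, hL, fun σ hσ i j => ?_⟩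
  have h1 : (mapMat φ r σ - 1) i j = φ ((r σ - 1) i j) := by
    rw [Matrix.sub_apply, Matrix.sub_apply, map_sub, mapMat_apply, Matrix.one_apply,
      Matrix.one_apply]
    split_ifs <;> simp
  rw [h1]
  exact map_maximalIdeal_pow_le φ hφ n (Ideal.mem_map_of_mem φ (h σ hσ i j))

theorem piScalarRight_baseChange_toLin' {R S : Type} [CommRing R] [CommRing S] [Algebra R S]
    (M : Matrix (Fin 2) (Fin 2) R) (x : S ⊗[R] (Fin 2 → R)) :
    TensorProduct.piScalarRight R S S (Fin 2) ((Matrix.toLin' M).baseChange S x) =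
      (M.map (algebraMap R S)).mulVec (TensorProduct.piScalarRight R S S (Fin 2) x) := by
  induction x using TensorProduct.induction_on with
  | zero => simp only [map_zero, Matrix.mulVec_zero]
  | tmul b v =>
    rw [LinearMap.baseChange_tmul, TensorProduct.piScalarRight_apply,
      TensorProduct.piScalarRight_apply,
      TensorProduct.piScalarRightHom_tmul, TensorProduct.piScalarRightHom_tmul]
    ext i
    simp only [Matrix.toLin'_apply, Matrix.mulVec, dotProduct, Matrix.map_apply,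
      Algebra.smul_def, map_sum, map_mul, Finset.sum_mul]
    exact Finset.sum_congr rfl fun j _ => by ring
  | add x y hx hy => simp only [map_add, hx, hy, Matrix.mulVec_add]

/-- Base change of `ofMat r` is `ofMat` of the pushed-forward matrices. -/
noncomputable def equivBaseChangeOfMat (φ : A →+* B) (hφ : IsLocalHom φ)
    (r : GQ →* Matrix (Fin 2) (Fin 2) A) (hr : MatContinuous r) :
    GaloisRepAdic.Equiv ((ofMat r hr).baseChangeAlong φ hφ) (ofMat (mapMat φ r) (hr.map φ hφ)) :=
  letI : Algebra A B := φ.toAlgebra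
  { toLinearEquiv := TensorProduct.piScalarRight A B B (Fin 2)
    map_apply := fun σ x => piScalarRight_baseChange_toLin' (r σ) x }

theorem isEquiv_baseChangeAlong_ofMat (φ : A →+* B) (hφ : IsLocalHom φ)
    (r : GQ →* Matrix (Fin 2) (Fin 2) A) (hr : MatContinuous r) :
    ((ofMat r hr).baseChangeAlong φ hφ).IsEquiv (ofMat (mapMat φ r) (hr.map φ hφ)) :=
  ⟨equivBaseChangeOfMat φ hφ r hr⟩

end BaseChange

section Residual

open Module

variable {k : Type} [Field k]

/-- The `ResidualGaloisRep` attached to a matrix-valued representation over a field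
factoring through a finite level. -/
noncomputable def ofMatRes (rb : GQ →* Matrix (Fin 2) (Fin 2) k)
    (h : GaloisFactorsThroughFiniteLevel rb) : ResidualGaloisRep k where
  V := Fin 2 → k
  finrank_eq := by simp
  ρ := ((Matrix.toLinAlgEquiv' : Matrix (Fin 2) (Fin 2) k ≃ₐ[k] Module.End k (Fin 2 → k)) :
    Matrix (Fin 2) (Fin 2) k →* Module.End k (Fin 2 → k)).comp rb
  factorsThroughFiniteLevel := by
    obtain ⟨L, hL, h1⟩ := h
    refine ⟨L, hL, fun σ hσ => ?_⟩
    show Matrix.toLin' (rb σ) = 1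
    rw [h1 σ hσ, Matrix.toLin'_one]
    rfl

theorem ofMatRes_ρ (rb : GQ →* Matrix (Fin 2) (Fin 2) k)
    (h : GaloisFactorsThroughFiniteLevel rb) (σ : GQ) :
    (ofMatRes rb h).ρ σ = Matrix.toLin' (rb σ) := rfl

@[simp]
theorem ofMatRes_ρ_apply (rb : GQ →* Matrix (Fin 2) (Fin 2) k)
    (h : GaloisFactorsThroughFiniteLevel rb) (σ : GQ) (v : Fin 2 → k) :
    (ofMatRes rb h).ρ σ v = (rb σ).mulVec v := rfl

/-- The matrix-valued representation attached to a `ResidualGaloisRep` and a basis. -/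
noncomputable def resMatOf (ρ : ResidualGaloisRep k) (b : Basis (Fin 2) k ρ.V) :
    GQ →* Matrix (Fin 2) (Fin 2) k :=
  ((LinearMap.toMatrixAlgEquiv b : Module.End k ρ.V ≃ₐ[k] Matrix (Fin 2) (Fin 2) k) :
    Module.End k ρ.V →* Matrix (Fin 2) (Fin 2) k).comp ρ.ρ

theorem resMatOf_apply (ρ : ResidualGaloisRep k) (b : Basis (Fin 2) k ρ.V) (σ : GQ) :
    resMatOf ρ b σ = LinearMap.toMatrix b b (ρ.ρ σ) := rfl

theorem resMatOf_factors (ρ : ResidualGaloisRep k) (b : Basis (Fin 2) k ρ.V) :
    GaloisFactorsThroughFiniteLevel (resMatOf ρ b) := by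
  obtain ⟨L, hL, h1⟩ := ρ.factorsThroughFiniteLevel
  refine ⟨L, hL, fun σ hσ => ?_⟩
  rw [resMatOf_apply, h1 σ hσ]
  exact LinearMap.toMatrix_one b

/-- Every `ResidualGaloisRep` is equivalent to the matrix representation in any basis. -/
noncomputable def resEquivOfMatRes (ρ : ResidualGaloisRep k) (b : Basis (Fin 2) k ρ.V) :
    ResidualGaloisRep.Equiv ρ (ofMatRes (resMatOf ρ b) (resMatOf_factors ρ b)) where
  toLinearEquiv := b.equivFun
  map_apply σ x := by
    rw [ofMatRes_ρ_apply, resMatOf_apply]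
    exact (LinearMap.toMatrix_mulVec_repr b b (ρ.ρ σ) x).symm

/-- A basis of the underlying space of a `ResidualGaloisRep`. -/
noncomputable def someResBasis (ρ : ResidualGaloisRep k) : Basis (Fin 2) k ρ.V :=
  Module.finBasisOfFinrankEq k ρ.V ρ.finrank_eq

theorem mapMat_factors {K : Type} [Field K] (φ : k →+* K) {rb : GQ →* Matrix (Fin 2) (Fin 2) k}
    (h : GaloisFactorsThroughFiniteLevel rb) : GaloisFactorsThroughFiniteLevel (mapMat φ rb) := by
  obtain ⟨L, hL, h1⟩ := h
  refine ⟨L, hL, fun σ hσ => ?_⟩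
  rw [mapMat_apply', h1 σ hσ]
  exact Matrix.map_one φ (map_zero φ) (map_one φ)

/-- Base change of `ofMatRes rb` is `ofMatRes` of the pushed-forward matrices. -/
noncomputable def resEquivBaseChangeOfMatRes (K : Type) [Field K] [Algebra k K]
    (rb : GQ →* Matrix (Fin 2) (Fin 2) k) (h : GaloisFactorsThroughFiniteLevel rb) :
    ResidualGaloisRep.Equiv ((ofMatRes rb h).baseChange K)
      (ofMatRes (mapMat (algebraMap k K) rb) (mapMat_factors _ h)) where
  toLinearEquiv := TensorProduct.piScalarRight k K K (Fin 2)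
  map_apply σ x := piScalarRight_baseChange_toLin' (rb σ) x

/-- Base change of an equivalence of residual representations (for an arbitrary algebra
instance). -/
noncomputable def resEquivBaseChange (K : Type) [Field K] [Algebra k K]
    {ρ₁ ρ₂ : ResidualGaloisRep k} (e : ResidualGaloisRep.Equiv ρ₁ ρ₂) :
    ResidualGaloisRep.Equiv (ρ₁.baseChange K) (ρ₂.baseChange K) where
  toLinearEquiv := e.toLinearEquiv.baseChange k K ρ₁.V ρ₂.V
  map_apply σ x := by
    show e.toLinearEquiv.baseChange k K ρ₁.V ρ₂.V ((ρ₁.ρ σ).baseChange K x) =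
      (ρ₂.ρ σ).baseChange K (e.toLinearEquiv.baseChange k K ρ₁.V ρ₂.V x)
    induction x using TensorProduct.induction_on with
    | zero => simp only [map_zero]
    | tmul b v =>
      rw [LinearMap.baseChange_tmul, LinearEquiv.baseChange_tmul, LinearEquiv.baseChange_tmul,
        LinearMap.baseChange_tmul, e.map_apply]
    | add x y hx hy => simp only [map_add, hx, hy]

variable {A : Type} [CommRing A] [IsLocalRing A]

theorem residue_mapMat_factors {r : GQ →* Matrix (Fin 2) (Fin 2) A} (hr : MatContinuous r) :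
    GaloisFactorsThroughFiniteLevel (mapMat (residue A) r) := by
  obtain ⟨L, hL, h1⟩ := hr 1
  refine ⟨L, hL, fun σ hσ => ?_⟩
  ext i j
  have h2 := h1 σ hσ i j
  rw [pow_one, ← residue_eq_zero_iff, Matrix.sub_apply, map_sub, sub_eq_zero] at h2
  rw [mapMat_apply, h2, Matrix.one_apply, Matrix.one_apply]
  split_ifs <;> simp

/-- The residual representation of `ofMat r` is `ofMatRes` of the reduced matrices. -/
noncomputable def resEquivResidualOfMat (r : GQ →* Matrix (Fin 2) (Fin 2) A)
    (hr : MatContinuous r) :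
    ResidualGaloisRep.Equiv (ofMat r hr).residual
      (ofMatRes (mapMat (residue A) r) (residue_mapMat_factors hr)) where
  toLinearEquiv := TensorProduct.piScalarRight A (ResidueField A) (ResidueField A) (Fin 2)
  map_apply σ x := piScalarRight_baseChange_toLin' (r σ) x

/-- Conjugation criterion for `ofMatRes`. -/
theorem res_isEquiv_ofMatRes_iff {r r' : GQ →* Matrix (Fin 2) (Fin 2) k}
    (hr : GaloisFactorsThroughFiniteLevel r) (hr' : GaloisFactorsThroughFiniteLevel r') :
    (ofMatRes r hr).IsEquiv (ofMatRes r' hr') ↔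
      ∃ P : (Matrix (Fin 2) (Fin 2) k)ˣ,
        ∀ σ, (P : Matrix (Fin 2) (Fin 2) k) * r σ = r' σ * P := by
  constructor
  · rintro ⟨E⟩
    let e : (Fin 2 → k) ≃ₗ[k] (Fin 2 → k) := E.toLinearEquiv
    have hE : ∀ σ x, e ((r σ).mulVec x) = (r' σ).mulVec (e x) := fun σ x => E.map_apply σ x
    refine ⟨⟨LinearMap.toMatrix' e.toLinearMap, LinearMap.toMatrix' e.symm.toLinearMap, ?_, ?_⟩,
      fun σ => ?_⟩
    · rw [← LinearMap.toMatrix'_comp, LinearEquiv.comp_symm, LinearMap.toMatrix'_id]
    · rw [← LinearMap.toMatrix'_comp, LinearEquiv.symm_comp, LinearMap.toMatrix'_id]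
    · show LinearMap.toMatrix' e.toLinearMap * r σ = r' σ * LinearMap.toMatrix' e.toLinearMap
      apply Matrix.toLin'.injective
      refine LinearMap.ext fun x => ?_
      rw [Matrix.toLin'_mul, Matrix.toLin'_mul, Matrix.toLin'_toMatrix']
      exact hE σ x
  · rintro ⟨P, h⟩
    exact ⟨{ toLinearEquiv := unitsLinearEquiv P
             map_apply := fun σ x => by
              show (P : Matrix (Fin 2) (Fin 2) k).mulVec ((r σ).mulVec x) =
                (r' σ).mulVec ((P : Matrix (Fin 2) (Fin 2) k).mulVec x)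
              rw [Matrix.mulVec_mulVec, Matrix.mulVec_mulVec, h σ] }⟩

/-- **Lifting a basis with prescribed reduction.** If the residual representation of `ρ` is
equivalent to the base change of `ρbar`, then for every basis `bbar` of `ρbar` there is a basis
of `ρ` in which the matrices of `ρ` reduce exactly to those of `ρbar` in the basis `bbar`. -/
theorem exists_basis_matOf_residue_eq (ρbar : ResidualGaloisRep k) (bbar : Basis (Fin 2) k ρbar.V)
    [Algebra k (ResidueField A)] (ρ : GaloisRepAdic A)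
    (h : ρ.residual.IsEquiv (ρbar.baseChange (ResidueField A))) :
    ∃ b : Basis (Fin 2) A ρ.V,
      mapMat (residue A) (matOf ρ b) = mapMat (algebraMap k (ResidueField A)) (resMatOf ρbar bbar) := by
  obtain ⟨E⟩ := h
  let e : (ResidueField A ⊗[A] ρ.V) ≃ₗ[ResidueField A] (ResidueField A ⊗[k] ρbar.V) :=
    E.toLinearEquiv
  have hE : ∀ σ x, e ((ρ.ρ σ).baseChange (ResidueField A) x) =
      (ρbar.ρ σ).baseChange (ResidueField A) (e x) := fun σ x => E.map_apply σ x
  -- the basis of the base change of `ρbar`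
  let c : Basis (Fin 2) (ResidueField A) (ResidueField A ⊗[k] ρbar.V) :=
    Algebra.TensorProduct.basis (ResidueField A) bbar
  let d : Basis (Fin 2) (ResidueField A) (ResidueField A ⊗[A] ρ.V) := c.map e.symm
  have hsurj : Function.Surjective (TensorProduct.mk A (ResidueField A) ρ.V 1) :=
    TensorProduct.mk_surjective A ρ.V (ResidueField A) IsLocalRing.residue_surjective
  choose v hv using fun i => hsurj (d i)
  have hcomp : (TensorProduct.mk A (ResidueField A) ρ.V 1 ∘ v) = d := funext hv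
  have hbij : Function.Bijective
      (Finsupp.linearCombination (ResidueField A) (TensorProduct.mk A (ResidueField A) ρ.V 1 ∘ v)) := by
    rw [hcomp]
    have : (Finsupp.linearCombination (ResidueField A) (d : Fin 2 → _)) = d.repr.symm.toLinearMap := by
      ext i
      simp
    rw [this]
    exact d.repr.symm.bijective
  have hbij' := IsLocalRing.linearCombination_bijective_of_flat v hbij
  let b : Basis (Fin 2) A ρ.V :=
    Basis.ofRepr (LinearEquiv.ofBijective (Finsupp.linearCombination A v) hbij').symm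
  have hb : ∀ i, b i = v i := fun i => by
    show (LinearEquiv.ofBijective (Finsupp.linearCombination A v) hbij') (Finsupp.single i 1) = v i
    simp
  have hbd : Algebra.TensorProduct.basis (ResidueField A) b = d := by
    apply Basis.eq_of_apply_eq
    intro i
    rw [Algebra.TensorProduct.basis_apply, hb, ← hv i]
    rfl
  refine ⟨b, ?_⟩
  ext σ i j
  have h1 : mapMat (residue A) (matOf ρ b) σ =
      LinearMap.toMatrix d d ((ρ.ρ σ).baseChange (ResidueField A)) := by
    rw [← hbd, LinearMap.toMatrix_baseChange]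
    rfl
  have h2 : mapMat (algebraMap k (ResidueField A)) (resMatOf ρbar bbar) σ =
      LinearMap.toMatrix c c ((ρbar.ρ σ).baseChange (ResidueField A)) := by
    rw [LinearMap.toMatrix_baseChange]
    rfl
  rw [h1, h2, LinearMap.toMatrix_apply, LinearMap.toMatrix_apply]
  have h3 : d j = e.symm (c j) := Basis.map_apply c e.symm j
  rw [h3]
  have h4 : (ρ.ρ σ).baseChange (ResidueField A) (e.symm (c j)) =
      e.symm ((ρbar.ρ σ).baseChange (ResidueField A) (c j)) := by
    apply e.injective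
    rw [hE, LinearEquiv.apply_symm_apply, LinearEquiv.apply_symm_apply]
  rw [h4]
  show (c.map e.symm).repr (e.symm _) i = _
  rw [Basis.map_repr]
  simp

theorem exists_ofMat_isEquiv_of_residual (ρbar : ResidualGaloisRep k)
    (bbar : Basis (Fin 2) k ρbar.V)
    [Algebra k (ResidueField A)] (ρ : GaloisRepAdic A)
    (h : ρ.residual.IsEquiv (ρbar.baseChange (ResidueField A))) :
    ∃ (r : GQ →* Matrix (Fin 2) (Fin 2) A) (hr : MatContinuous r),
      mapMat (residue A) r = mapMat (algebraMap k (ResidueField A)) (resMatOf ρbar bbar) ∧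
        ρ.IsEquiv (ofMat r hr) := by
  obtain ⟨b, hb⟩ := exists_basis_matOf_residue_eq ρbar bbar ρ h
  exact ⟨matOf ρ b, matOf_continuous ρ b, hb, isEquiv_ofMat_matOf ρ b⟩

/-- Converse of `exists_ofMat_isEquiv_of_residual`: a matrix representation reducing to the
matrices of `ρbar` has residual representation equivalent to the base change of `ρbar`. -/
theorem residual_ofMat_isEquiv_baseChange (ρbar : ResidualGaloisRep k)
    (bbar : Basis (Fin 2) k ρbar.V) [Algebra k (ResidueField A)]
    (r : GQ →* Matrix (Fin 2) (Fin 2) A) (hr : MatContinuous r)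
    (h : mapMat (residue A) r = mapMat (algebraMap k (ResidueField A)) (resMatOf ρbar bbar)) :
    (ofMat r hr).residual.IsEquiv (ρbar.baseChange (ResidueField A)) := by
  have e1 := resEquivResidualOfMat r hr
  have e2 := resEquivBaseChangeOfMatRes (ResidueField A) (resMatOf ρbar bbar)
    (resMatOf_factors ρbar bbar)
  have e3 := resEquivBaseChange (ResidueField A) (resEquivOfMatRes ρbar bbar)
  have e4 : ResidualGaloisRep.Equiv
      (ofMatRes (mapMat (residue A) r) (residue_mapMat_factors hr))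
      (ofMatRes (mapMat (algebraMap k (ResidueField A)) (resMatOf ρbar bbar))
        (mapMat_factors _ (resMatOf_factors ρbar bbar))) :=
    { toLinearEquiv := LinearEquiv.refl _ _
      map_apply := fun σ x => by
        show (mapMat (residue A) r σ).mulVec x =
          (mapMat (algebraMap k (ResidueField A)) (resMatOf ρbar bbar) σ).mulVec x
        rw [h] }
  exact ⟨(e1.trans e4).trans (e2.symm.trans e3.symm)⟩

/-- Version of `exists_ofMat_isEquiv_of_residual` for `baseChangeAlong`. -/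
theorem exists_ofMat_isEquiv_of_residual_along (ρbar : ResidualGaloisRep k)
    (bbar : Basis (Fin 2) k ρbar.V) (ψ : k →+* ResidueField A) (ρ : GaloisRepAdic A)
    (h : ρ.residual.IsEquiv (ρbar.baseChangeAlong ψ)) :
    ∃ (r : GQ →* Matrix (Fin 2) (Fin 2) A) (hr : MatContinuous r),
      mapMat (residue A) r = mapMat ψ (resMatOf ρbar bbar) ∧ ρ.IsEquiv (ofMat r hr) :=
  letI : Algebra k (ResidueField A) := ψ.toAlgebra
  exists_ofMat_isEquiv_of_residual ρbar bbar ρ h

/-- Version of `residual_ofMat_isEquiv_baseChange` for `baseChangeAlong`. -/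
theorem residual_ofMat_isEquiv_baseChangeAlong (ρbar : ResidualGaloisRep k)
    (bbar : Basis (Fin 2) k ρbar.V) (ψ : k →+* ResidueField A)
    (r : GQ →* Matrix (Fin 2) (Fin 2) A) (hr : MatContinuous r)
    (h : mapMat (residue A) r = mapMat ψ (resMatOf ρbar bbar)) :
    (ofMat r hr).residual.IsEquiv (ρbar.baseChangeAlong ψ) :=
  letI : Algebra k (ResidueField A) := ψ.toAlgebra
  residual_ofMat_isEquiv_baseChange ρbar bbar r hr h

/-- A representation factoring through a finite level is continuous. -/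
theorem MatContinuous.of_factors {r : GQ →* Matrix (Fin 2) (Fin 2) A}
    (h : GaloisFactorsThroughFiniteLevel r) : MatContinuous r := by
  intro n
  obtain ⟨L, hL, h1⟩ := h
  refine ⟨L, hL, fun σ hσ i j => ?_⟩
  rw [h1 σ hσ, sub_self]
  exact Ideal.zero_mem _

/-- Over a local ring with nilpotent maximal ideal, a continuous representation factors
through a finite level. -/
theorem MatContinuous.factors {r : GQ →* Matrix (Fin 2) (Fin 2) A} (hr : MatContinuous r)
    {n : ℕ} (hn : maximalIdeal A ^ n = ⊥) : GaloisFactorsThroughFiniteLevel r := by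
  obtain ⟨L, hL, h1⟩ := hr n
  refine ⟨L, hL, fun σ hσ => ?_⟩
  have h2 : r σ - 1 = 0 := by
    ext i j
    have := h1 σ hσ i j
    rwa [hn, Ideal.mem_bot] at this
  exact sub_eq_zero.mp h2

/-- Over a field, `ofResidualGaloisRep ρbar` is `ofMat` of the matrices of `ρbar`. -/
noncomputable def equivOfResidualOfMat (ρbar : ResidualGaloisRep k)
    (bbar : Basis (Fin 2) k ρbar.V) :
    GaloisRepAdic.Equiv (GaloisRepAdic.ofResidualGaloisRep ρbar)
      (ofMat (resMatOf ρbar bbar) (MatContinuous.of_factors (resMatOf_factors ρbar bbar))) where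
  toLinearEquiv := bbar.equivFun
  map_apply σ x := by
    rw [ofMat_ρ_apply, resMatOf_apply]
    exact (LinearMap.toMatrix_mulVec_repr bbar bbar (ρbar.ρ σ) x).symm

/-- (NL4) entries of a lift are congruent to any set-theoretic lift of the residual matrices. -/
theorem sub_algebraMap_mem_maximalIdeal {𝒪 : Type} [CommRing 𝒪] [IsLocalRing 𝒪] [Algebra 𝒪 A]
    [IsLocalHom (algebraMap 𝒪 A)] (rb : GQ →* Matrix (Fin 2) (Fin 2) (ResidueField 𝒪))
    (rbt : GQ → Matrix (Fin 2) (Fin 2) 𝒪) (hrbt : ∀ σ i j, residue 𝒪 (rbt σ i j) = rb σ i j)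
    {r : GQ →* Matrix (Fin 2) (Fin 2) A}
    (h : mapMat (residue A) r = mapMat (ResidueField.map (algebraMap 𝒪 A)) rb) (σ : GQ)
    (i j : Fin 2) : r σ i j - algebraMap 𝒪 A (rbt σ i j) ∈ maximalIdeal A := by
  rw [← residue_eq_zero_iff, map_sub, sub_eq_zero]
  have h1 : residue A (r σ i j) = ResidueField.map (algebraMap 𝒪 A) (rb σ i j) := by
    have := congrArg (fun f => f σ i j) h
    simpa using this
  rw [h1, ← hrbt, ResidueField.map_residue]

end Residual

section Invariants

variable {A : Type} [CommRing A] [IsLocalRing A]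

theorem trace_ofMat (r : GQ →* Matrix (Fin 2) (Fin 2) A) (hr : MatContinuous r) (σ : GQ) :
    LinearMap.trace A (Fin 2 → A) ((ofMat r hr).ρ σ) = (r σ).trace := by
  rw [ofMat_ρ]
  exact Matrix.trace_toLin'_eq (r σ)

theorem GaloisRepAdic_trace_ofMat (r : GQ →* Matrix (Fin 2) (Fin 2) A) (hr : MatContinuous r)
    (σ : GQ) : (ofMat r hr).trace σ = (r σ).trace :=
  trace_ofMat r hr σ

theorem det_ofMat (r : GQ →* Matrix (Fin 2) (Fin 2) A) (hr : MatContinuous r) (σ : GQ) :
    LinearMap.det ((ofMat r hr).ρ σ) = (r σ).det := by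
  rw [ofMat_ρ]
  exact LinearMap.det_toLin' (r σ)

theorem charpoly_ofMat (r : GQ →* Matrix (Fin 2) (Fin 2) A) (hr : MatContinuous r) (σ : GQ) :
    LinearMap.charpoly ((ofMat r hr).ρ σ) = (r σ).charpoly := by
  rw [ofMat_ρ]
  exact Matrix.charpoly_toLin' (r σ)

end Invariants

section DeformationCondition

open GaloisRep

variable {𝒪 : Type} [CommRing 𝒪] [IsLocalRing 𝒪]
  {𝒟 : ∀ ⦃A : Type⦄ [CommRing A] [IsLocalRing A] [Algebra 𝒪 A], GaloisRepAdic A → Prop}
  {A : Type} [CommRing A] [IsLocalRing A] [Algebra 𝒪 A]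
  {B : Type} [CommRing B] [IsLocalRing B] [Algebra 𝒪 B]

/-- (NL1) the condition is stable under push-forward of matrices. -/
theorem cond_mapMat (h𝒟 : IsDeformationCondition 𝒪 𝒟) (hA : IsArtinianTestAlgebra 𝒪 A)
    (hB : IsArtinianTestAlgebra 𝒪 B) (φ : A →ₐ[𝒪] B) (hφ : IsLocalHom (φ : A →+* B))
    {r : GQ →* Matrix (Fin 2) (Fin 2) A} (hr : MatContinuous r) (h : 𝒟 (ofMat r hr)) :
    𝒟 (ofMat (mapMat (φ : A →+* B) r) (hr.map _ hφ)) :=
  h𝒟.of_isEquiv hB (isEquiv_baseChangeAlong_ofMat (φ : A →+* B) hφ r hr)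
    (h𝒟.baseChangeAlong hA hB φ hφ h)

/-- (NL2) the condition descends along injective maps. -/
theorem cond_of_mapMat_injective (h𝒟 : IsDeformationCondition 𝒪 𝒟)
    (hA : IsArtinianTestAlgebra 𝒪 A)
    (hB : IsArtinianTestAlgebra 𝒪 B) (φ : A →ₐ[𝒪] B) (hφ : IsLocalHom (φ : A →+* B))
    (hinj : Function.Injective φ)
    {r : GQ →* Matrix (Fin 2) (Fin 2) A} (hr : MatContinuous r)
    (h : 𝒟 (ofMat (mapMat (φ : A →+* B) r) (hr.map _ hφ))) : 𝒟 (ofMat r hr) :=
  h𝒟.of_baseChangeAlong_injective hA hB φ hφ hinj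
    (h𝒟.of_isEquiv hB
      ⟨(equivBaseChangeOfMat (φ : A →+* B) hφ r hr).symm⟩ h)

/-- (NL3) the condition glues along fibre products. -/
theorem cond_of_fibreProduct (h𝒟 : IsDeformationCondition 𝒪 𝒟)
    {C P : Type} [CommRing C] [IsLocalRing C] [Algebra 𝒪 C]
    [CommRing P] [IsLocalRing P] [Algebra 𝒪 P]
    (hA : IsArtinianTestAlgebra 𝒪 A) (hB : IsArtinianTestAlgebra 𝒪 B)
    (hC : IsArtinianTestAlgebra 𝒪 C) (hP : IsArtinianTestAlgebra 𝒪 P)
    (f : A →ₐ[𝒪] C) (g : B →ₐ[𝒪] C) (pA : P →ₐ[𝒪] A) (pB : P →ₐ[𝒪] B)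
    (hpA : IsLocalHom (pA : P →+* A)) (hpB : IsLocalHom (pB : P →+* B))
    (hfg : f.comp pA = g.comp pB)
    (hinj : Function.Injective (fun x => (pA x, pB x)))
    (hex : ∀ a b, f a = g b → ∃ x, pA x = a ∧ pB x = b)
    {r : GQ →* Matrix (Fin 2) (Fin 2) P} (hr : MatContinuous r)
    (h1 : 𝒟 (ofMat (mapMat (pA : P →+* A) r) (hr.map _ hpA)))
    (h2 : 𝒟 (ofMat (mapMat (pB : P →+* B) r) (hr.map _ hpB))) : 𝒟 (ofMat r hr) :=
  h𝒟.of_fibreProduct hA hB hC hP f g pA pB hpA hpB hfg hinj hex
    (h𝒟.of_isEquiv hA ⟨(equivBaseChangeOfMat (pA : P →+* A) hpA r hr).symm⟩ h1)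
    (h𝒟.of_isEquiv hB ⟨(equivBaseChangeOfMat (pB : P →+* B) hpB r hr).symm⟩ h2)

/-- The condition is invariant under conjugation (over Artinian test algebras). -/
theorem cond_of_conj (h𝒟 : IsDeformationCondition 𝒪 𝒟) (hA : IsArtinianTestAlgebra 𝒪 A)
    {r r' : GQ →* Matrix (Fin 2) (Fin 2) A} (hr : MatContinuous r) (hr' : MatContinuous r')
    (P : (Matrix (Fin 2) (Fin 2) A)ˣ)
    (hP : ∀ σ, (P : Matrix (Fin 2) (Fin 2) A) * r σ = r' σ * P) (h : 𝒟 (ofMat r hr)) :
    𝒟 (ofMat r' hr') :=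
  h𝒟.of_isEquiv hA ⟨equivOfConj hr hr' P hP⟩ h

end DeformationCondition

end Fermat.Agent.S53.Mat
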