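import Mathlib

/-!
# Adic completeness of power series rings over complete local rings

Helper library for S53 (owner of this file: helper15).
All declarations live in namespace `Fermat.Agent.S53.PSC`.
-/

namespace Fermat.Agent.S53.PSC

open IsLocalRing

section OneVariable

variable {R : Type*} [CommRing R] [IsLocalRing R]

theorem ps_mem_maximalIdeal_iff (f : PowerSeries R) :
    f ∈ maximalIdeal (PowerSeries R) ↔ PowerSeries.constantCoeff f ∈ maximalIdeal R := by
  rw [mem_maximalIdeal, mem_maximalIdeal, mem_nonunits_iff, mem_nonunits_iff,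
    PowerSeries.isUnit_iff_constantCoeff]

theorem ps_X_mem_maximalIdeal : (PowerSeries.X : PowerSeries R) ∈ maximalIdeal (PowerSeries R) := by
  rw [ps_mem_maximalIdeal_iff, PowerSeries.constantCoeff_X]
  exact zero_mem _

theorem ps_C_mem_maximalIdeal_pow {n : ℕ} {c : R} (hc : c ∈ maximalIdeal R ^ n) :
    PowerSeries.C c ∈ maximalIdeal (PowerSeries R) ^ n := by
  have h1 : (maximalIdeal R).map (PowerSeries.C (R := R)) ≤ maximalIdeal (PowerSeries R) := by
    rw [Ideal.map_le_iff_le_comap]
    intro x hx
    rw [Ideal.mem_comap, ps_mem_maximalIdeal_iff, PowerSeries.constantCoeff_C]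
    exact hx
  have h2 : PowerSeries.C c ∈ ((maximalIdeal R) ^ n).map (PowerSeries.C (R := R)) :=
    Ideal.mem_map_of_mem _ hc
  rw [Ideal.map_pow] at h2
  exact Ideal.pow_right_mono h1 n h2

/-- Claim A: coefficients of elements of `𝔐 ^ n`. -/
theorem ps_coeff_mem_of_mem_pow {n : ℕ} {f : PowerSeries R}
    (hf : f ∈ maximalIdeal (PowerSeries R) ^ n) (i : ℕ) :
    PowerSeries.coeff i f ∈ maximalIdeal R ^ (n - i) := by
  induction n generalizing f i with
  | zero => simp
  | succ n ih =>
    rw [pow_succ] at hf
    refine Submodule.mul_induction_on hf ?_ ?_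
    · intro g hg h hh
      rw [PowerSeries.coeff_mul]
      refine Ideal.sum_mem _ ?_
      rintro ⟨a, b⟩ hab
      have hab' : a + b = i := by simpa using hab
      simp only
      have hga := ih hg a
      by_cases hb : b = 0
      · subst hb
        have hh0 : PowerSeries.coeff 0 h ∈ maximalIdeal R := by
          have := (ps_mem_maximalIdeal_iff h).1 hh
          simpa using this
        have : PowerSeries.coeff a g * PowerSeries.coeff 0 h ∈ maximalIdeal R ^ (n - a + 1) := by
          rw [pow_succ]
          exact Ideal.mul_mem_mul hga hh0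
        refine Ideal.pow_le_pow_right ?_ this
        omega
      · have : PowerSeries.coeff a g ∈ maximalIdeal R ^ (n + 1 - i) := by
          refine Ideal.pow_le_pow_right ?_ hga
          omega
        exact Ideal.mul_mem_right _ _ this
    · intro x y hx hy
      rw [map_add]
      exact Ideal.add_mem _ hx hy

/-- Claim B: a power series whose low coefficients are deep in `𝔪` lies in `𝔐 ^ n`. -/
theorem ps_mem_pow_of_coeff_mem {n : ℕ} {f : PowerSeries R}
    (hf : ∀ i < n, PowerSeries.coeff i f ∈ maximalIdeal R ^ (n - i)) :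
    f ∈ maximalIdeal (PowerSeries R) ^ n := by
  induction n generalizing f with
  | zero => simp
  | succ n ih =>
    rw [PowerSeries.eq_X_mul_shift_add_const f]
    refine Ideal.add_mem _ ?_ ?_
    · rw [pow_succ']
      refine Ideal.mul_mem_mul ps_X_mem_maximalIdeal (ih ?_)
      intro i hi
      rw [PowerSeries.coeff_mk]
      have := hf (i + 1) (by omega)
      rwa [Nat.add_sub_add_right] at this
    · refine ps_C_mem_maximalIdeal_pow ?_
      have := hf 0 (by omega)
      simpa using this

theorem ps_isHausdorff [IsHausdorff (maximalIdeal R) R] :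
    IsHausdorff (maximalIdeal (PowerSeries R)) (PowerSeries R) := by
  rw [isHausdorff_iff]
  intro f hf
  ext i
  rw [map_zero]
  refine (isHausdorff_iff.1 (inferInstance : IsHausdorff (maximalIdeal R) R)) _ ?_
  intro n
  have h1 := hf (n + i)
  rw [SModEq.zero, smul_eq_mul, Ideal.mul_top] at h1 ⊢
  have := ps_coeff_mem_of_mem_pow h1 i
  rwa [Nat.add_sub_cancel] at this

theorem ps_isPrecomplete [IsPrecomplete (maximalIdeal R) R] :
    IsPrecomplete (maximalIdeal (PowerSeries R)) (PowerSeries R) := by
  rw [isPrecomplete_iff]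
  intro f hf
  have hf' : ∀ {m n : ℕ}, m ≤ n → f m - f n ∈ maximalIdeal (PowerSeries R) ^ m := by
    intro m n hmn
    have := hf hmn
    rwa [SModEq.sub_mem, smul_eq_mul, Ideal.mul_top] at this
  -- coefficientwise limits
  have key : ∀ i : ℕ, ∃ L : R, ∀ n : ℕ,
      PowerSeries.coeff i (f (n + i)) - L ∈ maximalIdeal R ^ n := by
    intro i
    obtain ⟨L, hL⟩ := (isPrecomplete_iff.1 (inferInstance : IsPrecomplete (maximalIdeal R) R))
      (fun n => PowerSeries.coeff i (f (n + i))) (by
        intro m n hmn
        rw [SModEq.sub_mem, smul_eq_mul, Ideal.mul_top, ← map_sub]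
        have := ps_coeff_mem_of_mem_pow (hf' (Nat.add_le_add_right hmn i)) i
        rwa [Nat.add_sub_cancel] at this)
    refine ⟨L, fun n => ?_⟩
    have := hL n
    rwa [SModEq.sub_mem, smul_eq_mul, Ideal.mul_top] at this
  choose L hL using key
  refine ⟨PowerSeries.mk L, fun n => ?_⟩
  rw [SModEq.sub_mem, smul_eq_mul, Ideal.mul_top]
  refine ps_mem_pow_of_coeff_mem ?_
  intro i hi
  rw [map_sub, PowerSeries.coeff_mk]
  have := hL i (n - i)
  rwa [Nat.sub_add_cancel hi.le] at this

theorem ps_isAdicComplete [IsAdicComplete (maximalIdeal R) R] :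
    IsAdicComplete (maximalIdeal (PowerSeries R)) (PowerSeries R) :=
  { toIsHausdorff := ps_isHausdorff
    toIsPrecomplete := ps_isPrecomplete }

end OneVariable

section MultiVariable

variable {R : Type*} [CommRing R] [IsLocalRing R]

theorem isAdicComplete_of_ringEquiv {A B : Type*} [CommRing A] [CommRing B] [IsLocalRing A]
    [IsLocalRing B] (e : A ≃+* B) [h : IsAdicComplete (maximalIdeal A) A] :
    IsAdicComplete (maximalIdeal B) B := by
  have : (maximalIdeal A).map e = maximalIdeal B := by
    ext x
    rw [Ideal.mem_map_iff_of_surjective _ e.surjective]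
    constructor
    · rintro ⟨y, hy, rfl⟩
      rw [mem_maximalIdeal, mem_nonunits_iff] at hy ⊢
      rwa [MulEquiv.isUnit_map]
    · intro hx
      refine ⟨e.symm x, ?_, e.apply_symm_apply x⟩
      rw [mem_maximalIdeal, mem_nonunits_iff] at hx ⊢
      rwa [MulEquiv.isUnit_map]
  rw [← this]
  exact (IsAdicComplete.congr_ringEquiv _ e).2 h

theorem mvps_isAdicComplete [IsAdicComplete (maximalIdeal R) R] (d : ℕ) :
    IsAdicComplete (maximalIdeal (MvPowerSeries (Fin d) R)) (MvPowerSeries (Fin d) R) := by
  induction d with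
  | zero =>
    exact isAdicComplete_of_ringEquiv (MvPowerSeries.isEmptyEquiv (Fin 0) R).symm.toRingEquiv
  | succ n ih =>
    have := ih
    have : IsAdicComplete (maximalIdeal (PowerSeries (MvPowerSeries (Fin n) R)))
        (PowerSeries (MvPowerSeries (Fin n) R)) := ps_isAdicComplete
    exact isAdicComplete_of_ringEquiv (MvPowerSeries.finSuccEquiv R n).symm.toRingEquiv

end MultiVariable

end Fermat.Agent.S53.PSC
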