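import Mathlib.RingTheory.LocalRing.ResidueField.Basic
import Mathlib.RingTheory.LocalRing.RingHom.Basic
import Mathlib.RingTheory.Ideal.Quotient.Operations
import Fermat.Prelude.Thm_IsLocalRing_isAdicComplete_of_module_finite
import Fermat.Agent.S53.PowerSeriesComplete

/-!
# Quotients of complete noetherian local `𝒪`-algebras

For a noetherian local ring `P`, complete for its maximal ideal, which is an `𝒪`-algebra with
local structure map inducing a surjection on residue fields, and a proper ideal `J` of `P`,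
the quotient `P ⧸ J` has the same properties.  Applied to `P = MvPowerSeries (Fin r) 𝒪`.
-/

set_option linter.style.haveILetI false
set_option linter.unusedSectionVars false

namespace Fermat.Agent.S53

open IsLocalRing

section General

variable {P : Type*} [CommRing P] [IsLocalRing P]

theorem quot_nontrivial {J : Ideal P} (hJ : J ≠ ⊤) : Nontrivial (P ⧸ J) :=
  Ideal.Quotient.nontrivial_iff.mpr hJ

theorem quot_isLocalRing {J : Ideal P} (hJ : J ≠ ⊤) : IsLocalRing (P ⧸ J) :=
  haveI := quot_nontrivial hJ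
  IsLocalRing.of_surjective' (Ideal.Quotient.mk J) Ideal.Quotient.mk_surjective

theorem quot_mk_isLocalHom {J : Ideal P} (hJ : J ≠ ⊤) :
    haveI := quot_isLocalRing hJ
    IsLocalHom (Ideal.Quotient.mk J) := by
  haveI := quot_isLocalRing hJ
  haveI := quot_nontrivial hJ
  exact IsLocalHom.of_surjective _ Ideal.Quotient.mk_surjective

theorem quot_isAdicComplete [IsNoetherianRing P] [IsAdicComplete (maximalIdeal P) P]
    {J : Ideal P} (hJ : J ≠ ⊤) :
    haveI := quot_isLocalRing hJ
    IsAdicComplete (maximalIdeal (P ⧸ J)) (P ⧸ J) := by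
  haveI := quot_isLocalRing hJ
  haveI : IsLocalHom (algebraMap P (P ⧸ J)) := quot_mk_isLocalHom hJ
  exact IsLocalRing.isAdicComplete_of_module_finite (𝒪 := P) (T := P ⧸ J)

variable {𝒪 : Type*} [CommRing 𝒪] [IsLocalRing 𝒪] [Algebra 𝒪 P]

theorem quot_algebraMap_isLocalHom [IsLocalHom (algebraMap 𝒪 P)] {J : Ideal P} (hJ : J ≠ ⊤) :
    haveI := quot_isLocalRing hJ
    IsLocalHom (algebraMap 𝒪 (P ⧸ J)) := by
  haveI := quot_isLocalRing hJ
  haveI : IsLocalHom (Ideal.Quotient.mk J) := quot_mk_isLocalHom hJ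
  have h : algebraMap 𝒪 (P ⧸ J) = (Ideal.Quotient.mk J).comp (algebraMap 𝒪 P) := rfl
  rw [h]
  exact RingHom.isLocalHom_comp _ _

theorem quot_residue_surjective
    (hres : Function.Surjective (IsLocalRing.residue P ∘ algebraMap 𝒪 P))
    {J : Ideal P} (hJ : J ≠ ⊤) :
    haveI := quot_isLocalRing hJ
    Function.Surjective (IsLocalRing.residue (P ⧸ J) ∘ algebraMap 𝒪 (P ⧸ J)) := by
  haveI := quot_isLocalRing hJ
  haveI : IsLocalHom (Ideal.Quotient.mk J) := quot_mk_isLocalHom hJ
  intro y
  obtain ⟨x, rfl⟩ := IsLocalRing.residue_surjective y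
  obtain ⟨p, rfl⟩ := Ideal.Quotient.mk_surjective x
  obtain ⟨c, hc⟩ := hres (IsLocalRing.residue P p)
  refine ⟨c, ?_⟩
  simp only [Function.comp_apply] at hc ⊢
  have h : algebraMap 𝒪 (P ⧸ J) c = Ideal.Quotient.mk J (algebraMap 𝒪 P c) := rfl
  rw [h]
  -- residue (mk a) = residue (mk b) as soon as residue a = residue b
  rw [← sub_eq_zero, ← map_sub, ← map_sub, IsLocalRing.residue_eq_zero_iff]
  have h2 : algebraMap 𝒪 P c - p ∈ maximalIdeal P := by
    rw [← IsLocalRing.residue_eq_zero_iff, map_sub, hc, sub_self]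
  rw [mem_maximalIdeal, mem_nonunits_iff] at h2 ⊢
  exact fun hu => h2 (isUnit_of_map_unit (Ideal.Quotient.mk J) _ hu)

end General

section PowerSeries

variable (𝒪 : Type*) [CommRing 𝒪] [IsLocalRing 𝒪]

theorem mvPS_mem_maximalIdeal_iff {σ : Type*} (f : MvPowerSeries σ 𝒪) :
    f ∈ maximalIdeal (MvPowerSeries σ 𝒪) ↔
      MvPowerSeries.constantCoeff f ∈ maximalIdeal 𝒪 := by
  rw [mem_maximalIdeal, mem_maximalIdeal, mem_nonunits_iff, mem_nonunits_iff,
    MvPowerSeries.isUnit_iff_constantCoeff]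

theorem mvPS_X_mem_maximalIdeal {σ : Type*} (i : σ) :
    (MvPowerSeries.X i : MvPowerSeries σ 𝒪) ∈ maximalIdeal (MvPowerSeries σ 𝒪) := by
  rw [mvPS_mem_maximalIdeal_iff]
  simp

instance mvPS_algebraMap_isLocalHom {σ : Type*} :
    IsLocalHom (algebraMap 𝒪 (MvPowerSeries σ 𝒪)) where
  map_nonunit a ha := by
    rw [MvPowerSeries.algebraMap_apply, MvPowerSeries.isUnit_iff_constantCoeff] at ha
    simpa using ha

theorem mvPS_residue_surjective {σ : Type*} :
    Function.Surjective (IsLocalRing.residue (MvPowerSeries σ 𝒪) ∘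
      algebraMap 𝒪 (MvPowerSeries σ 𝒪)) := by
  intro y
  obtain ⟨f, rfl⟩ := IsLocalRing.residue_surjective y
  refine ⟨MvPowerSeries.constantCoeff f, ?_⟩
  simp only [Function.comp_apply]
  rw [← sub_eq_zero, ← map_sub, IsLocalRing.residue_eq_zero_iff, mvPS_mem_maximalIdeal_iff,
    map_sub, MvPowerSeries.algebraMap_apply]
  simp

/-- compatibility name: completeness of `MvPowerSeries (Fin r) A`, proved by helper15 as
`Fermat.Agent.S53.PSC.mvps_isAdicComplete` in `Fermat.Agent.S53.PowerSeriesComplete`. -/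
theorem mvPowerSeries_isAdicComplete (A : Type*) [CommRing A] [IsLocalRing A]
    [IsAdicComplete (maximalIdeal A) A] (r : ℕ) :
    IsAdicComplete (maximalIdeal (MvPowerSeries (Fin r) A)) (MvPowerSeries (Fin r) A) :=
  PSC.mvps_isAdicComplete r

end PowerSeries

end Fermat.Agent.S53
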