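import Mathlib
import Fermat.Prelude.Def_GaloisRep_DeformationRingData
import Fermat.Prelude.Def_GaloisRep_DeformationCondition
import Fermat.Agent.S53.MatRep
import Fermat.Agent.S53.QuotientComplete

/-!
# S53, part P6: final assembly

From a complete noetherian local `𝒪`-algebra `R` with a normalized matrix representation
`r : G →* M₂(R)` which is universal among normalized lifts to Artinian test algebras, we build
the `DeformationRingData`.
-/

set_option autoImplicit false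
set_option linter.style.haveILetI false
set_option linter.unusedSectionVars false
set_option linter.unusedVariables false

open IsLocalRing GaloisRep

namespace Fermat.Agent.S53.Asm

open Fermat.Agent.S53 Fermat.Agent.S53.Mat

section CommAlg

variable {𝒪 : Type} [CommRing 𝒪] [IsLocalRing 𝒪]

/-- Any `𝒪`-algebra homomorphism into a local `𝒪`-algebra whose residue field is that of `𝒪`
is a local homomorphism. -/
theorem algHom_isLocalHom {R A : Type} [CommRing R] [IsLocalRing R] [Algebra 𝒪 R]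
    [CommRing A] [IsLocalRing A] [Algebra 𝒪 A] [IsLocalHom (algebraMap 𝒪 A)]
    (hA : Function.Surjective (residue A ∘ algebraMap 𝒪 A)) (φ : R →ₐ[𝒪] A) :
    IsLocalHom (φ : R →+* A) := by
  constructor
  intro x hx
  have hx' : IsUnit (φ x) := hx
  by_contra hnu
  obtain ⟨o, ho⟩ := hA (residue A (φ x))
  simp only [Function.comp_apply] at ho
  -- `o` is a unit
  have ho_unit : IsUnit o := by
    apply isUnit_of_map_unit (algebraMap 𝒪 A)
    by_contra h
    have h1 : residue A (algebraMap 𝒪 A o) = 0 := (residue_eq_zero_iff _).mpr h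
    rw [ho, residue_eq_zero_iff] at h1
    exact h1 hx'
  -- `x - algebraMap o` is a unit of `R`
  have hy : IsUnit (x - algebraMap 𝒪 R o) := by
    have h1 : IsUnit (algebraMap 𝒪 R o) := ho_unit.map _
    by_contra h
    have h2 : x - algebraMap 𝒪 R o ∈ maximalIdeal R := h
    have h3 : x ∈ maximalIdeal R := hnu
    have h4 : algebraMap 𝒪 R o ∈ maximalIdeal R := by
      have := Ideal.sub_mem _ h3 h2
      simpa using this
    exact h4 h1
  have hy' : IsUnit (φ (x - algebraMap 𝒪 R o)) := hy.map φ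
  rw [map_sub, AlgHom.commutes] at hy'
  have h5 : φ x - algebraMap 𝒪 A o ∈ maximalIdeal A := by
    rw [← residue_eq_zero_iff, map_sub, ho, sub_self]
  exact h5 hy'

variable {A : Type} [CommRing A] [IsLocalRing A]

theorem maximalIdeal_pow_succ_ne_top (n : ℕ) : maximalIdeal A ^ (n + 1) ≠ ⊤ := by
  intro h
  have h1 : maximalIdeal A ^ (n + 1) ≤ maximalIdeal A := Ideal.pow_le_self (Nat.succ_ne_zero n)
  rw [h] at h1
  exact (maximalIdeal.isMaximal A).ne_top (top_le_iff.mp h1)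

theorem quotPow_isLocalRing (A : Type) [CommRing A] [IsLocalRing A] (n : ℕ) :
    IsLocalRing (A ⧸ maximalIdeal A ^ (n + 1)) :=
  quot_isLocalRing (maximalIdeal_pow_succ_ne_top n)

theorem quotPow_mk_isLocalHom (A : Type) [CommRing A] [IsLocalRing A] (n : ℕ) :
    haveI := quotPow_isLocalRing A n
    IsLocalHom (Ideal.Quotient.mk (maximalIdeal A ^ (n + 1))) :=
  quot_mk_isLocalHom (maximalIdeal_pow_succ_ne_top n)

theorem quotPow_maximalIdeal_pow (A : Type) [CommRing A] [IsLocalRing A] (n : ℕ) :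
    haveI := quotPow_isLocalRing A n
    maximalIdeal (A ⧸ maximalIdeal A ^ (n + 1)) ^ (n + 1) = ⊥ := by
  haveI := quotPow_isLocalRing A n
  haveI := quotPow_mk_isLocalHom A n
  have h1 : maximalIdeal (A ⧸ maximalIdeal A ^ (n + 1)) =
      (maximalIdeal A).map (Ideal.Quotient.mk (maximalIdeal A ^ (n + 1))) := by
    apply le_antisymm
    · intro y hy
      obtain ⟨x, rfl⟩ := Ideal.Quotient.mk_surjective y
      apply Ideal.mem_map_of_mem
      rw [mem_maximalIdeal, mem_nonunits_iff] at hy ⊢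
      exact fun hu => hy (hu.map _)
    · rw [Ideal.map_le_iff_le_comap]
      intro x hx
      rw [Ideal.mem_comap, mem_maximalIdeal, mem_nonunits_iff]
      exact fun hu => hx (isUnit_of_map_unit _ _ hu)
  rw [h1, ← Ideal.map_pow, Ideal.map_quotient_self]

variable [Algebra 𝒪 A] [IsLocalHom (algebraMap 𝒪 A)]

theorem quotPow_isArtinianTestAlgebra [IsNoetherianRing A]
    (hres : Function.Surjective (residue A ∘ algebraMap 𝒪 A)) (n : ℕ) :
    haveI := quotPow_isLocalRing A n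
    IsArtinianTestAlgebra 𝒪 (A ⧸ maximalIdeal A ^ (n + 1)) := by
  haveI := quotPow_isLocalRing A n
  refine ⟨quot_algebraMap_isLocalHom (maximalIdeal_pow_succ_ne_top n),
    quot_residue_surjective hres (maximalIdeal_pow_succ_ne_top n), ?_⟩
  rw [isArtinianRing_iff_isNilpotent_maximalIdeal]
  exact ⟨n + 1, quotPow_maximalIdeal_pow A n⟩

/-- In a Hausdorff local ring, an element lying in all powers of the maximal ideal vanishes. -/
theorem eq_of_forall_mk_eq {A : Type} [CommRing A] [IsLocalRing A]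
    [IsHausdorff (maximalIdeal A) A] {x y : A}
    (h : ∀ n : ℕ, Ideal.Quotient.mk (maximalIdeal A ^ n) x =
      Ideal.Quotient.mk (maximalIdeal A ^ n) y) : x = y := by
  rw [← sub_eq_zero]
  apply IsHausdorff.haus (I := maximalIdeal A) inferInstance
  intro n
  rw [SModEq.zero, smul_eq_mul, Ideal.mul_top]
  have := h n
  rwa [Ideal.Quotient.eq] at this

end CommAlg

section Lift

variable {𝒪 : Type} [CommRing 𝒪] [IsLocalRing 𝒪]
  {R : Type} [CommRing R] [Algebra 𝒪 R]
  {A : Type} [CommRing A] [IsLocalRing A] [Algebra 𝒪 A]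
  [IsAdicComplete (maximalIdeal A) A]

/-- Lifting a family of `𝒪`-algebra maps `R → A ⧸ 𝔪 ^ (n + 1)`, compatible in the sense that
they are pinned down on a generating family, to an `𝒪`-algebra map `R → A`. -/
theorem exists_lift_of_compatible
    (φ : ∀ n : ℕ, R →ₐ[𝒪] A ⧸ maximalIdeal A ^ (n + 1))
    (hφ : ∀ m n : ℕ, ∀ h : m ≤ n,
      (Ideal.Quotient.factorₐ 𝒪 (Ideal.pow_le_pow_right (Nat.succ_le_succ h))).comp (φ n) = φ m) :
    ∃ Φ : R →ₐ[𝒪] A, ∀ n x, Ideal.Quotient.mk (maximalIdeal A ^ (n + 1)) (Φ x) = φ n x := by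
  let f : ∀ n : ℕ, R →ₐ[𝒪] A ⧸ maximalIdeal A ^ n := fun n =>
    (Ideal.Quotient.factorₐ 𝒪 (Ideal.pow_le_pow_right (Nat.le_succ n))).comp (φ n)
  have hf : ∀ {m n : ℕ} (hle : m ≤ n),
      (Ideal.Quotient.factorₐ 𝒪 (Ideal.pow_le_pow_right hle)).comp (f n) = f m := by
    intro m n hle
    ext x
    simp only [f, AlgHom.comp_apply]
    rw [← hφ m n hle]
    simp only [AlgHom.comp_apply]
    obtain ⟨y, hy⟩ := Ideal.Quotient.mk_surjective (φ n x)
    rw [← hy]
    rfl
  refine ⟨IsAdicComplete.liftAlgHom (maximalIdeal A) f hf, fun n x => ?_⟩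
  have h1 := IsAdicComplete.mk_liftAlgHom (maximalIdeal A) f hf (n + 1) x
  rw [h1]
  simp only [f, AlgHom.comp_apply]
  rw [← hφ n (n + 1) (Nat.le_succ n)]
  simp only [AlgHom.comp_apply]

end Lift

section Main

variable {𝒪 : Type} [CommRing 𝒪] [IsLocalRing 𝒪]
  {𝒟 : ∀ ⦃A : Type⦄ [CommRing A] [IsLocalRing A] [Algebra 𝒪 A], GaloisRepAdic A → Prop}
  (rb : GQ →* Matrix (Fin 2) (Fin 2) (ResidueField 𝒪))
  (NL : ∀ ⦃A : Type⦄ [CommRing A] [IsLocalRing A] [Algebra 𝒪 A],
    (GQ →* Matrix (Fin 2) (Fin 2) A) → Prop)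
  {R : Type} [CommRing R] [IsLocalRing R] [Algebra 𝒪 R]
  (r : GQ →* Matrix (Fin 2) (Fin 2) R) (hr : MatContinuous r)

/-- The hypothesis that the normal form is preserved by local `𝒪`-algebra maps. -/
def NLMap : Prop :=
  ∀ ⦃A B : Type⦄ [CommRing A] [IsLocalRing A] [Algebra 𝒪 A]
    [CommRing B] [IsLocalRing B] [Algebra 𝒪 B] (φ : A →ₐ[𝒪] B), IsLocalHom (φ : A →+* B) →
    ∀ r : GQ →* Matrix (Fin 2) (Fin 2) A, NL r → NL (mapMat (φ : A →+* B) r)

/-- The hypothesis that a normalized representation reduces to `rb`. -/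
def NLRes : Prop :=
  ∀ ⦃A : Type⦄ [CommRing A] [IsLocalRing A] [Algebra 𝒪 A] [IsLocalHom (algebraMap 𝒪 A)]
    (r : GQ →* Matrix (Fin 2) (Fin 2) A), NL r →
      mapMat (residue A) r = mapMat (ResidueField.map (algebraMap 𝒪 A)) rb

/-- Rigidity: conjugate normalized representations over a coefficient ring are equal. -/
def NLRig : Prop :=
  ∀ ⦃A : Type⦄ [CommRing A] [IsLocalRing A] [Algebra 𝒪 A] [IsNoetherianRing A]
    [IsAdicComplete (maximalIdeal A) A] [IsLocalHom (algebraMap 𝒪 A)],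
    Function.Surjective (residue A ∘ algebraMap 𝒪 A) →
    ∀ r r' : GQ →* Matrix (Fin 2) (Fin 2) A, MatContinuous r → MatContinuous r' → NL r → NL r' →
      (∃ P : (Matrix (Fin 2) (Fin 2) A)ˣ,
        ∀ σ, (P : Matrix (Fin 2) (Fin 2) A) * r σ = r' σ * P) → r = r'

/-- Existence: every lift of `rb` over a coefficient ring is conjugate to a normalized one. -/
def NLEx : Prop :=
  ∀ ⦃A : Type⦄ [CommRing A] [IsLocalRing A] [Algebra 𝒪 A] [IsNoetherianRing A]
    [IsAdicComplete (maximalIdeal A) A] [IsLocalHom (algebraMap 𝒪 A)],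
    Function.Surjective (residue A ∘ algebraMap 𝒪 A) →
    ∀ r : GQ →* Matrix (Fin 2) (Fin 2) A, MatContinuous r →
      mapMat (residue A) r = mapMat (ResidueField.map (algebraMap 𝒪 A)) rb →
      ∃ r' : GQ →* Matrix (Fin 2) (Fin 2) A, MatContinuous r' ∧ NL r' ∧
        ∃ P : (Matrix (Fin 2) (Fin 2) A)ˣ,
          ∀ σ, (P : Matrix (Fin 2) (Fin 2) A) * r σ = r' σ * P

/-- [T] every Artinian quotient of the universal framed representation is of type `𝒟`. -/
def UnivType (𝒟 : ∀ ⦃A : Type⦄ [CommRing A] [IsLocalRing A] [Algebra 𝒪 A],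
    GaloisRepAdic A → Prop) : Prop :=
  ∀ ⦃B : Type⦄ [CommRing B] [IsLocalRing B] [Algebra 𝒪 B], IsArtinianTestAlgebra 𝒪 B →
    ∀ (q : R →ₐ[𝒪] B) (hq : IsLocalHom (q : R →+* B)), Function.Surjective q →
      𝒟 (ofMat (mapMat (q : R →+* B) r) (hr.map _ hq))

/-- [E] every normalized lift of type `𝒟` over a test algebra comes from the universal one. -/
def UnivExists (𝒟 : ∀ ⦃A : Type⦄ [CommRing A] [IsLocalRing A] [Algebra 𝒪 A],
    GaloisRepAdic A → Prop) : Prop :=
  ∀ ⦃A : Type⦄ [CommRing A] [IsLocalRing A] [Algebra 𝒪 A], IsArtinianTestAlgebra 𝒪 A →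
    ∀ (s : GQ →* Matrix (Fin 2) (Fin 2) A) (hs : MatContinuous s), NL s → 𝒟 (ofMat s hs) →
      ∃ φ : R →ₐ[𝒪] A, mapMat (φ : R →+* A) r = s

/-- [G] maps from the universal ring to test algebras are determined by the images of the
matrix entries. -/
def UnivGen : Prop :=
  ∀ ⦃A : Type⦄ [CommRing A] [IsLocalRing A] [Algebra 𝒪 A], IsArtinianTestAlgebra 𝒪 A →
    ∀ φ φ' : R →ₐ[𝒪] A, mapMat (φ : R →+* A) r = mapMat (φ' : R →+* A) r → φ = φ'

section Existence

variable {A : Type} [CommRing A] [IsLocalRing A] [Algebra 𝒪 A] [IsNoetherianRing A]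
  [IsAdicComplete (maximalIdeal A) A] [IsLocalHom (algebraMap 𝒪 A)]

omit [IsLocalRing R] in
/-- Two maps from the universal ring to a coefficient ring which agree on the matrix entries
are equal. -/
theorem algHom_eq_of_mapMat_eq (hG : UnivGen (𝒪 := 𝒪) r)
    (hAres : Function.Surjective (residue A ∘ algebraMap 𝒪 A))
    (φ φ' : R →ₐ[𝒪] A) (h : mapMat (φ : R →+* A) r = mapMat (φ' : R →+* A) r) : φ = φ' := by
  apply IsAdicComplete.algHom_ext (maximalIdeal A)
  intro n
  cases n with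
  | zero =>
    ext x
    have h1 : (maximalIdeal A ^ 0) = ⊤ := by simp
    have : Subsingleton (A ⧸ maximalIdeal A ^ 0) := by
      rw [h1]
      exact Ideal.Quotient.subsingleton_iff.mpr rfl
    exact Subsingleton.elim _ _
  | succ n =>
    haveI := quotPow_isLocalRing A n
    apply hG (quotPow_isArtinianTestAlgebra hAres n)
    ext σ i j
    have := congrArg (fun f => f σ i j) h
    simp only [mapMat_apply] at this ⊢
    show Ideal.Quotient.mk _ (φ (r σ i j)) = Ideal.Quotient.mk _ (φ' (r σ i j))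
    exact congrArg _ this

omit [IsLocalRing R] in
/-- Existence of the classifying map for a normalized lift over a coefficient ring, all of
whose Artinian truncations are of type `𝒟`. -/
theorem exists_algHom_of_NL (hmap : NLMap (𝒪 := 𝒪) NL) (hE : UnivExists NL r 𝒟)
    (hG : UnivGen (𝒪 := 𝒪) r)
    (hAres : Function.Surjective (residue A ∘ algebraMap 𝒪 A))
    (s : GQ →* Matrix (Fin 2) (Fin 2) A) (hs : MatContinuous s) (hsNL : NL s)
    (hs𝒟 : ∀ (n : ℕ) [IsLocalRing (A ⧸ maximalIdeal A ^ (n + 1))]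
      (hq : IsLocalHom ((Ideal.Quotient.mkₐ 𝒪 (maximalIdeal A ^ (n + 1)) :
        A →ₐ[𝒪] A ⧸ maximalIdeal A ^ (n + 1)) : A →+* A ⧸ maximalIdeal A ^ (n + 1))),
      𝒟 (ofMat (mapMat ((Ideal.Quotient.mkₐ 𝒪 (maximalIdeal A ^ (n + 1)) :
        A →ₐ[𝒪] A ⧸ maximalIdeal A ^ (n + 1)) : A →+* A ⧸ maximalIdeal A ^ (n + 1)) s)
          (hs.map _ hq))) :
    ∃ φ : R →ₐ[𝒪] A, mapMat (φ : R →+* A) r = s := by
  have key : ∀ n : ℕ, ∃ φ : R →ₐ[𝒪] A ⧸ maximalIdeal A ^ (n + 1),
      ∀ σ i j, φ (r σ i j) = Ideal.Quotient.mk _ (s σ i j) := by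
    intro n
    haveI := quotPow_isLocalRing A n
    have hq : IsLocalHom ((Ideal.Quotient.mkₐ 𝒪 (maximalIdeal A ^ (n + 1)) :
        A →ₐ[𝒪] A ⧸ maximalIdeal A ^ (n + 1)) : A →+* A ⧸ maximalIdeal A ^ (n + 1)) :=
      quotPow_mk_isLocalHom A n
    obtain ⟨φ, hφ⟩ := hE (quotPow_isArtinianTestAlgebra hAres n) (mapMat _ s) (hs.map _ hq)
      (hmap _ hq s hsNL) (hs𝒟 n hq)
    refine ⟨φ, fun σ i j => ?_⟩
    have := congrArg (fun f => f σ i j) hφ
    simpa using this
  choose φ hφ using key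
  have hcompat : ∀ m n : ℕ, ∀ h : m ≤ n,
      (Ideal.Quotient.factorₐ 𝒪 (Ideal.pow_le_pow_right (Nat.succ_le_succ h))).comp (φ n)
        = φ m := by
    intro m n h
    haveI := quotPow_isLocalRing A m
    apply hG (quotPow_isArtinianTestAlgebra hAres m)
    ext σ i j
    simp only [mapMat_apply]
    show (Ideal.Quotient.factorₐ 𝒪 (Ideal.pow_le_pow_right (Nat.succ_le_succ h)))
      (φ n (r σ i j)) = φ m (r σ i j)
    rw [hφ, hφ]
    rfl
  obtain ⟨Φ, hΦ⟩ := exists_lift_of_compatible φ hcompat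
  refine ⟨Φ, ?_⟩
  ext σ i j
  apply eq_of_forall_mk_eq
  intro n
  have h1 := hΦ n (r σ i j)
  rw [hφ] at h1
  show Ideal.Quotient.mk _ (Φ (r σ i j)) = _
  rw [Ideal.Quotient.eq] at h1 ⊢
  exact Ideal.pow_le_pow_right (Nat.le_succ n) h1

end Existence

end Main

section Final

open Module

variable {𝒪 : Type} [CommRing 𝒪] [IsDomain 𝒪] [IsDiscreteValuationRing 𝒪]
  [IsAdicComplete (maximalIdeal 𝒪) 𝒪]
  {ρbar : ResidualGaloisRep (ResidueField 𝒪)}
  {𝒟 : ∀ ⦃A : Type⦄ [CommRing A] [IsLocalRing A] [Algebra 𝒪 A], GaloisRepAdic A → Prop}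

/-- **Final assembly.** A universal normalized framed lift gives a universal deformation
ring. -/
theorem nonempty_deformationRingData
    (habs : ρbar.IsAbsolutelyIrreducible) (h𝒟 : IsDeformationCondition 𝒪 𝒟)
    (bbar : Basis (Fin 2) (ResidueField 𝒪) ρbar.V)
    (NL : ∀ ⦃A : Type⦄ [CommRing A] [IsLocalRing A] [Algebra 𝒪 A],
      (GQ →* Matrix (Fin 2) (Fin 2) A) → Prop)
    (hres : NLRes (𝒪 := 𝒪) (resMatOf ρbar bbar) NL) (hmap : NLMap (𝒪 := 𝒪) NL)
    (hrig : NLRig (𝒪 := 𝒪) NL) (hex : NLEx (𝒪 := 𝒪) (resMatOf ρbar bbar) NL)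
    (R : Type) [CommRing R] [IsLocalRing R] [IsNoetherianRing R]
    [IsAdicComplete (maximalIdeal R) R] [Algebra 𝒪 R] [IsLocalHom (algebraMap 𝒪 R)]
    (hRres : Function.Surjective (residue R ∘ algebraMap 𝒪 R))
    (r : GQ →* Matrix (Fin 2) (Fin 2) R) (hr : MatContinuous r) (hrNL : NL r)
    (hT : UnivType r hr 𝒟) (hE : UnivExists NL r 𝒟) (hG : UnivGen (𝒪 := 𝒪) r) :
    Nonempty (DeformationRingData 𝒪 ρbar 𝒟) := by
  refine ⟨{ R := R
            residue_surjective := hRres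
            absIrr := habs
            ρ := ofMat r hr
            isOfType := ?_
            residual_isEquiv := ?_
            universal := ?_ }⟩
  · -- type `𝒟`
    refine (h𝒟.iff_forall_surjective (A := R) inferInstance hRres (ofMat r hr)).mpr ?_
    intro B _ _ _ hB q hq hsurj
    exact h𝒟.of_isEquiv hB ⟨(equivBaseChangeOfMat (q : R →+* B) hq r hr).symm⟩
      (hT hB q hq hsurj)
  · -- residual representation
    exact residual_ofMat_isEquiv_baseChangeAlong ρbar bbar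
      (ResidueField.map (algebraMap 𝒪 R)) r hr (hres r hrNL)
  · -- universal property
    intro A _ _ _ _ _ _ hAres ρA h𝒟A hresA
    obtain ⟨s0, hs0, hs0res, ⟨e0⟩⟩ := exists_ofMat_isEquiv_of_residual_along ρbar bbar
      (ResidueField.map (algebraMap 𝒪 A)) ρA hresA
    obtain ⟨s, hs, hsNL, P, hP⟩ := hex hAres s0 hs0 hs0res
    -- `ρA` is equivalent to `ofMat s`
    have e1 : GaloisRepAdic.Equiv ρA (ofMat s hs) := e0.trans (equivOfConj hs0 hs P hP)
    have hs𝒟 : ∀ (n : ℕ) [IsLocalRing (A ⧸ maximalIdeal A ^ (n + 1))]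
        (hq : IsLocalHom ((Ideal.Quotient.mkₐ 𝒪 (maximalIdeal A ^ (n + 1)) :
          A →ₐ[𝒪] A ⧸ maximalIdeal A ^ (n + 1)) : A →+* A ⧸ maximalIdeal A ^ (n + 1))),
        𝒟 (ofMat (mapMat ((Ideal.Quotient.mkₐ 𝒪 (maximalIdeal A ^ (n + 1)) :
          A →ₐ[𝒪] A ⧸ maximalIdeal A ^ (n + 1)) : A →+* A ⧸ maximalIdeal A ^ (n + 1)) s)
            (hs.map _ hq)) := by
      intro n _ hq
      have hB : IsArtinianTestAlgebra 𝒪 (A ⧸ maximalIdeal A ^ (n + 1)) :=
        quotPow_isArtinianTestAlgebra hAres n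
      have h1 := (h𝒟.iff_forall_surjective (A := A) inferInstance hAres ρA).mp h𝒟A hB
        (Ideal.Quotient.mkₐ 𝒪 (maximalIdeal A ^ (n + 1))) hq
        (Ideal.Quotient.mkₐ_surjective 𝒪 _)
      refine h𝒟.of_isEquiv hB ⟨?_⟩ h1
      exact (GaloisRepAdic.Equiv.baseChangeAlong _ hq e1).trans
        (equivBaseChangeOfMat _ hq s hs)
    obtain ⟨φ, hφ⟩ := exists_algHom_of_NL NL r hmap hE hG hAres s hs hsNL hs𝒟
    have hφloc : IsLocalHom (φ : R →+* A) := algHom_isLocalHom hAres φ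
    have e2 : GaloisRepAdic.Equiv (ofMat (mapMat (φ : R →+* A) r) (hr.map _ hφloc))
        (ofMat s hs) :=
      equivOfConj _ hs 1 (fun σ => by rw [hφ]; simp)
    refine ⟨φ, ⟨hφloc, ⟨((equivBaseChangeOfMat (φ : R →+* A) hφloc r hr).trans e2).trans
      e1.symm⟩⟩, ?_⟩
    rintro φ' ⟨hφ'loc, ⟨e'⟩⟩
    have e3 : GaloisRepAdic.Equiv (ofMat (mapMat (φ' : R →+* A) r) (hr.map _ hφ'loc))
        (ofMat s hs) :=
      ((equivBaseChangeOfMat (φ' : R →+* A) hφ'loc r hr).symm.trans e').trans e1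
    have h3 : mapMat (φ' : R →+* A) r = s :=
      hrig hAres _ s (hr.map _ hφ'loc) hs (hmap φ' hφ'loc r hrNL) hsNL
        ((isEquiv_ofMat_iff _ hs).mp ⟨e3⟩)
    exact algHom_eq_of_mapMat_eq r hG hAres φ' φ (by rw [h3, hφ])

end Final

end Fermat.Agent.S53.Asm
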