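import Mathlib.RingTheory.MvPowerSeries.Equiv
import Mathlib.RingTheory.MvPolynomial.Ideal
import Mathlib.RingTheory.AdicCompletion.RingHom
import Mathlib.RingTheory.AdicCompletion.Completeness
import Mathlib.RingTheory.LocalRing.MaximalIdeal.Basic

/-!
# Evaluation of power series in an adically complete ring

For a commutative ring `A`, an ideal `I` of `A` with `IsAdicComplete I A`, an `𝒪`-algebra
structure on `A` and a family `t : Fin r → A` with `t i ∈ I`, we construct the `𝒪`-algebra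
homomorphism `evalHom : MvPowerSeries (Fin r) 𝒪 →ₐ[𝒪] A` with `X i ↦ t i`, and prove that it is
the unique such homomorphism.
-/

set_option linter.style.haveILetI false
set_option linter.unusedSectionVars false

namespace Fermat.Agent.S53

open MvPowerSeries

section Eval

variable {σ : Type*} [Finite σ] {𝒪 : Type*} [CommRing 𝒪] {A : Type*} [CommRing A] [Algebra 𝒪 A]
  (I : Ideal A)

/-- the polynomial evaluation map to `A ⧸ I ^ n`, which kills `idealOfVars ^ n` when `t i ∈ I`. -/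
noncomputable def evalPolyQuot (t : σ → A) (n : ℕ) : MvPolynomial σ 𝒪 →ₐ[𝒪] A ⧸ I ^ n :=
  MvPolynomial.aeval fun i => Ideal.Quotient.mk (I ^ n) (t i)

theorem evalPolyQuot_mem {t : σ → A} (ht : ∀ i, t i ∈ I) (n k : ℕ) {p : MvPolynomial σ 𝒪}
    (hp : p ∈ MvPolynomial.idealOfVars σ 𝒪 ^ k) :
    evalPolyQuot (𝒪 := 𝒪) I t n p ∈ (I.map (Ideal.Quotient.mk (I ^ n))) ^ k := by
  have h1 : (MvPolynomial.idealOfVars σ 𝒪).map (evalPolyQuot (𝒪 := 𝒪) I t n).toRingHom ≤
      I.map (Ideal.Quotient.mk (I ^ n)) := by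
    rw [MvPolynomial.idealOfVars, Ideal.map_span, Ideal.span_le]
    rintro _ ⟨_, ⟨i, rfl⟩, rfl⟩
    simp only [evalPolyQuot, AlgHom.toRingHom_eq_coe, RingHom.coe_coe, MvPolynomial.aeval_X]
    exact Ideal.mem_map_of_mem _ (ht i)
  have h2 : (evalPolyQuot (𝒪 := 𝒪) I t n).toRingHom p ∈
      ((MvPolynomial.idealOfVars σ 𝒪) ^ k).map (evalPolyQuot (𝒪 := 𝒪) I t n).toRingHom :=
    Ideal.mem_map_of_mem _ hp
  rw [Ideal.map_pow] at h2
  exact Ideal.pow_right_mono h1 k h2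

theorem evalPolyQuot_eq_zero {t : σ → A} (ht : ∀ i, t i ∈ I) (n : ℕ) {p : MvPolynomial σ 𝒪}
    (hp : p ∈ MvPolynomial.idealOfVars σ 𝒪 ^ n) :
    evalPolyQuot (𝒪 := 𝒪) I t n p = 0 := by
  have h := evalPolyQuot_mem (𝒪 := 𝒪) I ht n n hp
  rw [← Ideal.map_pow, Ideal.map_quotient_self] at h
  simpa using h

/-- truncated evaluation `MvPowerSeries σ 𝒪 →ₐ[𝒪] A ⧸ I ^ n`. -/
noncomputable def evalTrunc {t : σ → A} (ht : ∀ i, t i ∈ I) (n : ℕ) :
    MvPowerSeries σ 𝒪 →ₐ[𝒪] A ⧸ I ^ n :=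
  (Ideal.Quotient.liftₐ (MvPolynomial.idealOfVars σ 𝒪 ^ n) (evalPolyQuot (𝒪 := 𝒪) I t n)
    (fun _ hp => evalPolyQuot_eq_zero I ht n hp)).comp
    ((truncTotalAlgHom σ 𝒪 n).restrictScalars 𝒪)

theorem evalTrunc_apply {t : σ → A} (ht : ∀ i, t i ∈ I) (n : ℕ) (p : MvPowerSeries σ 𝒪) :
    evalTrunc (𝒪 := 𝒪) I ht n p = evalPolyQuot (𝒪 := 𝒪) I t n (truncTotal n p) := by
  simp only [evalTrunc, AlgHom.coe_comp, AlgHom.coe_restrictScalars', Function.comp_apply,
    truncTotalAlgHom_apply]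
  exact Ideal.Quotient.lift_mk _ _ _

theorem evalTrunc_coe {t : σ → A} (ht : ∀ i, t i ∈ I) (n : ℕ) (q : MvPolynomial σ 𝒪) :
    evalTrunc (𝒪 := 𝒪) I ht n (q : MvPowerSeries σ 𝒪) = evalPolyQuot (𝒪 := 𝒪) I t n q := by
  have h : (truncTotalAlgHom σ 𝒪 n) (q : MvPowerSeries σ 𝒪) =
      Ideal.Quotient.mk (MvPolynomial.idealOfVars σ 𝒪 ^ n) q :=
    (truncTotalAlgHom σ 𝒪 n).commutes q
  simp only [evalTrunc, AlgHom.coe_comp, AlgHom.coe_restrictScalars', Function.comp_apply, h]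
  exact Ideal.Quotient.lift_mk _ _ _

theorem factor_evalPolyQuot (t : σ → A) {m n : ℕ} (hmn : m ≤ n) :
    (Ideal.Quotient.factorₐ 𝒪 (Ideal.pow_le_pow_right hmn)).comp (evalPolyQuot (𝒪 := 𝒪) I t n) =
      evalPolyQuot (𝒪 := 𝒪) I t m := by
  apply MvPolynomial.algHom_ext
  intro i
  simp [evalPolyQuot]

theorem evalTrunc_compat {t : σ → A} (ht : ∀ i, t i ∈ I) {m n : ℕ} (hmn : m ≤ n) :
    (Ideal.Quotient.factorₐ 𝒪 (Ideal.pow_le_pow_right hmn)).comp (evalTrunc (𝒪 := 𝒪) I ht n) =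
      evalTrunc (𝒪 := 𝒪) I ht m := by
  ext p
  rw [AlgHom.comp_apply, evalTrunc_apply, evalTrunc_apply, ← AlgHom.comp_apply,
    factor_evalPolyQuot I t hmn, ← sub_eq_zero, ← map_sub]
  exact evalPolyQuot_eq_zero I ht m
    (truncTotal_sub_truncTotal_mem_pow_idealOfVars le_rfl hmn p |> fun h => by
      simpa using (Ideal.neg_mem_iff _).mpr h)

variable [IsAdicComplete I A]

/-- **Evaluation of power series**: the `𝒪`-algebra hom `MvPowerSeries σ 𝒪 →ₐ[𝒪] A`
sending `X i` to `t i ∈ I`, for `A` an `I`-adically complete `𝒪`-algebra. -/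
noncomputable def evalHom {t : σ → A} (ht : ∀ i, t i ∈ I) : MvPowerSeries σ 𝒪 →ₐ[𝒪] A :=
  IsAdicComplete.liftAlgHom I (evalTrunc (𝒪 := 𝒪) I ht) (fun hmn => evalTrunc_compat I ht hmn)

theorem mk_evalHom {t : σ → A} (ht : ∀ i, t i ∈ I) (n : ℕ) (p : MvPowerSeries σ 𝒪) :
    Ideal.Quotient.mk (I ^ n) (evalHom (𝒪 := 𝒪) I ht p) = evalTrunc (𝒪 := 𝒪) I ht n p :=
  IsAdicComplete.mk_liftAlgHom I _ _ n p

theorem evalHom_coe {t : σ → A} (ht : ∀ i, t i ∈ I) (q : MvPolynomial σ 𝒪) :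
    evalHom (𝒪 := 𝒪) I ht (q : MvPowerSeries σ 𝒪) = MvPolynomial.aeval t q := by
  rw [IsHausdorff.eq_iff_smodEq (I := I)]
  intro n
  rw [SModEq, smul_eq_mul, Ideal.mul_top]
  change Ideal.Quotient.mk (I ^ n) _ = Ideal.Quotient.mk (I ^ n) _
  rw [mk_evalHom, evalTrunc_coe]
  have : evalPolyQuot (𝒪 := 𝒪) I t n =
      (Ideal.Quotient.mkₐ 𝒪 (I ^ n)).comp (MvPolynomial.aeval t) := by
    apply MvPolynomial.algHom_ext
    intro i
    simp [evalPolyQuot]
  rw [this]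
  rfl

theorem evalHom_X {t : σ → A} (ht : ∀ i, t i ∈ I) (i : σ) :
    evalHom (𝒪 := 𝒪) I ht (X i) = t i := by
  have h := evalHom_coe (𝒪 := 𝒪) I ht (MvPolynomial.X i)
  rwa [MvPolynomial.coe_X, MvPolynomial.aeval_X] at h

end Eval

section Vars

variable {σ : Type*} [Finite σ] {𝒪 : Type*} [CommRing 𝒪]

theorem algebraMap_mvPolynomial_eq_coe (q : MvPolynomial σ 𝒪) :
    algebraMap (MvPolynomial σ 𝒪) (MvPowerSeries σ 𝒪) q = (q : MvPowerSeries σ 𝒪) := by
  rw [MvPowerSeries.algebraMap_apply', Algebra.algebraMap_self, MvPowerSeries.map_id]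
  rfl

/-- the image of `idealOfVars ^ n` in the power series ring lies in `(X) ^ n`. -/
theorem coe_mem_span_X_pow {n : ℕ} {q : MvPolynomial σ 𝒪}
    (hq : q ∈ MvPolynomial.idealOfVars σ 𝒪 ^ n) :
    (q : MvPowerSeries σ 𝒪) ∈
      (Ideal.span (Set.range (X : σ → MvPowerSeries σ 𝒪))) ^ n := by
  have h1 : (MvPolynomial.idealOfVars σ 𝒪).map
      (algebraMap (MvPolynomial σ 𝒪) (MvPowerSeries σ 𝒪)) ≤
      Ideal.span (Set.range (X : σ → MvPowerSeries σ 𝒪)) := by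
    rw [MvPolynomial.idealOfVars, Ideal.map_span, Ideal.span_le]
    rintro _ ⟨_, ⟨i, rfl⟩, rfl⟩
    rw [algebraMap_mvPolynomial_eq_coe, MvPolynomial.coe_X]
    exact Ideal.subset_span ⟨i, rfl⟩
  have h2 : algebraMap (MvPolynomial σ 𝒪) (MvPowerSeries σ 𝒪) q ∈
      ((MvPolynomial.idealOfVars σ 𝒪) ^ n).map
        (algebraMap (MvPolynomial σ 𝒪) (MvPowerSeries σ 𝒪)) := Ideal.mem_map_of_mem _ hq
  rw [Ideal.map_pow, algebraMap_mvPolynomial_eq_coe] at h2
  exact Ideal.pow_right_mono h1 n h2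

/-- a power series all of whose coefficients in total degree `< n` vanish lies in `(X) ^ n`. -/
theorem mem_span_X_pow_of_coeff_eq_zero {n : ℕ} {p : MvPowerSeries σ 𝒪}
    (hp : ∀ d : σ →₀ ℕ, Finsupp.degree d < n → coeff d p = 0) :
    p ∈ (Ideal.span (Set.range (X : σ → MvPowerSeries σ 𝒪))) ^ n := by
  have htr : truncTotal n p ∈ MvPolynomial.idealOfVars σ 𝒪 ^ n := by
    rw [MvPolynomial.mem_pow_idealOfVars_iff']
    intro x hx
    rw [coeff_truncTotal p hx, hp x hx]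
  have h1 : toAdicCompletionAlgEquiv σ 𝒪 p ∈ (AdicCompletion.eval (MvPolynomial.idealOfVars σ 𝒪)
      (MvPolynomial σ 𝒪) n).ker := by
    rw [LinearMap.mem_ker, AdicCompletion.eval_apply, toAdicCompletionAlgEquiv_apply,
      toAdicCompletion_apply_eq_mk_truncTotal, Ideal.Quotient.eq_zero_iff_mem, smul_eq_mul,
      Ideal.mul_top]
    exact htr
  rw [← AdicCompletion.pow_smul_top_eq_ker_eval (MvPolynomial.idealOfVars_fg σ 𝒪)] at h1
  -- transport back along the equivalence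
  have h2 : p ∈ ((MvPolynomial.idealOfVars σ 𝒪) ^ n •
      (⊤ : Submodule (MvPolynomial σ 𝒪) (MvPowerSeries σ 𝒪))) := by
    have h3 : (toAdicCompletionAlgEquiv σ 𝒪).symm (toAdicCompletionAlgEquiv σ 𝒪 p) ∈
        Submodule.map (toAdicCompletionAlgEquiv σ 𝒪).symm.toLinearMap
        ((MvPolynomial.idealOfVars σ 𝒪) ^ n •
          (⊤ : Submodule (MvPolynomial σ 𝒪)
            (AdicCompletion (MvPolynomial.idealOfVars σ 𝒪) (MvPolynomial σ 𝒪)))) :=
      Submodule.mem_map_of_mem h1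
    rw [Submodule.map_smul'', AlgEquiv.symm_apply_apply] at h3
    exact Submodule.smul_mono le_rfl le_top h3
  refine Submodule.smul_induction_on h2 ?_ ?_
  · intro q hq x _
    rw [Algebra.smul_def, algebraMap_mvPolynomial_eq_coe]
    exact Ideal.mul_mem_right _ _ (coe_mem_span_X_pow hq)
  · intro x y hx hy
    exact Ideal.add_mem _ hx hy

theorem sub_truncTotal_mem_span_X_pow (n : ℕ) (p : MvPowerSeries σ 𝒪) :
    p - ((truncTotal n p : MvPolynomial σ 𝒪) : MvPowerSeries σ 𝒪) ∈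
      (Ideal.span (Set.range (X : σ → MvPowerSeries σ 𝒪))) ^ n := by
  apply mem_span_X_pow_of_coeff_eq_zero
  intro d hd
  rw [map_sub, MvPolynomial.coeff_coe, coeff_truncTotal p hd, sub_self]

end Vars

section Unique

variable {σ : Type*} [Finite σ] {𝒪 : Type*} [CommRing 𝒪] {A : Type*} [CommRing A] [Algebra 𝒪 A]
  (I : Ideal A)

/-- an `𝒪`-algebra hom out of the power series ring sending the variables into `I` is congruent
modulo `I ^ n` to polynomial evaluation of the truncation. -/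
theorem algHom_sub_aeval_truncTotal_mem (φ : MvPowerSeries σ 𝒪 →ₐ[𝒪] A)
    (hφ : ∀ i, φ (X i) ∈ I) (n : ℕ) (p : MvPowerSeries σ 𝒪) :
    φ p - MvPolynomial.aeval (fun i => φ (X i)) (truncTotal n p) ∈ I ^ n := by
  have h1 : MvPolynomial.aeval (fun i => φ (X i)) (truncTotal n p) =
      φ ((truncTotal n p : MvPolynomial σ 𝒪) : MvPowerSeries σ 𝒪) := by
    have : (MvPolynomial.aeval (fun i => φ (X i)) : MvPolynomial σ 𝒪 →ₐ[𝒪] A) =
        φ.comp (MvPolynomial.coeToMvPowerSeries.algHom (R := 𝒪) (σ := σ) 𝒪) := by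
      apply MvPolynomial.algHom_ext
      intro i
      simp
    rw [this]
    rfl
  rw [h1, ← map_sub]
  have h2 : (Ideal.span (Set.range (X : σ → MvPowerSeries σ 𝒪))).map φ.toRingHom ≤ I := by
    rw [Ideal.map_span, Ideal.span_le]
    rintro _ ⟨_, ⟨i, rfl⟩, rfl⟩
    exact hφ i
  have h3 : φ.toRingHom (p - ((truncTotal n p : MvPolynomial σ 𝒪) : MvPowerSeries σ 𝒪)) ∈
      ((Ideal.span (Set.range (X : σ → MvPowerSeries σ 𝒪))) ^ n).map φ.toRingHom :=
    Ideal.mem_map_of_mem _ (sub_truncTotal_mem_span_X_pow n p)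
  rw [Ideal.map_pow] at h3
  exact Ideal.pow_right_mono h2 n h3

/-- two `𝒪`-algebra homs out of the power series ring into an `I`-adically separated ring,
which agree on the variables and send them into `I`, are equal. -/
theorem algHom_ext_of_X [IsHausdorff I A] {φ ψ : MvPowerSeries σ 𝒪 →ₐ[𝒪] A}
    (hφ : ∀ i, φ (X i) ∈ I) (h : ∀ i, φ (X i) = ψ (X i)) : φ = ψ := by
  ext p
  rw [IsHausdorff.eq_iff_smodEq (I := I)]
  intro n
  rw [SModEq.sub_mem, smul_eq_mul, Ideal.mul_top]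
  have h1 := algHom_sub_aeval_truncTotal_mem I φ hφ n p
  have h2 := algHom_sub_aeval_truncTotal_mem I ψ (fun i => h i ▸ hφ i) n p
  have h3 : (fun i => φ (X i)) = fun i => ψ (X i) := funext h
  rw [h3] at h1
  have := Ideal.sub_mem _ h1 h2
  simpa using this

theorem evalHom_unique [IsAdicComplete I A] {t : σ → A} (ht : ∀ i, t i ∈ I)
    (φ : MvPowerSeries σ 𝒪 →ₐ[𝒪] A) (hφ : ∀ i, φ (X i) = t i) :
    φ = evalHom (𝒪 := 𝒪) I ht :=
  algHom_ext_of_X I (fun i => hφ i ▸ ht i) (fun i => by rw [hφ i, evalHom_X])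

end Unique

open IsLocalRing

section LocalHom

variable {σ : Type*} [Finite σ] {𝒪 : Type*} [CommRing 𝒪] [IsLocalRing 𝒪]
  {A : Type*} [CommRing A] [IsLocalRing A] [Algebra 𝒪 A] [IsLocalHom (algebraMap 𝒪 A)]

/-- an `𝒪`-algebra hom from the power series ring to a local `𝒪`-algebra (with local structure
map) which sends the variables into the maximal ideal is a local homomorphism. -/
theorem algHom_isLocalHom_of_X_mem (φ : MvPowerSeries σ 𝒪 →ₐ[𝒪] A)
    (hφ : ∀ i, φ (X i) ∈ maximalIdeal A) : IsLocalHom (φ : MvPowerSeries σ 𝒪 →+* A) := by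
  refine ⟨fun f hf => ?_⟩
  rw [MvPowerSeries.isUnit_iff_constantCoeff]
  have h1 := algHom_sub_aeval_truncTotal_mem (maximalIdeal A) φ hφ 1 f
  rw [pow_one] at h1
  -- the truncation at total degree `< 1` is the constant coefficient
  have h2 : (truncTotal 1 f : MvPolynomial σ 𝒪) = MvPolynomial.C (constantCoeff f) := by
    classical
    ext d
    rw [coeff_truncTotal_eq_ite, MvPolynomial.coeff_C]
    by_cases hd : d = 0
    · subst hd
      simp
    · have hdeg : ¬ Finsupp.degree d < 1 := by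
        intro h
        exact hd ((Finsupp.degree_eq_zero_iff d).mp (by omega))
      rw [if_neg hdeg, if_neg (Ne.symm hd)]
  rw [h2, MvPolynomial.aeval_C] at h1
  have h3 : IsUnit (algebraMap 𝒪 A (constantCoeff f)) := by
    have hu : IsUnit ((φ : MvPowerSeries σ 𝒪 →+* A) f) := hf
    by_contra hnu
    have hmem : algebraMap 𝒪 A (constantCoeff f) ∈ maximalIdeal A := hnu
    have : (φ : MvPowerSeries σ 𝒪 →+* A) f ∈ maximalIdeal A := by
      have := Ideal.add_mem _ h1 hmem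
      simpa using this
    exact this hu
  exact isUnit_of_map_unit (algebraMap 𝒪 A) _ h3

variable [IsAdicComplete (maximalIdeal A) A]

theorem evalHom_isLocalHom {t : σ → A} (ht : ∀ i, t i ∈ maximalIdeal A) :
    IsLocalHom ((evalHom (𝒪 := 𝒪) (maximalIdeal A) ht : MvPowerSeries σ 𝒪 →ₐ[𝒪] A) :
      MvPowerSeries σ 𝒪 →+* A) :=
  algHom_isLocalHom_of_X_mem _ fun i => by rw [evalHom_X]; exact ht i

end LocalHom

end Fermat.Agent.S53
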