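import Mathlib

/-!
# Limits of decreasing chains of ideals in a complete ring

Helper library for S53 (owner of this file: helper15).
All declarations live in namespace `Fermat.Agent.S53.PSC`.

Setting: `P` a commutative ring, `I` an ideal with `IsPrecomplete I P`, and a chain of ideals
`K : ℕ → Ideal P` with `I ^ n ≤ K n` and `K n = K (n + 1) ⊔ I ^ n`.
Then `K n = (⨅ m, K m) ⊔ I ^ n` and every compatible family in `∏ P ⧸ K n` comes from `P`.
-/

namespace Fermat.Agent.S53.PSC

section Chain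

variable {P : Type*} [CommRing P] (I : Ideal P) (K : ℕ → Ideal P)

theorem chain_antitone (h2 : ∀ n, K n = K (n + 1) ⊔ I ^ n) : Antitone K := by
  refine antitone_nat_of_succ_le fun n => ?_
  rw [h2 n]
  exact le_sup_left

/-- Make a `K`-compatible sequence `I`-adically Cauchy without changing its classes. -/
theorem exists_cauchy_of_compatible (h2 : ∀ n, K n = K (n + 1) ⊔ I ^ n)
    (p : ℕ → P) (hp : ∀ n, p (n + 1) - p n ∈ K n) :
    ∃ q : ℕ → P, q 0 = p 0 ∧ (∀ n, q n - p n ∈ K n) ∧ ∀ n, q (n + 1) - q n ∈ I ^ n := by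
  -- build `q` recursively together with the proof `q n - p n ∈ K n`
  have step : ∀ (n : ℕ) (x : P), x - p n ∈ K n →
      ∃ y : P, y - p (n + 1) ∈ K (n + 1) ∧ y - x ∈ I ^ n := by
    intro n x hx
    have h : p (n + 1) - x ∈ K n := by
      have : p (n + 1) - x = (p (n + 1) - p n) - (x - p n) := by ring
      rw [this]
      exact (K n).sub_mem (hp n) hx
    rw [h2 n, Submodule.mem_sup] at h
    obtain ⟨a, ha, b, hb, hab⟩ := h
    refine ⟨x + b, ?_, by simpa using hb⟩
    have : x + b - p (n + 1) = -a := by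
      have : b = p (n + 1) - x - a := by rw [← hab]; ring
      rw [this]; ring
    rw [this]
    exact (K (n + 1)).neg_mem ha
  choose! F hF1 hF2 using step
  let q : ℕ → P := fun n => Nat.rec (p 0) (fun n x => F n x) n
  have hq0 : q 0 = p 0 := rfl
  have hqs : ∀ n, q (n + 1) = F n (q n) := fun n => rfl
  have hqK : ∀ n, q n - p n ∈ K n := by
    intro n
    induction n with
    | zero => rw [hq0, sub_self]; exact zero_mem _
    | succ n ih => rw [hqs]; exact hF1 n (q n) ih
  exact ⟨q, hq0, hqK, fun n => by rw [hqs]; exact hF2 n (q n) (hqK n)⟩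

theorem cauchy_sub_mem {q : ℕ → P} (hq : ∀ n, q (n + 1) - q n ∈ I ^ n) {m n : ℕ} (hmn : m ≤ n) :
    q n - q m ∈ I ^ m := by
  induction n, hmn using Nat.le_induction with
  | base => rw [sub_self]; exact zero_mem _
  | succ n hmn ih =>
    have : q (n + 1) - q m = (q (n + 1) - q n) + (q n - q m) := by ring
    rw [this]
    exact (I ^ m).add_mem (Ideal.pow_le_pow_right hmn (hq n)) ih

/-- Every compatible family of classes modulo the `K n` is induced by a single element. -/
theorem exists_limit_of_compatible [IsPrecomplete I P]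
    (h1 : ∀ n, I ^ n ≤ K n) (h2 : ∀ n, K n = K (n + 1) ⊔ I ^ n)
    (p : ℕ → P) (hp : ∀ n, p (n + 1) - p n ∈ K n) :
    ∃ x : P, (∀ n, x - p n ∈ K n) ∧ x - p 0 ∈ I ^ 0 := by
  obtain ⟨q, -, hqK, hqI⟩ := exists_cauchy_of_compatible I K h2 p hp
  obtain ⟨L, hL⟩ := (isPrecomplete_iff.1 (inferInstance : IsPrecomplete I P)) q (by
    intro m n hmn
    rw [SModEq.sub_mem, smul_eq_mul, Ideal.mul_top]
    have := cauchy_sub_mem I hqI hmn
    rw [← neg_sub]
    exact (I ^ m).neg_mem this)
  refine ⟨L, fun n => ?_, by simp⟩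
  have h := hL n
  rw [SModEq.sub_mem, smul_eq_mul, Ideal.mul_top] at h
  have : L - p n = (q n - p n) - (q n - L) := by ring
  rw [this]
  exact (K n).sub_mem (hqK n) (h1 n h)

/-- **Chevalley-type lemma**: `K n = (⨅ m, K m) ⊔ I ^ n`. -/
theorem chain_eq_iInf_sup_pow [IsPrecomplete I P]
    (h1 : ∀ n, I ^ n ≤ K n) (h2 : ∀ n, K n = K (n + 1) ⊔ I ^ n) (n : ℕ) :
    K n = (⨅ m, K m) ⊔ I ^ n := by
  have hanti := chain_antitone I K h2
  refine le_antisymm ?_ (sup_le (iInf_le K n) (h1 n))
  intro x hx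
  -- the family `p m = 0` for `m < n`, `p m = x` for `m ≥ n`... we use a shifted chain instead
  -- apply the previous lemma to the shifted chain `K' m = K (n + m)` and ideal powers
  have h2' : ∀ m, K (n + m) = K (n + (m + 1)) ⊔ I ^ (n + m) := fun m => h2 (n + m)
  -- recursive construction along the shifted chain
  have step : ∀ (m : ℕ) (y : P), y ∈ K (n + m) →
      ∃ z : P, z ∈ K (n + (m + 1)) ∧ z - y ∈ I ^ (n + m) := by
    intro m y hy
    rw [h2' m, Submodule.mem_sup] at hy
    obtain ⟨a, ha, b, hb, hab⟩ := hy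
    refine ⟨a, ha, ?_⟩
    have : a - y = -b := by rw [← hab]; ring
    rw [this]
    exact (I ^ (n + m)).neg_mem hb
  choose! F hF1 hF2 using step
  let y : ℕ → P := fun m => Nat.rec x (fun m z => F m z) m
  have hy0 : y 0 = x := rfl
  have hys : ∀ m, y (m + 1) = F m (y m) := fun m => rfl
  have hyK : ∀ m, y m ∈ K (n + m) := by
    intro m
    induction m with
    | zero => exact hx
    | succ m ih => rw [hys]; exact hF1 m (y m) ih
  have hyI : ∀ m, y (m + 1) - y m ∈ I ^ (n + m) := fun m => by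
    rw [hys]; exact hF2 m (y m) (hyK m)
  have hyI' : ∀ m, y (m + 1) - y m ∈ I ^ m := fun m =>
    Ideal.pow_le_pow_right (Nat.le_add_left m n) (hyI m)
  have hdiff : ∀ m, y m - y 0 ∈ I ^ n := by
    intro m
    induction m with
    | zero => rw [sub_self]; exact zero_mem _
    | succ m ih =>
      have : y (m + 1) - y 0 = (y (m + 1) - y m) + (y m - y 0) := by ring
      rw [this]
      exact (I ^ n).add_mem (Ideal.pow_le_pow_right (Nat.le_add_right n m) (hyI m)) ih
  obtain ⟨L, hL⟩ := (isPrecomplete_iff.1 (inferInstance : IsPrecomplete I P)) y (by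
    intro a b hab
    rw [SModEq.sub_mem, smul_eq_mul, Ideal.mul_top]
    have := cauchy_sub_mem I hyI' hab
    rw [← neg_sub]
    exact (I ^ a).neg_mem this)
  have hL' : ∀ m, y m - L ∈ I ^ m := fun m => by
    have h := hL m
    rwa [SModEq.sub_mem, smul_eq_mul, Ideal.mul_top] at h
  -- `L ∈ K j` for every `j`
  have hLK : ∀ j, L ∈ K j := by
    intro j
    have h3 : y j ∈ K j := hanti (Nat.le_add_left j n) (hyK j)
    have h4 : y j - L ∈ K j := h1 j (hL' j)
    have : L = y j - (y j - L) := by ring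
    rw [this]
    exact (K j).sub_mem h3 h4
  -- `x - L ∈ I ^ n`
  have hxL : x - L ∈ I ^ n := by
    have h5 : y n - L ∈ I ^ n := hL' n
    have h6 : y n - y 0 ∈ I ^ n := hdiff n
    have : x - L = (y n - L) - (y n - y 0) := by rw [hy0]; ring
    rw [this]
    exact (I ^ n).sub_mem h5 h6
  rw [Submodule.mem_sup]
  exact ⟨L, (Ideal.mem_iInf).2 hLK, x - L, hxL, by ring⟩

end Chain

section LocalQuotient

open IsLocalRing

variable {P : Type*} [CommRing P] [IsLocalRing P] (K : ℕ → Ideal P)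

/-- The maximal ideal of a local quotient of a local ring is the image of the maximal
ideal. -/
theorem map_mk_maximalIdeal (𝔞 : Ideal P) [IsLocalRing (P ⧸ 𝔞)] :
    (maximalIdeal P).map (Ideal.Quotient.mk 𝔞) = maximalIdeal (P ⧸ 𝔞) := by
  have : IsLocalHom (Ideal.Quotient.mk 𝔞) :=
    IsLocalHom.of_surjective _ Ideal.Quotient.mk_surjective
  ext x
  obtain ⟨y, rfl⟩ := Ideal.Quotient.mk_surjective x
  rw [Ideal.mem_map_iff_of_surjective _ Ideal.Quotient.mk_surjective]
  constructor
  · rintro ⟨z, hz, hzy⟩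
    rw [← hzy, mem_maximalIdeal, mem_nonunits_iff]
    rw [mem_maximalIdeal, mem_nonunits_iff] at hz
    intro h
    exact hz (isUnit_of_map_unit (Ideal.Quotient.mk 𝔞) z h)
  · intro hy
    refine ⟨y, ?_, rfl⟩
    rw [mem_maximalIdeal, mem_nonunits_iff] at hy ⊢
    intro h
    exact hy (h.map _)

/-- With `𝔞 = ⨅ m, K m`: the image of `K n` in `P ⧸ 𝔞` is the `n`-th power of the image of the
maximal ideal. -/
theorem map_mk_chain_eq_pow [IsPrecomplete (maximalIdeal P) P]
    (h1 : ∀ n, maximalIdeal P ^ n ≤ K n)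
    (h2 : ∀ n, K n = K (n + 1) ⊔ maximalIdeal P ^ n) (n : ℕ) :
    (K n).map (Ideal.Quotient.mk (⨅ m, K m)) =
      ((maximalIdeal P).map (Ideal.Quotient.mk (⨅ m, K m))) ^ n := by
  rw [chain_eq_iInf_sup_pow (maximalIdeal P) K h1 h2 n, Ideal.map_sup, Ideal.map_pow,
    Ideal.map_quotient_self, bot_sup_eq]

/-- With `𝔞 = ⨅ m, K m`: the kernel of `P ⧸ 𝔞 → P ⧸ K n` is the `n`-th power of the image of
the maximal ideal. -/
theorem ker_factor_chain_eq_pow [IsPrecomplete (maximalIdeal P) P]
    (h1 : ∀ n, maximalIdeal P ^ n ≤ K n)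
    (h2 : ∀ n, K n = K (n + 1) ⊔ maximalIdeal P ^ n) (n : ℕ) :
    RingHom.ker (Ideal.Quotient.factor (iInf_le K n)) =
      ((maximalIdeal P).map (Ideal.Quotient.mk (⨅ m, K m))) ^ n := by
  rw [Ideal.Quotient.factor_ker, map_mk_chain_eq_pow K h1 h2 n]

omit [IsLocalRing P] in
/-- An element of `P ⧸ ⨅ K` is determined by its images in all `P ⧸ K n`. -/
theorem eq_of_forall_factor_eq {x y : P ⧸ (⨅ m, K m)}
    (h : ∀ n, Ideal.Quotient.factor (iInf_le K n) x = Ideal.Quotient.factor (iInf_le K n) y) :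
    x = y := by
  obtain ⟨a, rfl⟩ := Ideal.Quotient.mk_surjective x
  obtain ⟨b, rfl⟩ := Ideal.Quotient.mk_surjective y
  rw [Ideal.Quotient.eq, Ideal.mem_iInf]
  intro n
  have := h n
  rwa [Ideal.Quotient.factor_mk, Ideal.Quotient.factor_mk, Ideal.Quotient.eq] at this

/-- Every compatible family in `∏ P ⧸ K n` comes from a (unique) element of `P ⧸ ⨅ K`. -/
theorem exists_of_compatible_quotient [IsPrecomplete (maximalIdeal P) P]
    (h1 : ∀ n, maximalIdeal P ^ n ≤ K n)
    (h2 : ∀ n, K n = K (n + 1) ⊔ maximalIdeal P ^ n)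
    (r : ∀ n, P ⧸ K n)
    (hr : ∀ n, Ideal.Quotient.factor (chain_antitone (maximalIdeal P) K h2 n.le_succ) (r (n + 1))
      = r n) :
    ∃! x : P ⧸ (⨅ m, K m), ∀ n, Ideal.Quotient.factor (iInf_le K n) x = r n := by
  choose p hp using fun n => Ideal.Quotient.mk_surjective (r n)
  have hcomp : ∀ n, p (n + 1) - p n ∈ K n := by
    intro n
    have := hr n
    rw [← hp (n + 1), ← hp n, Ideal.Quotient.factor_mk, Ideal.Quotient.eq] at this
    exact this
  obtain ⟨x, hx, -⟩ := exists_limit_of_compatible (maximalIdeal P) K h1 h2 p hcomp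
  refine ⟨Ideal.Quotient.mk _ x, fun n => ?_, fun y hy => ?_⟩
  · rw [Ideal.Quotient.factor_mk, ← hp n, Ideal.Quotient.eq]
    exact hx n
  · refine eq_of_forall_factor_eq K fun n => ?_
    rw [hy n, Ideal.Quotient.factor_mk, ← hp n, eq_comm, Ideal.Quotient.eq]
    exact hx n

end LocalQuotient

end Fermat.Agent.S53.PSC
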