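import Mathlib

/-!
# Surjectivity of algebra maps onto local algebras with nilpotent maximal ideal

Helper library for S53 (owner of this file: helper15).
All declarations live in namespace `Fermat.Agent.S53.PSC`.
-/

namespace Fermat.Agent.S53.PSC

open IsLocalRing

section Nakayama

/-- Nilpotent Nakayama, filtration form. -/
theorem sup_pow_smul_top_eq_top {R M : Type*} [CommRing R] [AddCommGroup M] [Module R M]
    (J : Ideal R) (N : Submodule R M) (h : N ⊔ J • (⊤ : Submodule R M) = ⊤) (n : ℕ) :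
    N ⊔ J ^ n • (⊤ : Submodule R M) = ⊤ := by
  induction n with
  | zero => simp
  | succ n ih =>
    rw [eq_top_iff]
    refine le_trans h.ge (sup_le le_sup_left ?_)
    calc J • (⊤ : Submodule R M) = J • (N ⊔ J ^ n • (⊤ : Submodule R M)) := by rw [ih]
      _ = J • N ⊔ J • (J ^ n • (⊤ : Submodule R M)) := Submodule.smul_sup _ _ _
      _ ≤ N ⊔ J ^ (n + 1) • (⊤ : Submodule R M) := by
        refine sup_le_sup Submodule.smul_le_right ?_
        rw [← Submodule.mul_smul, ← pow_succ']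

/-- If `𝔪 ≤ I ⊔ 𝔪 ^ 2` then `𝔪 ≤ I ⊔ 𝔪 ^ (j + 1)` for all `j`. -/
theorem le_sup_pow_of_le_sup_sq {A : Type*} [CommRing A] (I 𝔪 : Ideal A)
    (h : 𝔪 ≤ I ⊔ 𝔪 ^ 2) (j : ℕ) : 𝔪 ≤ I ⊔ 𝔪 ^ (j + 1) := by
  induction j with
  | zero => simp
  | succ j ih =>
    refine h.trans (sup_le le_sup_left ?_)
    calc 𝔪 ^ 2 = 𝔪 * 𝔪 := pow_two 𝔪
      _ ≤ 𝔪 * (I ⊔ 𝔪 ^ (j + 1)) := Ideal.mul_mono_right ih
      _ = 𝔪 * I ⊔ 𝔪 * 𝔪 ^ (j + 1) := Ideal.mul_sup _ _ _
      _ ≤ I ⊔ 𝔪 ^ (j + 1 + 1) := by
        refine sup_le_sup Ideal.mul_le_right ?_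
        rw [← pow_succ']

theorem le_of_le_sup_sq_of_pow_eq_bot {A : Type*} [CommRing A] (I 𝔪 : Ideal A)
    (h : 𝔪 ≤ I ⊔ 𝔪 ^ 2) {n : ℕ} (hn : 𝔪 ^ n = ⊥) : 𝔪 ≤ I := by
  have := le_sup_pow_of_le_sup_sq I 𝔪 h n
  have h2 : 𝔪 ^ (n + 1) = ⊥ := by rw [pow_succ, hn, Ideal.bot_mul]
  rwa [h2, sup_bot_eq] at this

end Nakayama

section Surjective

variable {𝒪 : Type*} [CommRing 𝒪]
variable {P : Type*} [CommRing P] [IsLocalRing P] [Algebra 𝒪 P]
variable {A : Type*} [CommRing A] [IsLocalRing A] [Algebra 𝒪 A]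

/-- An `𝒪`-algebra map between local rings is automatically local on maximal ideals as soon as
the residue field of the target is generated by `𝒪`. -/
theorem algHom_map_maximalIdeal_le
    (hres : Function.Surjective (IsLocalRing.residue A ∘ algebraMap 𝒪 A))
    (f : P →ₐ[𝒪] A) : (maximalIdeal P).map (f : P →+* A) ≤ maximalIdeal A := by
  rw [Ideal.map_le_iff_le_comap]
  intro x hx
  rw [Ideal.mem_comap]
  by_contra hfx
  rw [mem_maximalIdeal, mem_nonunits_iff, not_not] at hfx
  obtain ⟨v, hv⟩ := hfx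
  obtain ⟨c, hc⟩ := hres (IsLocalRing.residue A ((v⁻¹ : Aˣ) : A))
  rw [Function.comp_apply] at hc
  -- `1 - x * c` is a unit of `P`
  have hu : IsUnit (1 - x * algebraMap 𝒪 P c) := by
    have hmem : x * algebraMap 𝒪 P c ∈ maximalIdeal P := Ideal.mul_mem_right _ _ hx
    by_contra hnu
    have h1 : (1 - x * algebraMap 𝒪 P c) ∈ maximalIdeal P := by
      rwa [mem_maximalIdeal, mem_nonunits_iff]
    have : (1 : P) ∈ maximalIdeal P := by
      have := (maximalIdeal P).add_mem h1 hmem
      simp at this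
    exact (Ideal.ne_top_iff_one _).1 (maximalIdeal.isMaximal P).ne_top this
  have hu' : IsUnit ((f : P →+* A) (1 - x * algebraMap 𝒪 P c)) := hu.map _
  have hzero : IsLocalRing.residue A ((f : P →+* A) (1 - x * algebraMap 𝒪 P c)) = 0 := by
    have hfc : (f : P →+* A) (algebraMap 𝒪 P c) = algebraMap 𝒪 A c := f.commutes c
    rw [map_sub, map_one, map_mul, hfc, map_sub, map_one, map_mul, hc, ← map_mul]
    have : (f : P →+* A) x * ((v⁻¹ : Aˣ) : A) = 1 := by
      rw [← hv]; exact v.mul_inv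
    rw [this, map_one, sub_self]
  rw [IsLocalRing.residue_eq_zero_iff] at hzero
  exact (mem_nonunits_iff.1 ((mem_maximalIdeal _).1 hzero)) hu'

/-- **Surjectivity criterion.** Let `f : P →ₐ[𝒪] A` be an `𝒪`-algebra map of local rings,
where the residue field of `A` is generated by `𝒪`, the maximal ideal of `A` is nilpotent, and
the image of the maximal ideal of `P` generates the maximal ideal of `A` modulo its square.
Then `f` is surjective. -/
theorem algHom_surjective_of_nilpotent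
    (hres : Function.Surjective (IsLocalRing.residue A ∘ algebraMap 𝒪 A))
    (f : P →ₐ[𝒪] A) {n : ℕ} (hn : maximalIdeal A ^ n = ⊥)
    (hgen : maximalIdeal A ≤ (maximalIdeal P).map (f : P →+* A) ⊔ maximalIdeal A ^ 2) :
    Function.Surjective f := by
  have hle := algHom_map_maximalIdeal_le hres f
  have hI : maximalIdeal A ≤ (maximalIdeal P).map (f : P →+* A) :=
    le_of_le_sup_sq_of_pow_eq_bot _ _ hgen hn
  let _ : Algebra P A := (f : P →+* A).toAlgebra
  have halg : ∀ p : P, algebraMap P A p = f p := fun p => rfl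
  -- the submodule `N = range f`
  let N : Submodule P A := LinearMap.range (Algebra.linearMap P A)
  have hsmul : ∀ J : Ideal P, (J • (⊤ : Submodule P A)) =
      (J.map (algebraMap P A)).restrictScalars P := fun J => Ideal.smul_top_eq_map J
  have h1 : N ⊔ (maximalIdeal P) • (⊤ : Submodule P A) = ⊤ := by
    rw [eq_top_iff]
    intro a _
    obtain ⟨c, hc⟩ := hres (IsLocalRing.residue A a)
    rw [Function.comp_apply] at hc
    have hm : a - algebraMap 𝒪 A c ∈ maximalIdeal A := by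
      rw [← IsLocalRing.residue_eq_zero_iff, map_sub, hc, sub_self]
    rw [Submodule.mem_sup]
    refine ⟨algebraMap 𝒪 A c, ⟨algebraMap 𝒪 P c, ?_⟩, a - algebraMap 𝒪 A c, ?_, by ring⟩
    · rw [Algebra.linearMap_apply, halg]
      exact f.commutes c
    · rw [hsmul, Submodule.restrictScalars_mem]
      exact hI hm
  have h2 := sup_pow_smul_top_eq_top (maximalIdeal P) N h1 n
  have h3 : (maximalIdeal P) ^ n • (⊤ : Submodule P A) = ⊥ := by
    rw [hsmul, Ideal.map_pow, eq_bot_iff]
    intro a ha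
    rw [Submodule.restrictScalars_mem] at ha
    have : a ∈ maximalIdeal A ^ n := Ideal.pow_right_mono hle n ha
    rw [hn] at this
    exact this
  rw [h3, sup_bot_eq] at h2
  intro a
  have : a ∈ N := by rw [h2]; trivial
  obtain ⟨p, hp⟩ := this
  exact ⟨p, hp⟩

/-- Version of `algHom_surjective_of_nilpotent` for a power series ring with explicit
generators. -/
theorem mvPowerSeries_algHom_surjective [IsLocalRing 𝒪] {d : ℕ}
    (hres : Function.Surjective (IsLocalRing.residue A ∘ algebraMap 𝒪 A))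
    (f : MvPowerSeries (Fin d) 𝒪 →ₐ[𝒪] A) {n : ℕ} (hn : maximalIdeal A ^ n = ⊥)
    (hgen : maximalIdeal A ≤ Ideal.span (Set.range fun i => f (MvPowerSeries.X i)) ⊔
      (maximalIdeal 𝒪).map (algebraMap 𝒪 A) ⊔ maximalIdeal A ^ 2) :
    Function.Surjective f := by
  refine algHom_surjective_of_nilpotent hres f hn (hgen.trans (sup_le_sup_right ?_ _))
  refine sup_le ?_ ?_
  · rw [Ideal.span_le]
    rintro _ ⟨i, rfl⟩
    refine Ideal.mem_map_of_mem (f : MvPowerSeries (Fin d) 𝒪 →+* A) ?_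
    rw [mem_maximalIdeal, mem_nonunits_iff, MvPowerSeries.isUnit_iff_constantCoeff,
      MvPowerSeries.constantCoeff_X]
    exact not_isUnit_zero
  · rw [Ideal.map_le_iff_le_comap]
    intro c hc
    rw [Ideal.mem_comap, ← f.commutes c]
    refine Ideal.mem_map_of_mem (f : MvPowerSeries (Fin d) 𝒪 →+* A) ?_
    rw [mem_maximalIdeal, mem_nonunits_iff, MvPowerSeries.isUnit_iff_constantCoeff,
      MvPowerSeries.algebraMap_apply, MvPowerSeries.constantCoeff_C]
    simpa using hc

end Surjective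

end Fermat.Agent.S53.PSC
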