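import Mathlib
import Fermat.Agent.S53.PowerSeriesComplete
import Fermat.Agent.S53.QuotientComplete
import Fermat.Agent.S53.PowerSeriesEval
import Fermat.Agent.S53.PowerSeriesLimit
import Fermat.Agent.S53.PowerSeriesSurj

/-!
# Completion of an algebra along a chain of ideals of "finite type"

Helper library for S53 (owner of this file: helper15).
All declarations live in namespace `Fermat.Agent.S53.PSC`.
-/

set_option linter.unusedSectionVars false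
set_option linter.style.haveILetI false

namespace Fermat.Agent.S53.PSC

open IsLocalRing

section Prelim

/-- A ring is adically complete with respect to a nilpotent ideal. -/
theorem isAdicComplete_of_pow_eq_bot {A : Type*} [CommRing A] (I : Ideal A) {n : ℕ}
    (h : I ^ n = ⊥) : IsAdicComplete I A where
  haus' := by
    intro x hx
    have := hx n
    rw [SModEq.zero, smul_eq_mul, Ideal.mul_top, h] at this
    exact this
  prec' := by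
    intro f hf
    refine ⟨f n, fun m => ?_⟩
    rcases le_total m n with hmn | hnm
    · exact hf hmn
    · have := hf hnm
      rw [SModEq.sub_mem, smul_eq_mul, Ideal.mul_top, h, Submodule.mem_bot, sub_eq_zero] at this
      rw [this]

variable {𝒪 : Type*} [CommRing 𝒪] [IsLocalRing 𝒪] {Λ : Type*} [CommRing Λ] [Algebra 𝒪 Λ]

/-- An ideal `𝔫 ≠ ⊤` containing the image of the maximal ideal of `𝒪` and such that every
element is congruent to a constant is maximal. -/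
theorem isMaximal_of_residue (𝔫 : Ideal Λ) (h𝔫 : 𝔫 ≠ ⊤)
    (hm : (maximalIdeal 𝒪).map (algebraMap 𝒪 Λ) ≤ 𝔫)
    (hres : ∀ x : Λ, ∃ c : 𝒪, x - algebraMap 𝒪 Λ c ∈ 𝔫) : 𝔫.IsMaximal := by
  rw [Ideal.isMaximal_iff]
  refine ⟨(Ideal.ne_top_iff_one 𝔫).1 h𝔫, fun J x hJ hx hxJ => ?_⟩
  obtain ⟨c, hc⟩ := hres x
  have hcu : IsUnit c := by
    by_contra hcn
    have : algebraMap 𝒪 Λ c ∈ 𝔫 := hm (Ideal.mem_map_of_mem _ hcn)
    apply hx
    have := 𝔫.add_mem hc this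
    simpa using this
  have h1 : algebraMap 𝒪 Λ c ∈ J := by
    have := J.sub_mem hxJ (hJ hc)
    simpa using this
  obtain ⟨u, rfl⟩ := hcu
  have : algebraMap 𝒪 Λ (↑u⁻¹ : 𝒪) * algebraMap 𝒪 Λ (u : 𝒪) ∈ J := J.mul_mem_left _ h1
  rwa [← map_mul, Units.inv_mul, map_one] at this

end Prelim

section General

variable {𝒪 : Type*} [CommRing 𝒪]
variable {P : Type*} [CommRing P] [Algebra 𝒪 P]
variable {A : Type*} [CommRing A] [Algebra 𝒪 A]

/-- Version of `algHom_surjective_of_nilpotent` for an arbitrary nilpotent ideal `I` of the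
target such that every element of `A` is congruent to a constant modulo `I`. -/
theorem algHom_surjective_of_nilpotent_ideal (𝔪 : Ideal P) (I : Ideal A)
    (hres : ∀ a : A, ∃ c : 𝒪, a - algebraMap 𝒪 A c ∈ I)
    (f : P →ₐ[𝒪] A) {n : ℕ} (hn : I ^ n = ⊥)
    (hle : 𝔪.map (f : P →+* A) ≤ I)
    (hgen : I ≤ 𝔪.map (f : P →+* A) ⊔ I ^ 2) :
    Function.Surjective f ∧ 𝔪.map (f : P →+* A) = I := by
  have hI : I ≤ 𝔪.map (f : P →+* A) := le_of_le_sup_sq_of_pow_eq_bot _ _ hgen hn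
  refine ⟨?_, le_antisymm hle hI⟩
  let _ : Algebra P A := (f : P →+* A).toAlgebra
  have halg : ∀ p : P, algebraMap P A p = f p := fun p => rfl
  let N : Submodule P A := LinearMap.range (Algebra.linearMap P A)
  have hsmul : ∀ J : Ideal P, (J • (⊤ : Submodule P A)) =
      (J.map (algebraMap P A)).restrictScalars P := fun J => Ideal.smul_top_eq_map J
  have h1 : N ⊔ 𝔪 • (⊤ : Submodule P A) = ⊤ := by
    rw [eq_top_iff]
    intro a _
    obtain ⟨c, hc⟩ := hres a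
    rw [Submodule.mem_sup]
    refine ⟨algebraMap 𝒪 A c, ⟨algebraMap 𝒪 P c, ?_⟩, a - algebraMap 𝒪 A c, ?_, by ring⟩
    · rw [Algebra.linearMap_apply, halg]
      exact f.commutes c
    · rw [hsmul, Submodule.restrictScalars_mem]
      exact hI hc
  have h2 := sup_pow_smul_top_eq_top 𝔪 N h1 n
  have h3 : 𝔪 ^ n • (⊤ : Submodule P A) = ⊥ := by
    rw [hsmul, Ideal.map_pow, eq_bot_iff]
    intro a ha
    rw [Submodule.restrictScalars_mem] at ha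
    have : a ∈ I ^ n := Ideal.pow_right_mono hle n ha
    rw [hn] at this
    exact this
  rw [h3, sup_bot_eq] at h2
  intro a
  have : a ∈ N := by rw [h2]; trivial
  obtain ⟨p, hp⟩ := this
  exact ⟨p, hp⟩

variable [IsLocalRing 𝒪] {σ : Type*} [Finite σ]

theorem mvps_truncTotal_one (p : MvPowerSeries σ 𝒪) :
    (MvPowerSeries.truncTotal 1 p : MvPolynomial σ 𝒪) =
      MvPolynomial.C (MvPowerSeries.constantCoeff p) := by
  classical
  ext d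
  rw [MvPowerSeries.coeff_truncTotal_eq_ite, MvPolynomial.coeff_C]
  by_cases hd : d = 0
  · subst hd
    simp
  · have hdeg : ¬ Finsupp.degree d < 1 := by
      intro h
      exact hd ((Finsupp.degree_eq_zero_iff d).mp (by omega))
    rw [if_neg hdeg, if_neg (Ne.symm hd)]

/-- An `𝒪`-algebra map out of the power series ring sending the variables and the maximal
ideal of `𝒪` into `I` sends the maximal ideal into `I`. -/
theorem mvps_map_maximalIdeal_le (I : Ideal A)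
    (f : MvPowerSeries σ 𝒪 →ₐ[𝒪] A) (hX : ∀ i, f (MvPowerSeries.X i) ∈ I)
    (hm : (maximalIdeal 𝒪).map (algebraMap 𝒪 A) ≤ I) :
    (maximalIdeal (MvPowerSeries σ 𝒪)).map (f : MvPowerSeries σ 𝒪 →+* A) ≤ I := by
  rw [Ideal.map_le_iff_le_comap]
  intro p hp
  rw [Ideal.mem_comap]
  have h1 := Fermat.Agent.S53.algHom_sub_aeval_truncTotal_mem I f hX 1 p
  rw [pow_one, mvps_truncTotal_one, MvPolynomial.aeval_C] at h1
  have h2 : algebraMap 𝒪 A (MvPowerSeries.constantCoeff p) ∈ I :=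
    hm (Ideal.mem_map_of_mem _ ((Fermat.Agent.S53.mvPS_mem_maximalIdeal_iff 𝒪 p).1 hp))
  have := I.add_mem h1 h2
  simpa using this

omit [Finite σ] in
theorem mvps_span_le_map_maximalIdeal (f : MvPowerSeries σ 𝒪 →ₐ[𝒪] A) :
    Ideal.span (Set.range fun i => f (MvPowerSeries.X i)) ⊔
      (maximalIdeal 𝒪).map (algebraMap 𝒪 A) ≤
      (maximalIdeal (MvPowerSeries σ 𝒪)).map (f : MvPowerSeries σ 𝒪 →+* A) := by
  refine sup_le ?_ ?_
  · rw [Ideal.span_le]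
    rintro _ ⟨i, rfl⟩
    refine Ideal.mem_map_of_mem (f : MvPowerSeries σ 𝒪 →+* A) ?_
    rw [mem_maximalIdeal, mem_nonunits_iff, MvPowerSeries.isUnit_iff_constantCoeff,
      MvPowerSeries.constantCoeff_X]
    exact not_isUnit_zero
  · rw [Ideal.map_le_iff_le_comap]
    intro c hc
    rw [Ideal.mem_comap, ← f.commutes c]
    refine Ideal.mem_map_of_mem (f : MvPowerSeries σ 𝒪 →+* A) ?_
    rw [mem_maximalIdeal, mem_nonunits_iff, MvPowerSeries.isUnit_iff_constantCoeff,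
      MvPowerSeries.algebraMap_apply, MvPowerSeries.constantCoeff_C]
    simpa using hc

/-- Surjectivity criterion for maps from a power series ring to an algebra with a nilpotent
ideal `I` modulo which everything is constant. -/
theorem mvps_algHom_surjective_of_nilpotent_ideal (I : Ideal A)
    (hres : ∀ a : A, ∃ c : 𝒪, a - algebraMap 𝒪 A c ∈ I)
    (hm : (maximalIdeal 𝒪).map (algebraMap 𝒪 A) ≤ I)
    (f : MvPowerSeries σ 𝒪 →ₐ[𝒪] A) (hX : ∀ i, f (MvPowerSeries.X i) ∈ I)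
    {n : ℕ} (hn : I ^ n = ⊥)
    (hgen : I ≤ Ideal.span (Set.range fun i => f (MvPowerSeries.X i)) ⊔
      (maximalIdeal 𝒪).map (algebraMap 𝒪 A) ⊔ I ^ 2) :
    Function.Surjective f ∧
      (maximalIdeal (MvPowerSeries σ 𝒪)).map (f : MvPowerSeries σ 𝒪 →+* A) = I :=
  algHom_surjective_of_nilpotent_ideal _ I hres f hn (mvps_map_maximalIdeal_le I f hX hm)
    (hgen.trans (sup_le_sup_right (mvps_span_le_map_maximalIdeal f) _))

end General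

section Chain

open MvPowerSeries

variable {𝒪 : Type*} [CommRing 𝒪] [IsLocalRing 𝒪]
  {Λ : Type*} [CommRing Λ] [Algebra 𝒪 Λ] (J : ℕ → Ideal Λ) (𝔫 : Ideal Λ)

theorem map_mk_pow_eq_bot (hJ1 : ∀ n, 𝔫 ^ n ≤ J n) (n : ℕ) :
    (𝔫.map (Ideal.Quotient.mk (J n))) ^ n = ⊥ := by
  rw [← Ideal.map_pow, Ideal.map_eq_bot_iff_le_ker, Ideal.mk_ker]
  exact hJ1 n

theorem chain_le_sup_sq (hJ2 : ∀ n, J n = J (n + 1) ⊔ 𝔫 ^ n) (n : ℕ) :
    J 2 ≤ J n ⊔ 𝔫 ^ 2 := by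
  have hanti := chain_antitone 𝔫 J hJ2
  rcases le_total n 2 with h | h
  · exact (hanti h).trans le_sup_left
  · induction n, h using Nat.le_induction with
    | base => exact le_sup_left
    | succ n hn ih =>
      refine ih.trans (sup_le ?_ le_sup_right)
      rw [hJ2 n]
      exact sup_le_sup_left (Ideal.pow_le_pow_right hn) _

omit [IsLocalRing 𝒪] in
theorem level_res (hres : ∀ x : Λ, ∃ c : 𝒪, x - algebraMap 𝒪 Λ c ∈ 𝔫) (n : ℕ)
    (a : Λ ⧸ J n) :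
    ∃ c : 𝒪, a - algebraMap 𝒪 (Λ ⧸ J n) c ∈ 𝔫.map (Ideal.Quotient.mk (J n)) := by
  obtain ⟨l, rfl⟩ := Ideal.Quotient.mk_surjective a
  obtain ⟨c, hc⟩ := hres l
  refine ⟨c, ?_⟩
  have : algebraMap 𝒪 (Λ ⧸ J n) c = Ideal.Quotient.mk (J n) (algebraMap 𝒪 Λ c) := rfl
  rw [this, ← map_sub]
  exact Ideal.mem_map_of_mem _ hc

theorem level_map_le (hm : (maximalIdeal 𝒪).map (algebraMap 𝒪 Λ) ≤ 𝔫) (n : ℕ) :
    (maximalIdeal 𝒪).map (algebraMap 𝒪 (Λ ⧸ J n)) ≤ 𝔫.map (Ideal.Quotient.mk (J n)) := by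
  have : algebraMap 𝒪 (Λ ⧸ J n) = (Ideal.Quotient.mk (J n)).comp (algebraMap 𝒪 Λ) := rfl
  rw [this, ← Ideal.map_map]
  exact Ideal.map_mono hm

theorem level_gen (hJ2 : ∀ n, J n = J (n + 1) ⊔ 𝔫 ^ n) {d : ℕ} (lam : Fin d → Λ)
    (hgen : 𝔫 ≤ Ideal.span (Set.range lam) ⊔ (maximalIdeal 𝒪).map (algebraMap 𝒪 Λ) ⊔ J 2)
    (n : ℕ) :
    𝔫.map (Ideal.Quotient.mk (J n)) ≤
      Ideal.span (Set.range fun i => Ideal.Quotient.mk (J n) (lam i)) ⊔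
        (maximalIdeal 𝒪).map (algebraMap 𝒪 (Λ ⧸ J n)) ⊔
        (𝔫.map (Ideal.Quotient.mk (J n))) ^ 2 := by
  have h1 := Ideal.map_mono (f := Ideal.Quotient.mk (J n))
    (hgen.trans (sup_le_sup_left (chain_le_sup_sq J 𝔫 hJ2 n) _))
  refine h1.trans ?_
  rw [Ideal.map_sup, Ideal.map_sup, Ideal.map_sup, Ideal.map_span, Ideal.map_map,
    Ideal.map_quotient_self, bot_sup_eq, Ideal.map_pow, ← Set.range_comp]
  exact le_of_eq rfl

variable {d : ℕ} (π : ∀ n, MvPowerSeries (Fin d) 𝒪 →ₐ[𝒪] Λ ⧸ J n) (lam : Fin d → Λ)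

theorem chain_pi_surjective
    (hm : (maximalIdeal 𝒪).map (algebraMap 𝒪 Λ) ≤ 𝔫)
    (hres : ∀ x : Λ, ∃ c : 𝒪, x - algebraMap 𝒪 Λ c ∈ 𝔫)
    (hJ1 : ∀ n, 𝔫 ^ n ≤ J n) (hJ2 : ∀ n, J n = J (n + 1) ⊔ 𝔫 ^ n)
    (hlam : ∀ i, lam i ∈ 𝔫)
    (hgen : 𝔫 ≤ Ideal.span (Set.range lam) ⊔ (maximalIdeal 𝒪).map (algebraMap 𝒪 Λ) ⊔ J 2)
    (hπ : ∀ n i, π n (X i) = Ideal.Quotient.mk (J n) (lam i)) (n : ℕ) :
    Function.Surjective (π n) ∧
      (maximalIdeal (MvPowerSeries (Fin d) 𝒪)).map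
        (π n : MvPowerSeries (Fin d) 𝒪 →+* Λ ⧸ J n) = 𝔫.map (Ideal.Quotient.mk (J n)) := by
  refine mvps_algHom_surjective_of_nilpotent_ideal _ (level_res J 𝔫 hres n)
    (level_map_le J 𝔫 hm n) (π n) (fun i => ?_) (map_mk_pow_eq_bot J 𝔫 hJ1 n) ?_
  · rw [hπ]
    exact Ideal.mem_map_of_mem _ (hlam i)
  · have e : (fun i => π n (X i)) = fun i => Ideal.Quotient.mk (J n) (lam i) := funext (hπ n)
    rw [e]
    exact level_gen J 𝔫 hJ2 lam hgen n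

theorem chain_pi_compat
    (hJ1 : ∀ n, 𝔫 ^ n ≤ J n) (hJ2 : ∀ n, J n = J (n + 1) ⊔ 𝔫 ^ n)
    (hlam : ∀ i, lam i ∈ 𝔫)
    (hπ : ∀ n i, π n (X i) = Ideal.Quotient.mk (J n) (lam i)) (n : ℕ)
    (p : MvPowerSeries (Fin d) 𝒪) :
    Ideal.Quotient.factor (chain_antitone 𝔫 J hJ2 n.le_succ) (π (n + 1) p) = π n p := by
  have : IsAdicComplete (𝔫.map (Ideal.Quotient.mk (J n))) (Λ ⧸ J n) :=
    isAdicComplete_of_pow_eq_bot _ (map_mk_pow_eq_bot J 𝔫 hJ1 n)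
  have h : (Ideal.Quotient.factorₐ 𝒪 (chain_antitone 𝔫 J hJ2 n.le_succ)).comp (π (n + 1))
      = π n := by
    refine Fermat.Agent.S53.algHom_ext_of_X (𝔫.map (Ideal.Quotient.mk (J n)))
      (fun i => ?_) (fun i => ?_)
    · rw [AlgHom.comp_apply, hπ, Ideal.Quotient.factorₐ_apply_mk]
      exact Ideal.mem_map_of_mem _ (hlam i)
    · rw [AlgHom.comp_apply, hπ, hπ, Ideal.Quotient.factorₐ_apply_mk]
  exact DFunLike.congr_fun h p

theorem chain_pow_le_ker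
    (hm : (maximalIdeal 𝒪).map (algebraMap 𝒪 Λ) ≤ 𝔫)
    (hres : ∀ x : Λ, ∃ c : 𝒪, x - algebraMap 𝒪 Λ c ∈ 𝔫)
    (hJ1 : ∀ n, 𝔫 ^ n ≤ J n) (hJ2 : ∀ n, J n = J (n + 1) ⊔ 𝔫 ^ n)
    (hlam : ∀ i, lam i ∈ 𝔫)
    (hgen : 𝔫 ≤ Ideal.span (Set.range lam) ⊔ (maximalIdeal 𝒪).map (algebraMap 𝒪 Λ) ⊔ J 2)
    (hπ : ∀ n i, π n (X i) = Ideal.Quotient.mk (J n) (lam i)) (n : ℕ) :
    maximalIdeal (MvPowerSeries (Fin d) 𝒪) ^ n ≤
      RingHom.ker (π n : MvPowerSeries (Fin d) 𝒪 →+* Λ ⧸ J n) := by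
  rw [← Ideal.map_eq_bot_iff_le_ker, Ideal.map_pow,
    (chain_pi_surjective J 𝔫 π lam hm hres hJ1 hJ2 hlam hgen hπ n).2,
    map_mk_pow_eq_bot J 𝔫 hJ1 n]

theorem chain_ker_eq
    (hm : (maximalIdeal 𝒪).map (algebraMap 𝒪 Λ) ≤ 𝔫)
    (hres : ∀ x : Λ, ∃ c : 𝒪, x - algebraMap 𝒪 Λ c ∈ 𝔫)
    (hJ1 : ∀ n, 𝔫 ^ n ≤ J n) (hJ2 : ∀ n, J n = J (n + 1) ⊔ 𝔫 ^ n)
    (hlam : ∀ i, lam i ∈ 𝔫)
    (hgen : 𝔫 ≤ Ideal.span (Set.range lam) ⊔ (maximalIdeal 𝒪).map (algebraMap 𝒪 Λ) ⊔ J 2)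
    (hπ : ∀ n i, π n (X i) = Ideal.Quotient.mk (J n) (lam i)) (n : ℕ) :
    RingHom.ker (π n : MvPowerSeries (Fin d) 𝒪 →+* Λ ⧸ J n) =
      RingHom.ker (π (n + 1) : MvPowerSeries (Fin d) 𝒪 →+* Λ ⧸ J (n + 1)) ⊔
        maximalIdeal (MvPowerSeries (Fin d) 𝒪) ^ n := by
  have hs := chain_pi_surjective J 𝔫 π lam hm hres hJ1 hJ2 hlam hgen hπ (n + 1)
  refine le_antisymm ?_
    (sup_le ?_ (chain_pow_le_ker J 𝔫 π lam hm hres hJ1 hJ2 hlam hgen hπ n))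
  · intro p hp
    have hp' : π n p = 0 := hp
    have h1 : (π (n + 1) : MvPowerSeries (Fin d) 𝒪 →+* Λ ⧸ J (n + 1)) p ∈
        ((maximalIdeal (MvPowerSeries (Fin d) 𝒪)) ^ n).map
          (π (n + 1) : MvPowerSeries (Fin d) 𝒪 →+* Λ ⧸ J (n + 1)) := by
      rw [Ideal.map_pow, hs.2, ← Ideal.map_pow]
      obtain ⟨l, hl⟩ := Ideal.Quotient.mk_surjective (π (n + 1) p)
      have hlJ : l ∈ J n := by
        have := chain_pi_compat J 𝔫 π lam hJ1 hJ2 hlam hπ n p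
        rw [← hl, Ideal.Quotient.factor_mk, hp', Ideal.Quotient.eq_zero_iff_mem] at this
        exact this
      rw [hJ2 n, Submodule.mem_sup] at hlJ
      obtain ⟨a, ha, b, hb, rfl⟩ := hlJ
      change π (n + 1) p ∈ _
      rw [← hl, map_add, Ideal.Quotient.eq_zero_iff_mem.2 ha, zero_add]
      exact Ideal.mem_map_of_mem _ hb
    rw [Ideal.mem_map_iff_of_surjective
      (π (n + 1) : MvPowerSeries (Fin d) 𝒪 →+* Λ ⧸ J (n + 1)) hs.1] at h1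
    obtain ⟨q, hq, hqp⟩ := h1
    rw [Submodule.mem_sup]
    refine ⟨p - q, ?_, q, hq, by ring⟩
    rw [RingHom.mem_ker, map_sub, hqp, sub_self]
  · intro p hp
    have hp' : π (n + 1) p = 0 := hp
    change π n p = 0
    rw [← chain_pi_compat J 𝔫 π lam hJ1 hJ2 hlam hπ n p, hp', map_zero]

end Chain

section Main

open MvPowerSeries

universe u v

variable {𝒪 : Type u} [CommRing 𝒪] [IsLocalRing 𝒪] [IsNoetherianRing 𝒪]
  [IsAdicComplete (maximalIdeal 𝒪) 𝒪]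
  {Λ : Type v} [CommRing Λ] [Algebra 𝒪 Λ] (J : ℕ → Ideal Λ) (𝔫 : Ideal Λ)
  {d : ℕ} (lam : Fin d → Λ)

/-- The evaluation maps `𝒪⟦X₁,…,X_d⟧ → Λ ⧸ J n`, `X i ↦ lam i`. -/
noncomputable def chainEval (hJ1 : ∀ n, 𝔫 ^ n ≤ J n) (hlam : ∀ i, lam i ∈ 𝔫) (n : ℕ) :
    MvPowerSeries (Fin d) 𝒪 →ₐ[𝒪] Λ ⧸ J n :=
  haveI : IsAdicComplete (𝔫.map (Ideal.Quotient.mk (J n))) (Λ ⧸ J n) :=
    isAdicComplete_of_pow_eq_bot _ (map_mk_pow_eq_bot J 𝔫 hJ1 n)
  Fermat.Agent.S53.evalHom (𝒪 := 𝒪) (𝔫.map (Ideal.Quotient.mk (J n)))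
    (t := fun i => Ideal.Quotient.mk (J n) (lam i)) (fun i => Ideal.mem_map_of_mem _ (hlam i))

theorem chainEval_X (hJ1 : ∀ n, 𝔫 ^ n ≤ J n) (hlam : ∀ i, lam i ∈ 𝔫) (n : ℕ) (i : Fin d) :
    chainEval (𝒪 := 𝒪) J 𝔫 lam hJ1 hlam n (X i) = Ideal.Quotient.mk (J n) (lam i) := by
  haveI : IsAdicComplete (𝔫.map (Ideal.Quotient.mk (J n))) (Λ ⧸ J n) :=
    isAdicComplete_of_pow_eq_bot _ (map_mk_pow_eq_bot J 𝔫 hJ1 n)
  exact Fermat.Agent.S53.evalHom_X (𝒪 := 𝒪) (𝔫.map (Ideal.Quotient.mk (J n)))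
    (t := fun i => Ideal.Quotient.mk (J n) (lam i)) (fun i => Ideal.mem_map_of_mem _ (hlam i)) i

/-- **Completion of an algebra along a chain of ideals** (main construction, in terms of a given
compatible family of evaluation maps). -/
theorem exists_completion_of_chain_aux
    (π : ∀ n, MvPowerSeries (Fin d) 𝒪 →ₐ[𝒪] Λ ⧸ J n)
    (h𝔫 : 𝔫 ≠ ⊤) (hm : (maximalIdeal 𝒪).map (algebraMap 𝒪 Λ) ≤ 𝔫)
    (hres : ∀ x : Λ, ∃ c : 𝒪, x - algebraMap 𝒪 Λ c ∈ 𝔫)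
    (hJ1 : ∀ n, 𝔫 ^ n ≤ J n) (hJle : J 1 ≤ 𝔫) (hJ2 : ∀ n, J n = J (n + 1) ⊔ 𝔫 ^ n)
    (hlam : ∀ i, lam i ∈ 𝔫)
    (hgen : 𝔫 ≤ Ideal.span (Set.range lam) ⊔ (maximalIdeal 𝒪).map (algebraMap 𝒪 Λ) ⊔ J 2)
    (hπ : ∀ n i, π n (X i) = Ideal.Quotient.mk (J n) (lam i)) :
    ∃ (R : Type u) (_ : CommRing R) (_ : IsLocalRing R) (_ : IsNoetherianRing R)
      (_ : IsAdicComplete (maximalIdeal R) R) (_ : Algebra 𝒪 R)
      (_ : IsLocalHom (algebraMap 𝒪 R)) (ι : Λ →ₐ[𝒪] R),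
      Function.Surjective (IsLocalRing.residue R ∘ algebraMap 𝒪 R) ∧
      (∀ n, (maximalIdeal R ^ n).comap (ι : Λ →+* R) = J n) ∧
      (∀ n (x : R), ∃ l : Λ, x - ι l ∈ maximalIdeal R ^ n) := by
  classical
  let K : ℕ → Ideal (MvPowerSeries (Fin d) 𝒪) :=
    fun n => RingHom.ker (π n : MvPowerSeries (Fin d) 𝒪 →+* Λ ⧸ J n)
  have hK1 : ∀ n, maximalIdeal (MvPowerSeries (Fin d) 𝒪) ^ n ≤ K n :=
    chain_pow_le_ker J 𝔫 π lam hm hres hJ1 hJ2 hlam hgen hπ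
  have hK2 : ∀ n, K n = K (n + 1) ⊔ maximalIdeal (MvPowerSeries (Fin d) 𝒪) ^ n :=
    chain_ker_eq J 𝔫 π lam hm hres hJ1 hJ2 hlam hgen hπ
  have hsurj : ∀ n, Function.Surjective (π n) := fun n =>
    (chain_pi_surjective J 𝔫 π lam hm hres hJ1 hJ2 hlam hgen hπ n).1
  have hcompat := chain_pi_compat J 𝔫 π lam hJ1 hJ2 hlam hπ
  haveI : IsAdicComplete (maximalIdeal (MvPowerSeries (Fin d) 𝒪)) (MvPowerSeries (Fin d) 𝒪) :=
    mvps_isAdicComplete d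
  have h𝔞 : (⨅ n, K n) ≠ ⊤ := by
    intro h
    have h1 : (1 : MvPowerSeries (Fin d) 𝒪) ∈ K 1 := by
      have : (1 : MvPowerSeries (Fin d) 𝒪) ∈ (⨅ n, K n) := by rw [h]; trivial
      exact (Ideal.mem_iInf.1 this) 1
    have h2 : (π 1) 1 = 0 := h1
    rw [map_one] at h2
    have h3 : (1 : Λ) ∈ J 1 := by
      rw [← Ideal.Quotient.eq_zero_iff_mem, map_one]; exact h2
    exact h𝔫 ((Ideal.eq_top_iff_one 𝔫).2 (hJle h3))
  haveI hloc : IsLocalRing (MvPowerSeries (Fin d) 𝒪 ⧸ ⨅ n, K n) :=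
    Fermat.Agent.S53.quot_isLocalRing h𝔞
  haveI hcompl : IsAdicComplete (maximalIdeal (MvPowerSeries (Fin d) 𝒪 ⧸ ⨅ n, K n))
      (MvPowerSeries (Fin d) 𝒪 ⧸ ⨅ n, K n) := Fermat.Agent.S53.quot_isAdicComplete h𝔞
  haveI hlochom : IsLocalHom (algebraMap 𝒪 (MvPowerSeries (Fin d) 𝒪 ⧸ ⨅ n, K n)) :=
    Fermat.Agent.S53.quot_algebraMap_isLocalHom h𝔞
  have hressurj : Function.Surjective (residue (MvPowerSeries (Fin d) 𝒪 ⧸ ⨅ n, K n) ∘
      algebraMap 𝒪 (MvPowerSeries (Fin d) 𝒪 ⧸ ⨅ n, K n)) :=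
    Fermat.Agent.S53.quot_residue_surjective (Fermat.Agent.S53.mvPS_residue_surjective 𝒪) h𝔞
  have hmaxpow : ∀ n, maximalIdeal (MvPowerSeries (Fin d) 𝒪 ⧸ ⨅ n, K n) ^ n =
      (K n).map (Ideal.Quotient.mk (⨅ n, K n)) := by
    intro n
    rw [map_mk_chain_eq_pow K hK1 hK2 n, map_mk_maximalIdeal]
  have F1 : ∀ n (p : MvPowerSeries (Fin d) 𝒪), Ideal.Quotient.mk (⨅ n, K n) p ∈
      maximalIdeal (MvPowerSeries (Fin d) 𝒪 ⧸ ⨅ n, K n) ^ n ↔ π n p = 0 := by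
    intro n p
    rw [hmaxpow n, Ideal.mem_map_iff_of_surjective _ Ideal.Quotient.mk_surjective]
    constructor
    · rintro ⟨q, hq, hqp⟩
      rw [Ideal.Quotient.eq] at hqp
      have h1 : q - p ∈ K n := (Ideal.mem_iInf.1 hqp) n
      have h2 : p ∈ K n := by
        have := (K n).sub_mem hq h1
        simpa using this
      exact h2
    · intro h
      exact ⟨p, h, rfl⟩
  have F2 : ∀ l : Λ, ∃ p : MvPowerSeries (Fin d) 𝒪, ∀ n, π n p = Ideal.Quotient.mk (J n) l := by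
    intro l
    choose q hq using fun n => hsurj n (Ideal.Quotient.mk (J n) l)
    have hcomp : ∀ n, q (n + 1) - q n ∈ K n := by
      intro n
      change π n (q (n + 1) - q n) = 0
      rw [map_sub, hq n, ← hcompat n (q (n + 1)), hq (n + 1), Ideal.Quotient.factor_mk,
        sub_self]
    obtain ⟨x, hx, -⟩ := exists_limit_of_compatible
      (maximalIdeal (MvPowerSeries (Fin d) 𝒪)) K hK1 hK2 q hcomp
    refine ⟨x, fun n => ?_⟩
    have : π n (x - q n) = 0 := hx n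
    rw [map_sub, sub_eq_zero] at this
    rw [this, hq n]
  have F3 : ∀ p q : MvPowerSeries (Fin d) 𝒪, (∀ n, π n p = π n q) →
      Ideal.Quotient.mk (⨅ n, K n) p = Ideal.Quotient.mk (⨅ n, K n) q := by
    intro p q h
    rw [Ideal.Quotient.eq, Ideal.mem_iInf]
    intro n
    change π n (p - q) = 0
    rw [map_sub, h n, sub_self]
  choose g hg using F2
  let ι : Λ →ₐ[𝒪] (MvPowerSeries (Fin d) 𝒪 ⧸ ⨅ n, K n) :=
    { toFun := fun l => Ideal.Quotient.mk _ (g l)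
      map_one' := by
        rw [← map_one (Ideal.Quotient.mk (⨅ n, K n))]
        exact F3 _ _ (fun n => by rw [hg, map_one, map_one])
      map_mul' := fun a b => by
        rw [← map_mul (Ideal.Quotient.mk (⨅ n, K n))]
        exact F3 _ _ (fun n => by rw [hg, map_mul, map_mul, hg, hg])
      map_zero' := by
        rw [← map_zero (Ideal.Quotient.mk (⨅ n, K n))]
        exact F3 _ _ (fun n => by rw [hg, map_zero, map_zero])
      map_add' := fun a b => by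
        rw [← map_add (Ideal.Quotient.mk (⨅ n, K n))]
        exact F3 _ _ (fun n => by rw [hg, map_add, map_add, hg, hg])
      commutes' := fun c => by
        change Ideal.Quotient.mk _ (g (algebraMap 𝒪 Λ c)) =
          Ideal.Quotient.mk _ (algebraMap 𝒪 (MvPowerSeries (Fin d) 𝒪) c)
        exact F3 _ _ (fun n => by rw [hg, AlgHom.commutes]; rfl) }
  have hι : ∀ l, ι l = Ideal.Quotient.mk _ (g l) := fun l => rfl
  refine ⟨MvPowerSeries (Fin d) 𝒪 ⧸ ⨅ n, K n, inferInstance, hloc, inferInstance, hcompl,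
    inferInstance, hlochom, ι, hressurj, ?_, ?_⟩
  · intro n
    ext l
    rw [Ideal.mem_comap]
    change ι l ∈ _ ↔ _
    rw [hι, F1, hg, Ideal.Quotient.eq_zero_iff_mem]
  · intro n x
    obtain ⟨p, rfl⟩ := Ideal.Quotient.mk_surjective x
    obtain ⟨l, hl⟩ := Ideal.Quotient.mk_surjective (π n p)
    refine ⟨l, ?_⟩
    rw [hι, ← map_sub, F1, map_sub, hg, hl, sub_self]

/-- **Completion of an algebra along a chain of ideals.**
Let `Λ` be an `𝒪`-algebra, `𝔫` a proper ideal of `Λ` containing the maximal ideal of `𝒪` with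
`Λ = 𝒪 + 𝔫`, and `J 0 ⊇ J 1 ⊇ …` ideals of `Λ` with `𝔫 ^ n ≤ J n`, `J 1 ≤ 𝔫`,
`J n = J (n + 1) ⊔ 𝔫 ^ n`, such that `𝔫` is generated by finitely many elements modulo
`𝔪_𝒪 Λ + J 2`.  Then there is a complete noetherian local `𝒪`-algebra `R` with residue field
generated by `𝒪` and an `𝒪`-algebra map `ι : Λ → R` with dense image inducing isomorphisms
`Λ ⧸ J n ≃ R ⧸ 𝔪_R ^ n`. -/
theorem exists_completion_of_chain (h𝔫 : 𝔫 ≠ ⊤)
    (hm : (maximalIdeal 𝒪).map (algebraMap 𝒪 Λ) ≤ 𝔫)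
    (hres : ∀ x : Λ, ∃ c : 𝒪, x - algebraMap 𝒪 Λ c ∈ 𝔫)
    (hJ1 : ∀ n, 𝔫 ^ n ≤ J n) (hJle : J 1 ≤ 𝔫) (hJ2 : ∀ n, J n = J (n + 1) ⊔ 𝔫 ^ n)
    (hlam : ∀ i, lam i ∈ 𝔫)
    (hgen : 𝔫 ≤ Ideal.span (Set.range lam) ⊔ (maximalIdeal 𝒪).map (algebraMap 𝒪 Λ) ⊔ J 2) :
    ∃ (R : Type u) (_ : CommRing R) (_ : IsLocalRing R) (_ : IsNoetherianRing R)
      (_ : IsAdicComplete (maximalIdeal R) R) (_ : Algebra 𝒪 R)
      (_ : IsLocalHom (algebraMap 𝒪 R)) (ι : Λ →ₐ[𝒪] R),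
      Function.Surjective (IsLocalRing.residue R ∘ algebraMap 𝒪 R) ∧
      (∀ n, (maximalIdeal R ^ n).comap (ι : Λ →+* R) = J n) ∧
      (∀ n (x : R), ∃ l : Λ, x - ι l ∈ maximalIdeal R ^ n) :=
  exists_completion_of_chain_aux J 𝔫 lam (chainEval (𝒪 := 𝒪) J 𝔫 lam hJ1 hlam)
    h𝔫 hm hres hJ1 hJle hJ2 hlam hgen (chainEval_X J 𝔫 lam hJ1 hlam)

end Main

end Fermat.Agent.S53.PSC
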