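import Mathlib
import Fermat.Prelude.Def_GaloisRep_DeformationCondition

/-!
# S53, part P4: finite-level universal objects (abstract form)

We work with an abstract "point functor": a predicate `NL` on `ι`-indexed families of elements
of local `𝒪`-algebras, satisfying the closure properties of a deformation condition
(base change, descent along injections, fibre products) and a base point.
For every `n ≥ 1` we construct the smallest ideal `J n` of `Λ = MvPolynomial ι 𝒪` such that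
the tautological family over `Λ ⧸ J n` satisfies `NL` and the maximal ideal of `Λ ⧸ J n`
has vanishing `n`-th power.
-/

set_option autoImplicit false

namespace Fermat.Agent.S53.Lvl

open IsLocalRing GaloisRep MvPolynomial

/-- Predicates on `ι`-indexed families in local `𝒪`-algebras. -/
abbrev PointPred (𝒪 : Type) [CommRing 𝒪] (ι : Type) : Type 1 :=
  ∀ ⦃A : Type⦄ [CommRing A] [IsLocalRing A] [Algebra 𝒪 A], (ι → A) → Prop

/-- The closure properties we need from the abstract point functor. -/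
structure IsLevelFunctor {𝒪 : Type} [CommRing 𝒪] [IsLocalRing 𝒪] {ι : Type}
    (NL : PointPred 𝒪 ι) (base : ι → 𝒪) : Prop where
  map : ∀ ⦃A B : Type⦄ [CommRing A] [IsLocalRing A] [Algebra 𝒪 A]
    [CommRing B] [IsLocalRing B] [Algebra 𝒪 B],
    IsArtinianTestAlgebra 𝒪 A → IsArtinianTestAlgebra 𝒪 B →
    ∀ (φ : A →ₐ[𝒪] B), IsLocalHom (φ : A →+* B) → ∀ ⦃x : ι → A⦄, NL x → NL (fun i => φ (x i))
  of_injective : ∀ ⦃A B : Type⦄ [CommRing A] [IsLocalRing A] [Algebra 𝒪 A]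
    [CommRing B] [IsLocalRing B] [Algebra 𝒪 B],
    IsArtinianTestAlgebra 𝒪 A → IsArtinianTestAlgebra 𝒪 B →
    ∀ (φ : A →ₐ[𝒪] B), IsLocalHom (φ : A →+* B) → Function.Injective φ →
      ∀ ⦃x : ι → A⦄, NL (fun i => φ (x i)) → NL x
  of_fibreProduct : ∀ ⦃A B C P : Type⦄ [CommRing A] [IsLocalRing A] [Algebra 𝒪 A]
    [CommRing B] [IsLocalRing B] [Algebra 𝒪 B] [CommRing C] [IsLocalRing C] [Algebra 𝒪 C]
    [CommRing P] [IsLocalRing P] [Algebra 𝒪 P],
    IsArtinianTestAlgebra 𝒪 A → IsArtinianTestAlgebra 𝒪 B → IsArtinianTestAlgebra 𝒪 C →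
    IsArtinianTestAlgebra 𝒪 P →
    ∀ (f : A →ₐ[𝒪] C) (g : B →ₐ[𝒪] C) (pA : P →ₐ[𝒪] A) (pB : P →ₐ[𝒪] B),
      IsLocalHom (pA : P →+* A) → IsLocalHom (pB : P →+* B) →
      f.comp pA = g.comp pB →
      Function.Injective (fun x => (pA x, pB x)) →
      (∀ a b, f a = g b → ∃ x, pA x = a ∧ pB x = b) →
      ∀ ⦃x : ι → P⦄, NL (fun i => pA (x i)) → NL (fun i => pB (x i)) → NL x
  residue : ∀ ⦃A : Type⦄ [CommRing A] [IsLocalRing A] [Algebra 𝒪 A],
    IsArtinianTestAlgebra 𝒪 A → ∀ ⦃x : ι → A⦄, NL x →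
      ∀ i, x i - algebraMap 𝒪 A (base i) ∈ maximalIdeal A

section Basic

variable {𝒪 : Type} [CommRing 𝒪] [IsLocalRing 𝒪] {ι : Type} (base : ι → 𝒪)

/-- The augmentation `Λ → k` determined by the base point. -/
noncomputable def aug : MvPolynomial ι 𝒪 →ₐ[𝒪] ResidueField 𝒪 :=
  aeval fun i => IsLocalRing.residue 𝒪 (base i)

/-- The augmentation ideal. -/
noncomputable def augIdeal : Ideal (MvPolynomial ι 𝒪) := RingHom.ker (aug base)

lemma mem_augIdeal_iff {p : MvPolynomial ι 𝒪} : p ∈ augIdeal base ↔ aug base p = 0 :=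
  Iff.rfl

lemma aug_surjective : Function.Surjective (aug base) := by
  intro y
  obtain ⟨a, rfl⟩ := IsLocalRing.residue_surjective y
  refine ⟨C a, ?_⟩
  simp [aug, IsLocalRing.ResidueField.algebraMap_eq]

instance augIdeal_isMaximal : (augIdeal base).IsMaximal :=
  RingHom.ker_isMaximal_of_surjective _ (aug_surjective base)

lemma augIdeal_ne_top : augIdeal base ≠ ⊤ := (augIdeal_isMaximal base).ne_top

lemma one_notMem_augIdeal : (1 : MvPolynomial ι 𝒪) ∉ augIdeal base := fun h =>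
  augIdeal_ne_top base ((Ideal.eq_top_iff_one _).mpr h)

/-- the tautological family over `Λ ⧸ J`. -/
noncomputable def taut (J : Ideal (MvPolynomial ι 𝒪)) : ι → MvPolynomial ι 𝒪 ⧸ J :=
  fun i => Ideal.Quotient.mk J (X i)

variable {base}

/-- `J` is admissible of level `n` if `M₀ ^ n ≤ J ≤ M₀`. -/
def Adm (base : ι → 𝒪) (n : ℕ) (J : Ideal (MvPolynomial ι 𝒪)) : Prop :=
  J ≤ augIdeal base ∧ augIdeal base ^ n ≤ J

lemma Adm.nontrivial {n : ℕ} {J : Ideal (MvPolynomial ι 𝒪)} (h : Adm base n J) :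
    Nontrivial (MvPolynomial ι 𝒪 ⧸ J) :=
  Ideal.Quotient.nontrivial_iff.mpr fun htop => augIdeal_ne_top base (top_le_iff.mp (htop ▸ h.1))

lemma Adm.isUnit_mk {n : ℕ} {J : Ideal (MvPolynomial ι 𝒪)} (h : Adm base n J)
    {p : MvPolynomial ι 𝒪} (hp : p ∉ augIdeal base) : IsUnit (Ideal.Quotient.mk J p) := by
  obtain ⟨q, m, hm, hqm⟩ := Ideal.IsMaximal.exists_inv (augIdeal_isMaximal base) hp
  -- q * p + m = 1 with m ∈ M₀
  have hnil : IsNilpotent (Ideal.Quotient.mk J m) := by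
    refine ⟨n, ?_⟩
    rw [← map_pow]
    exact Ideal.Quotient.eq_zero_iff_mem.mpr (h.2 (Ideal.pow_mem_pow hm n))
  have h1 : Ideal.Quotient.mk J q * Ideal.Quotient.mk J p = 1 - Ideal.Quotient.mk J m := by
    rw [← map_mul, ← map_one (Ideal.Quotient.mk J), ← map_sub]
    congr 1
    rw [← hqm]; ring
  have hu : IsUnit (Ideal.Quotient.mk J q * Ideal.Quotient.mk J p) := by
    rw [h1]
    exact hnil.isUnit_one_sub
  exact isUnit_of_mul_isUnit_right hu

lemma Adm.isNilpotent_mk {n : ℕ} {J : Ideal (MvPolynomial ι 𝒪)} (h : Adm base n J)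
    {p : MvPolynomial ι 𝒪} (hp : p ∈ augIdeal base) : IsNilpotent (Ideal.Quotient.mk J p) := by
  refine ⟨n, ?_⟩
  rw [← map_pow]
  exact Ideal.Quotient.eq_zero_iff_mem.mpr (h.2 (Ideal.pow_mem_pow hp n))

lemma Adm.isLocalRing {n : ℕ} {J : Ideal (MvPolynomial ι 𝒪)} (h : Adm base n J) :
    IsLocalRing (MvPolynomial ι 𝒪 ⧸ J) := by
  have := h.nontrivial
  refine IsLocalRing.of_isUnit_or_isUnit_one_sub_self fun a => ?_
  obtain ⟨p, rfl⟩ := Ideal.Quotient.mk_surjective a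
  by_cases hp : p ∈ augIdeal base
  · right
    rw [← map_one (Ideal.Quotient.mk J), ← map_sub]
    refine h.isUnit_mk fun h1 => one_notMem_augIdeal base ?_
    have := (augIdeal base).add_mem h1 hp
    simpa using this
  · exact Or.inl (h.isUnit_mk hp)

lemma Adm.isUnit_mk_iff {n : ℕ} {J : Ideal (MvPolynomial ι 𝒪)} (h : Adm base n J)
    {p : MvPolynomial ι 𝒪} : IsUnit (Ideal.Quotient.mk J p) ↔ p ∉ augIdeal base := by
  refine ⟨fun hu hp => ?_, h.isUnit_mk⟩
  have := h.nontrivial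
  exact (h.isNilpotent_mk hp).not_isUnit hu

lemma Adm.mk_mem_maximalIdeal_iff {n : ℕ} {J : Ideal (MvPolynomial ι 𝒪)} (h : Adm base n J)
    [IsLocalRing (MvPolynomial ι 𝒪 ⧸ J)] {p : MvPolynomial ι 𝒪} :
    Ideal.Quotient.mk J p ∈ maximalIdeal (MvPolynomial ι 𝒪 ⧸ J) ↔ p ∈ augIdeal base := by
  rw [mem_maximalIdeal, mem_nonunits_iff, h.isUnit_mk_iff, not_not]

lemma Adm.maximalIdeal_eq {n : ℕ} {J : Ideal (MvPolynomial ι 𝒪)} (h : Adm base n J)
    [IsLocalRing (MvPolynomial ι 𝒪 ⧸ J)] :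
    maximalIdeal (MvPolynomial ι 𝒪 ⧸ J) = (augIdeal base).map (Ideal.Quotient.mk J) := by
  ext a
  obtain ⟨p, rfl⟩ := Ideal.Quotient.mk_surjective a
  rw [h.mk_mem_maximalIdeal_iff]
  constructor
  · exact fun hp => Ideal.mem_map_of_mem _ hp
  · intro hp
    rw [Ideal.mem_map_iff_of_surjective _ Ideal.Quotient.mk_surjective] at hp
    obtain ⟨q, hq, hqp⟩ := hp
    have : p - q ∈ J := by
      rw [← Ideal.Quotient.eq_zero_iff_mem, map_sub, hqp, sub_self]
    have h2 : p = q + (p - q) := by ring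
    rw [h2]
    exact (augIdeal base).add_mem hq (h.1 this)

lemma Adm.maximalIdeal_pow {n : ℕ} {J : Ideal (MvPolynomial ι 𝒪)} (h : Adm base n J)
    [IsLocalRing (MvPolynomial ι 𝒪 ⧸ J)] :
    maximalIdeal (MvPolynomial ι 𝒪 ⧸ J) ^ n = ⊥ := by
  rw [h.maximalIdeal_eq, ← Ideal.map_pow, Ideal.map_eq_bot_iff_le_ker, Ideal.mk_ker]
  exact h.2

lemma Adm.isLocalHom_algebraMap {n : ℕ} {J : Ideal (MvPolynomial ι 𝒪)} (h : Adm base n J) :
    IsLocalHom (algebraMap 𝒪 (MvPolynomial ι 𝒪 ⧸ J)) := by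
  refine ⟨fun a ha => ?_⟩
  have h1 : algebraMap 𝒪 (MvPolynomial ι 𝒪 ⧸ J) a = Ideal.Quotient.mk J (C a) := rfl
  rw [h1, h.isUnit_mk_iff, mem_augIdeal_iff] at ha
  have h2 : aug base (C a) = IsLocalRing.residue 𝒪 a := by
    simp [aug, IsLocalRing.ResidueField.algebraMap_eq]
  rw [h2] at ha
  by_contra hu
  exact ha ((IsLocalRing.residue_eq_zero_iff a).mpr hu)

lemma Adm.residue_surjective {n : ℕ} {J : Ideal (MvPolynomial ι 𝒪)} (h : Adm base n J)
    [IsLocalRing (MvPolynomial ι 𝒪 ⧸ J)] :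
    Function.Surjective (IsLocalRing.residue (MvPolynomial ι 𝒪 ⧸ J) ∘
      algebraMap 𝒪 (MvPolynomial ι 𝒪 ⧸ J)) := by
  intro y
  obtain ⟨a, rfl⟩ := IsLocalRing.residue_surjective y
  obtain ⟨p, rfl⟩ := Ideal.Quotient.mk_surjective a
  obtain ⟨c, hc⟩ := IsLocalRing.residue_surjective (aug base p)
  refine ⟨c, ?_⟩
  simp only [Function.comp_apply]
  rw [← sub_eq_zero, ← map_sub, IsLocalRing.residue_eq_zero_iff]
  have h1 : algebraMap 𝒪 (MvPolynomial ι 𝒪 ⧸ J) c = Ideal.Quotient.mk J (C c) := rfl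
  rw [h1, ← map_sub, h.mk_mem_maximalIdeal_iff, mem_augIdeal_iff, map_sub]
  have h2 : aug base (C c) = IsLocalRing.residue 𝒪 c := by
    simp [aug, IsLocalRing.ResidueField.algebraMap_eq]
  rw [h2, hc, sub_self]

lemma Adm.isArtinianTestAlgebra {n : ℕ} {J : Ideal (MvPolynomial ι 𝒪)} (h : Adm base n J)
    [IsLocalRing (MvPolynomial ι 𝒪 ⧸ J)] [Finite (MvPolynomial ι 𝒪 ⧸ J)] :
    IsArtinianTestAlgebra 𝒪 (MvPolynomial ι 𝒪 ⧸ J) where
  isLocalHom := h.isLocalHom_algebraMap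
  residue_surjective := h.residue_surjective
  isArtinian := inferInstance

lemma Adm.isLocalHom_factor {n n' : ℕ} {J J' : Ideal (MvPolynomial ι 𝒪)} (h : Adm base n J)
    (h' : Adm base n' J') (hle : J ≤ J') :
    IsLocalHom ((Ideal.Quotient.factorₐ 𝒪 hle : _ →ₐ[𝒪] _) :
      (MvPolynomial ι 𝒪 ⧸ J) →+* (MvPolynomial ι 𝒪 ⧸ J')) := by
  refine ⟨fun a ha => ?_⟩
  obtain ⟨p, rfl⟩ := Ideal.Quotient.mk_surjective a
  have h1 : ((Ideal.Quotient.factorₐ 𝒪 hle : _ →ₐ[𝒪] _) :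
      (MvPolynomial ι 𝒪 ⧸ J) →+* (MvPolynomial ι 𝒪 ⧸ J')) (Ideal.Quotient.mk J p)
        = Ideal.Quotient.mk J' p := rfl
  rw [h1, h'.isUnit_mk_iff] at ha
  exact h.isUnit_mk ha

lemma Adm.mono {n m : ℕ} {J : Ideal (MvPolynomial ι 𝒪)} (h : Adm base n J) (hnm : n ≤ m) :
    Adm base m J :=
  ⟨h.1, (Ideal.pow_le_pow_right hnm).trans h.2⟩

lemma Adm.inf {n : ℕ} {J₁ J₂ : Ideal (MvPolynomial ι 𝒪)} (h₁ : Adm base n J₁)
    (h₂ : Adm base n J₂) : Adm base n (J₁ ⊓ J₂) :=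
  ⟨inf_le_left.trans h₁.1, le_inf h₁.2 h₂.2⟩

lemma Adm.sup {n : ℕ} {J₁ J₂ : Ideal (MvPolynomial ι 𝒪)} (h₁ : Adm base n J₁)
    (h₂ : Adm base n J₂) : Adm base n (J₁ ⊔ J₂) :=
  ⟨sup_le h₁.1 h₂.1, h₁.2.trans le_sup_left⟩

lemma Adm.sup_pow {m n : ℕ} {J : Ideal (MvPolynomial ι 𝒪)} (h : Adm base m J) (hn : n ≠ 0) :
    Adm base n (J ⊔ augIdeal base ^ n) :=
  ⟨sup_le h.1 (Ideal.pow_le_self hn), le_sup_right⟩

end Basic

section Good

variable {𝒪 : Type} [CommRing 𝒪] [IsLocalRing 𝒪] {ι : Type}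
  (NL : PointPred 𝒪 ι) (base : ι → 𝒪)

/-- `J` is a good ideal of level `n`: `Λ ⧸ J` is a finite local ring whose maximal ideal has
vanishing `n`-th power and over which the tautological family satisfies `NL`. -/
def Good (n : ℕ) (J : Ideal (MvPolynomial ι 𝒪)) : Prop :=
  Adm base n J ∧ Finite (MvPolynomial ι 𝒪 ⧸ J) ∧
    ∀ h : IsLocalRing (MvPolynomial ι 𝒪 ⧸ J), @NL (MvPolynomial ι 𝒪 ⧸ J) _ h _ (taut J)

variable {NL base}

lemma Good.adm {n : ℕ} {J : Ideal (MvPolynomial ι 𝒪)} (h : Good NL base n J) : Adm base n J := h.1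

lemma Good.finite {n : ℕ} {J : Ideal (MvPolynomial ι 𝒪)} (h : Good NL base n J) :
    Finite (MvPolynomial ι 𝒪 ⧸ J) := h.2.1

lemma Good.nl {n : ℕ} {J : Ideal (MvPolynomial ι 𝒪)} (h : Good NL base n J)
    [hl : IsLocalRing (MvPolynomial ι 𝒪 ⧸ J)] : NL (taut J) := h.2.2 hl

lemma Good.mono {n m : ℕ} {J : Ideal (MvPolynomial ι 𝒪)} (h : Good NL base n J) (hnm : n ≤ m) :
    Good NL base m J := ⟨h.1.mono hnm, h.2⟩

/-- For a family reducing to the base point, `aeval x p` is a non-unit iff `p` lies in the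
augmentation ideal. -/
lemma aeval_mem_maximalIdeal_iff {A : Type} [CommRing A] [IsLocalRing A] [Algebra 𝒪 A]
    [IsLocalHom (algebraMap 𝒪 A)] {x : ι → A}
    (hx : ∀ i, x i - algebraMap 𝒪 A (base i) ∈ maximalIdeal A) (p : MvPolynomial ι 𝒪) :
    aeval x p ∈ maximalIdeal A ↔ p ∈ augIdeal base := by
  have key : (IsLocalRing.residue A).comp (aeval x : MvPolynomial ι 𝒪 →ₐ[𝒪] A).toRingHom =
      (IsLocalRing.ResidueField.map (algebraMap 𝒪 A)).comp (aug base).toRingHom := by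
    refine MvPolynomial.ringHom_ext (fun a => ?_) (fun i => ?_)
    · simp [aug, IsLocalRing.ResidueField.algebraMap_eq]
    · simp only [RingHom.coe_comp, Function.comp_apply, AlgHom.toRingHom_eq_coe,
        RingHom.coe_coe, aeval_X, aug]
      rw [IsLocalRing.ResidueField.map_residue, ← sub_eq_zero, ← map_sub,
        IsLocalRing.residue_eq_zero_iff]
      exact hx i
  have key2 : IsLocalRing.residue A (aeval x p) =
      IsLocalRing.ResidueField.map (algebraMap 𝒪 A) (aug base p) := RingHom.congr_fun key p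
  rw [← IsLocalRing.residue_eq_zero_iff, key2, mem_augIdeal_iff]
  exact map_eq_zero_iff _ (RingHom.injective _)

theorem Good.of_pair (hNL : IsLevelFunctor NL base) {A : Type} [CommRing A] [IsLocalRing A]
    [Algebra 𝒪 A] (hA : IsArtinianTestAlgebra 𝒪 A) [Finite A] {n : ℕ}
    (hn : maximalIdeal A ^ n = ⊥) {x : ι → A} (hx : NL x) :
    Good NL base n (RingHom.ker (aeval x : MvPolynomial ι 𝒪 →ₐ[𝒪] A)) := by
  have := hA.isLocalHom
  have hres := hNL.residue hA hx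
  have hmem := aeval_mem_maximalIdeal_iff (base := base) hres
  have hadm : Adm base n (RingHom.ker (aeval x : MvPolynomial ι 𝒪 →ₐ[𝒪] A)) := by
    constructor
    · intro p hp
      rw [RingHom.mem_ker] at hp
      rw [← hmem, show (aeval x) p = 0 from hp]
      exact zero_mem _
    · have h1 : (augIdeal base).map (aeval x : MvPolynomial ι 𝒪 →ₐ[𝒪] A) ≤ maximalIdeal A := by
        rw [Ideal.map_le_iff_le_comap]
        intro p hp
        exact (hmem p).mpr hp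
      have h2 : (augIdeal base ^ n).map (aeval x : MvPolynomial ι 𝒪 →ₐ[𝒪] A) ≤ ⊥ := by
        rw [Ideal.map_pow, ← hn]
        exact Ideal.pow_right_mono h1 n
      rw [le_bot_iff, Ideal.map_eq_bot_iff_le_ker] at h2
      exact h2
  have hinj : Function.Injective (Ideal.kerLiftAlg (aeval x : MvPolynomial ι 𝒪 →ₐ[𝒪] A)) :=
    Ideal.kerLiftAlg_injective _
  have hfin : Finite (MvPolynomial ι 𝒪 ⧸ RingHom.ker (aeval x : MvPolynomial ι 𝒪 →ₐ[𝒪] A)) :=
    Finite.of_injective _ hinj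
  refine ⟨hadm, hfin, fun hl => ?_⟩
  have hloc : IsLocalHom ((Ideal.kerLiftAlg (aeval x : MvPolynomial ι 𝒪 →ₐ[𝒪] A) : _ →ₐ[𝒪] A) :
      (MvPolynomial ι 𝒪 ⧸ RingHom.ker (aeval x : MvPolynomial ι 𝒪 →ₐ[𝒪] A)) →+* A) := by
    refine ⟨fun a ha => ?_⟩
    obtain ⟨p, rfl⟩ := Ideal.Quotient.mk_surjective a
    have h1 : (Ideal.kerLiftAlg (aeval x : MvPolynomial ι 𝒪 →ₐ[𝒪] A))
        (Ideal.Quotient.mk _ p) = aeval x p := rfl
    change IsUnit ((Ideal.kerLiftAlg (aeval x : MvPolynomial ι 𝒪 →ₐ[𝒪] A))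
        (Ideal.Quotient.mk _ p)) at ha
    rw [h1] at ha
    refine hadm.isUnit_mk fun hp => ?_
    exact ((hmem p).mpr hp) ha
  refine hNL.of_injective hadm.isArtinianTestAlgebra hA
    (Ideal.kerLiftAlg (aeval x : MvPolynomial ι 𝒪 →ₐ[𝒪] A)) hloc hinj ?_
  have h2 : (fun i => (Ideal.kerLiftAlg (aeval x : MvPolynomial ι 𝒪 →ₐ[𝒪] A))
      (taut (RingHom.ker (aeval x : MvPolynomial ι 𝒪 →ₐ[𝒪] A)) i)) = x := by
    funext i
    simp [taut]
  rw [h2]
  exact hx

/-- Goodness passes to admissible quotients. -/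
theorem Good.of_le (hNL : IsLevelFunctor NL base) {m n : ℕ} {J J' : Ideal (MvPolynomial ι 𝒪)}
    (h : Good NL base m J) (hle : J ≤ J') (h' : Adm base n J') : Good NL base n J' := by
  have := h.finite
  have hfin : Finite (MvPolynomial ι 𝒪 ⧸ J') :=
    Finite.of_surjective _ (Ideal.Quotient.factor_surjective hle)
  refine ⟨h', hfin, fun hl => ?_⟩
  have := h.adm.isLocalRing
  exact hNL.map h.adm.isArtinianTestAlgebra h'.isArtinianTestAlgebra
    (Ideal.Quotient.factorₐ 𝒪 hle) (h.adm.isLocalHom_factor h' hle) h.nl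

theorem Good.sup_pow (hNL : IsLevelFunctor NL base) {m n : ℕ} {J : Ideal (MvPolynomial ι 𝒪)}
    (h : Good NL base m J) (hn : n ≠ 0) : Good NL base n (J ⊔ augIdeal base ^ n) :=
  h.of_le hNL le_sup_left (h.adm.sup_pow hn)

omit [IsLocalRing 𝒪] in
lemma factor_pair_injective (J₁ J₂ : Ideal (MvPolynomial ι 𝒪)) :
    Function.Injective (fun x : MvPolynomial ι 𝒪 ⧸ (J₁ ⊓ J₂) =>
      ((Ideal.Quotient.factorₐ 𝒪 (inf_le_left : J₁ ⊓ J₂ ≤ J₁)) x,
        (Ideal.Quotient.factorₐ 𝒪 (inf_le_right : J₁ ⊓ J₂ ≤ J₂)) x)) := by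
  intro a b hab
  obtain ⟨p, rfl⟩ := Ideal.Quotient.mk_surjective a
  obtain ⟨q, rfl⟩ := Ideal.Quotient.mk_surjective b
  simp only [Prod.mk.injEq] at hab
  obtain ⟨h1, h2⟩ := hab
  have h1' : Ideal.Quotient.mk J₁ p = Ideal.Quotient.mk J₁ q := h1
  have h2' : Ideal.Quotient.mk J₂ p = Ideal.Quotient.mk J₂ q := h2
  rw [Ideal.Quotient.eq] at h1' h2' ⊢
  exact ⟨h1', h2'⟩

/-- Good ideals are closed under binary intersections (fibre products). -/
theorem Good.inf (hNL : IsLevelFunctor NL base) {n : ℕ} {J₁ J₂ : Ideal (MvPolynomial ι 𝒪)}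
    (h₁ : Good NL base n J₁) (h₂ : Good NL base n J₂) : Good NL base n (J₁ ⊓ J₂) := by
  have hadm := h₁.adm.inf h₂.adm
  have hadmC := h₁.adm.sup h₂.adm
  have := h₁.finite
  have := h₂.finite
  have hinj := factor_pair_injective J₁ J₂
  have hfinP : Finite (MvPolynomial ι 𝒪 ⧸ (J₁ ⊓ J₂)) := Finite.of_injective _ hinj
  have hfinC : Finite (MvPolynomial ι 𝒪 ⧸ (J₁ ⊔ J₂)) :=
    Finite.of_surjective _ (Ideal.Quotient.factor_surjective (le_sup_left : J₁ ≤ J₁ ⊔ J₂))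
  refine ⟨hadm, hfinP, fun hl => ?_⟩
  have := h₁.adm.isLocalRing
  have := h₂.adm.isLocalRing
  have := hadmC.isLocalRing
  refine hNL.of_fibreProduct h₁.adm.isArtinianTestAlgebra h₂.adm.isArtinianTestAlgebra
    hadmC.isArtinianTestAlgebra hadm.isArtinianTestAlgebra
    (Ideal.Quotient.factorₐ 𝒪 (le_sup_left : J₁ ≤ J₁ ⊔ J₂))
    (Ideal.Quotient.factorₐ 𝒪 (le_sup_right : J₂ ≤ J₁ ⊔ J₂))
    (Ideal.Quotient.factorₐ 𝒪 (inf_le_left : J₁ ⊓ J₂ ≤ J₁))
    (Ideal.Quotient.factorₐ 𝒪 (inf_le_right : J₁ ⊓ J₂ ≤ J₂))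
    (hadm.isLocalHom_factor h₁.adm _) (hadm.isLocalHom_factor h₂.adm _) ?_ hinj ?_ h₁.nl h₂.nl
  · apply AlgHom.ext
    intro a
    obtain ⟨p, rfl⟩ := Ideal.Quotient.mk_surjective a
    rfl
  · intro a b hab
    obtain ⟨p, rfl⟩ := Ideal.Quotient.mk_surjective a
    obtain ⟨q, rfl⟩ := Ideal.Quotient.mk_surjective b
    have hab' : Ideal.Quotient.mk (J₁ ⊔ J₂) p = Ideal.Quotient.mk (J₁ ⊔ J₂) q := hab
    rw [Ideal.Quotient.eq, Submodule.mem_sup] at hab'
    obtain ⟨j₁, hj₁, j₂, hj₂, hj⟩ := hab'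
    refine ⟨Ideal.Quotient.mk _ (p - j₁), ?_, ?_⟩
    · change Ideal.Quotient.mk J₁ (p - j₁) = Ideal.Quotient.mk J₁ p
      rw [Ideal.Quotient.eq]
      simpa using J₁.neg_mem hj₁
    · change Ideal.Quotient.mk J₂ (p - j₁) = Ideal.Quotient.mk J₂ q
      rw [Ideal.Quotient.eq]
      have : p - j₁ - q = j₂ := by linear_combination -hj
      rw [this]
      exact hj₂

end Good

section Min

variable {𝒪 : Type} [CommRing 𝒪] [IsLocalRing 𝒪] [Finite (ResidueField 𝒪)] {ι : Type}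
  {NL : PointPred 𝒪 ι} {base : ι → 𝒪}

/-- Generator bound: the maximal ideal of every good quotient is generated by at most `e`
elements. (To be deduced from finiteness of the tangent space.) -/
def GenBound (NL : PointPred 𝒪 ι) (base : ι → 𝒪) (e : ℕ) : Prop :=
  ∀ (n : ℕ) (J : Ideal (MvPolynomial ι 𝒪)), Good NL base n J →
    ∃ s : Finset (MvPolynomial ι 𝒪 ⧸ J), s.card ≤ e ∧
      Ideal.span (s : Set (MvPolynomial ι 𝒪 ⧸ J)) = (augIdeal base).map (Ideal.Quotient.mk J)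

/-- the cardinality bound for good quotients of level `n`. -/
noncomputable def cardBound (𝒪 : Type) [CommRing 𝒪] [IsLocalRing 𝒪] (e n : ℕ) : ℕ :=
  Nat.card (ResidueField 𝒪) ^ ∑ i ∈ Finset.range n, e ^ i

lemma Good.card_le {e : ℕ} (hgen : GenBound NL base e) {n : ℕ}
    {J : Ideal (MvPolynomial ι 𝒪)} (h : Good NL base n J) :
    Nat.card (MvPolynomial ι 𝒪 ⧸ J) ≤ cardBound 𝒪 e n := by
  obtain ⟨s, hs, hspan⟩ := hgen n J h
  have := h.finite
  have := h.adm.isLocalRing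
  have := h.adm.isLocalHom_algebraMap
  rw [← h.adm.maximalIdeal_eq] at hspan
  have : Finite ((MvPolynomial ι 𝒪 ⧸ J) ⧸ maximalIdeal (MvPolynomial ι 𝒪 ⧸ J)) :=
    Finite.of_surjective _ Ideal.Quotient.mk_surjective
  have key := Ideal.index_pow_le s hspan n
  rw [h.adm.maximalIdeal_pow, Submodule.bot_toAddSubgroup, AddSubgroup.index_bot] at key
  have h1 : (Submodule.toAddSubgroup (maximalIdeal (MvPolynomial ι 𝒪 ⧸ J))).index
      ≤ Nat.card (ResidueField 𝒪) := by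
    change Nat.card (ResidueField (MvPolynomial ι 𝒪 ⧸ J)) ≤ _
    refine Nat.card_le_card_of_surjective
      (IsLocalRing.ResidueField.map (algebraMap 𝒪 (MvPolynomial ι 𝒪 ⧸ J))) ?_
    intro y
    obtain ⟨a, ha⟩ := h.adm.residue_surjective y
    exact ⟨IsLocalRing.residue 𝒪 a, by rw [IsLocalRing.ResidueField.map_residue]; exact ha⟩
  have hpos : 0 < Nat.card (ResidueField 𝒪) := Nat.card_pos
  refine key.trans ?_
  unfold cardBound
  calc _ ≤ Nat.card (ResidueField 𝒪) ^ ∑ i ∈ Finset.range n, s.card ^ i :=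
        Nat.pow_le_pow_left h1 _
    _ ≤ _ := Nat.pow_le_pow_right hpos
        (Finset.sum_le_sum fun i _ => Nat.pow_le_pow_left hs i)

/-- Existence of a smallest good ideal of level `n`. -/
theorem exists_min_good (hNL : IsLevelFunctor NL base) {e : ℕ} (hgen : GenBound NL base e)
    {n : ℕ} (hne : ∃ J, Good NL base n J) :
    ∃ J, Good NL base n J ∧ ∀ J', Good NL base n J' → J ≤ J' := by
  obtain ⟨J, hJ, hmin⟩ := (measure (fun J : Ideal (MvPolynomial ι 𝒪) =>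
    cardBound 𝒪 e n - Nat.card (MvPolynomial ι 𝒪 ⧸ J))).wf.has_min
      {J | Good NL base n J} hne
  refine ⟨J, hJ, fun J' hJ' => ?_⟩
  have hinf : Good NL base n (J ⊓ J') := Good.inf hNL hJ hJ'
  have h1 := hmin (J ⊓ J') hinf
  have h2 := hinf.card_le hgen
  have h3 := Good.card_le hgen hJ
  have h4 : Nat.card (MvPolynomial ι 𝒪 ⧸ (J ⊓ J')) ≤ Nat.card (MvPolynomial ι 𝒪 ⧸ J) := by
    change ¬ (cardBound 𝒪 e n - Nat.card (MvPolynomial ι 𝒪 ⧸ (J ⊓ J')) <
      cardBound 𝒪 e n - Nat.card (MvPolynomial ι 𝒪 ⧸ J)) at h1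
    omega
  have := hinf.finite
  have hbij := (Ideal.Quotient.factor_surjective
    (inf_le_left : J ⊓ J' ≤ J)).bijective_of_nat_card_le h4
  intro p hp
  have h5 : Ideal.Quotient.factor (inf_le_left : J ⊓ J' ≤ J) (Ideal.Quotient.mk _ p) =
      Ideal.Quotient.factor (inf_le_left : J ⊓ J' ≤ J) 0 := by
    rw [map_zero]
    change Ideal.Quotient.mk J p = 0
    exact Ideal.Quotient.eq_zero_iff_mem.mpr hp
  have h6 := hbij.1 h5
  rw [Ideal.Quotient.eq_zero_iff_mem] at h6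
  exact h6.2

/-- the residue field, as a test algebra. -/
lemma residueField_isArtinianTestAlgebra (𝒪 : Type) [CommRing 𝒪] [IsLocalRing 𝒪] :
    IsArtinianTestAlgebra 𝒪 (ResidueField 𝒪) where
  isLocalHom := by
    rw [IsLocalRing.ResidueField.algebraMap_eq]
    infer_instance
  residue_surjective := by
    refine Function.Surjective.comp IsLocalRing.residue_surjective ?_
    rw [IsLocalRing.ResidueField.algebraMap_eq]
    exact IsLocalRing.residue_surjective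
  isArtinian := inferInstance

/-- The hypotheses of the level construction, bundled. -/
structure LevelHyp (NL : PointPred 𝒪 ι) (base : ι → 𝒪) (e : ℕ) : Prop where
  functor : IsLevelFunctor NL base
  gen : GenBound NL base e
  basePoint : NL (fun i => IsLocalRing.residue 𝒪 (base i))

lemma aeval_residue_base_eq_aug (base : ι → 𝒪) :
    (aeval (fun i => IsLocalRing.residue 𝒪 (base i)) : MvPolynomial ι 𝒪 →ₐ[𝒪] ResidueField 𝒪)
      = aug base := rfl

theorem good_one_augIdeal {e : ℕ} (H : LevelHyp NL base e) : Good NL base 1 (augIdeal base) := by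
  have h := Good.of_pair H.functor (residueField_isArtinianTestAlgebra 𝒪) (n := 1)
    (by rw [pow_one]; exact IsLocalRing.maximalIdeal_eq_bot) H.basePoint
  exact h

theorem exists_good {e : ℕ} (H : LevelHyp NL base e) {n : ℕ} (hn : n ≠ 0) :
    ∃ J, Good NL base n J :=
  ⟨augIdeal base, (good_one_augIdeal H).mono (Nat.one_le_iff_ne_zero.mpr hn)⟩

open Classical in
/-- The level-`n` ideal: the smallest good ideal of level `n` (and `⊤` if there is none). -/
noncomputable def levelIdeal (NL : PointPred 𝒪 ι) (base : ι → 𝒪) (n : ℕ) :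
    Ideal (MvPolynomial ι 𝒪) :=
  if h : ∃ J, Good NL base n J ∧ ∀ J', Good NL base n J' → J ≤ J' then h.choose else ⊤

theorem levelIdeal_spec {e : ℕ} (H : LevelHyp NL base e) {n : ℕ} (hn : n ≠ 0) :
    Good NL base n (levelIdeal NL base n) ∧
      ∀ J', Good NL base n J' → levelIdeal NL base n ≤ J' := by
  have h := exists_min_good H.functor H.gen (exists_good H hn)
  unfold levelIdeal
  rw [dif_pos h]
  exact h.choose_spec

theorem levelIdeal_good {e : ℕ} (H : LevelHyp NL base e) {n : ℕ} (hn : n ≠ 0) :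
    Good NL base n (levelIdeal NL base n) := (levelIdeal_spec H hn).1

theorem levelIdeal_le {e : ℕ} (H : LevelHyp NL base e) {n : ℕ} (hn : n ≠ 0)
    {J : Ideal (MvPolynomial ι 𝒪)} (hJ : Good NL base n J) : levelIdeal NL base n ≤ J :=
  (levelIdeal_spec H hn).2 J hJ

theorem levelIdeal_antitone {e : ℕ} (H : LevelHyp NL base e) {n m : ℕ} (hn : n ≠ 0)
    (hnm : n ≤ m) : levelIdeal NL base m ≤ levelIdeal NL base n :=
  levelIdeal_le H (fun h => hn (by omega)) ((levelIdeal_good H hn).mono hnm)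

theorem levelIdeal_sup_pow {e : ℕ} (H : LevelHyp NL base e) {n m : ℕ} (hn : n ≠ 0)
    (hnm : n ≤ m) : levelIdeal NL base m ⊔ augIdeal base ^ n = levelIdeal NL base n := by
  have hm : m ≠ 0 := fun h => hn (by omega)
  apply le_antisymm
  · exact sup_le (levelIdeal_antitone H hn hnm) (levelIdeal_good H hn).adm.2
  · exact levelIdeal_le H hn ((levelIdeal_good H hm).sup_pow H.functor hn)

/-- The universal property of the level-`n` ideal. -/
theorem levelIdeal_le_ker {e : ℕ} (H : LevelHyp NL base e) {n : ℕ} (hn : n ≠ 0)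
    {A : Type} [CommRing A] [IsLocalRing A] [Algebra 𝒪 A] (hA : IsArtinianTestAlgebra 𝒪 A)
    [Finite A] (hpow : maximalIdeal A ^ n = ⊥) {x : ι → A} (hx : NL x) :
    levelIdeal NL base n ≤ RingHom.ker (aeval x : MvPolynomial ι 𝒪 →ₐ[𝒪] A) :=
  levelIdeal_le H hn (Good.of_pair H.functor hA hpow hx)

end Min

end Fermat.Agent.S53.Lvl
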