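import Mathlib
import Fermat.Agent.S53.Level
import Fermat.Agent.S53.FilteredCompletion

/-!
# S53: from the level ideals to the universal ring (abstract form)

Owner: helper15.  Bridge between `Fermat.Agent.S53.Level` (minimal good ideals `levelIdeal n`
of `Λ = MvPolynomial ι 𝒪` for an abstract point predicate `NL`) and
`Fermat.Agent.S53.FilteredCompletion` (completion of `Λ` along a chain of ideals).

Main result: `exists_universal_of_levelHyp`.
-/

set_option autoImplicit false
set_option linter.unusedSectionVars false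
set_option linter.style.haveILetI false
set_option linter.unusedVariables false

namespace Fermat.Agent.S53.LvlC

open IsLocalRing GaloisRep MvPolynomial Fermat.Agent.S53.Lvl Fermat.Agent.S53.PSC

section TestAlg

variable {𝒪 : Type} [CommRing 𝒪] [IsLocalRing 𝒪]
  {A : Type} [CommRing A] [IsLocalRing A] [Algebra 𝒪 A]

/-- The maximal ideal of an Artinian test algebra is nilpotent. -/
theorem testAlg_pow_eq_bot (hA : IsArtinianTestAlgebra 𝒪 A) :
    ∃ n, n ≠ 0 ∧ maximalIdeal A ^ n = ⊥ := by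
  haveI := hA.isArtinian
  obtain ⟨n, hn⟩ := IsArtinianRing.isNilpotent_jacobson_bot (R := A)
  rw [IsLocalRing.jacobson_eq_maximalIdeal _ bot_ne_top, Ideal.zero_eq_bot] at hn
  refine ⟨n + 1, Nat.succ_ne_zero n, ?_⟩
  rw [pow_succ, hn, Ideal.bot_mul]

/-- An Artinian test algebra over a local ring with finite residue field is finite. -/
theorem testAlg_finite [Finite (ResidueField 𝒪)] (hA : IsArtinianTestAlgebra 𝒪 A) :
    Finite A := by
  haveI := hA.isArtinian
  haveI := hA.isLocalHom
  haveI : Finite (ResidueField A) := by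
    refine Finite.of_surjective (IsLocalRing.ResidueField.map (algebraMap 𝒪 A)) ?_
    intro y
    obtain ⟨a, ha⟩ := hA.residue_surjective y
    exact ⟨IsLocalRing.residue 𝒪 a, by rw [IsLocalRing.ResidueField.map_residue]; exact ha⟩
  obtain ⟨n, -, hn⟩ := testAlg_pow_eq_bot hA
  have : Finite (A ⧸ (⊥ : Ideal A)) := IsLocalRing.finite_quotient_iff.2 ⟨n, hn.le⟩
  exact Finite.of_equiv _ (RingEquiv.quotientBot A).toEquiv

/-- An `𝒪`-algebra map from a local `𝒪`-algebra to an Artinian test algebra kills a power of the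
maximal ideal. -/
theorem testAlg_map_pow_eq_bot {R : Type} [CommRing R] [IsLocalRing R] [Algebra 𝒪 R]
    (hA : IsArtinianTestAlgebra 𝒪 A) (q : R →ₐ[𝒪] A) {n : ℕ} (hn : maximalIdeal A ^ n = ⊥)
    {x : R} (hx : x ∈ maximalIdeal R ^ n) : q x = 0 := by
  have h1 := algHom_map_maximalIdeal_le hA.residue_surjective q
  have h2 : (q : R →+* A) x ∈ (maximalIdeal R ^ n).map (q : R →+* A) :=
    Ideal.mem_map_of_mem _ hx
  rw [Ideal.map_pow] at h2
  have h3 := Ideal.pow_right_mono h1 n h2
  rw [hn] at h3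
  exact h3

theorem testAlg_isLocalHom {R : Type} [CommRing R] [IsLocalRing R] [Algebra 𝒪 R]
    (hA : IsArtinianTestAlgebra 𝒪 A) (q : R →ₐ[𝒪] A) : IsLocalHom (q : R →+* A) :=
  ((IsLocalRing.local_hom_TFAE (q : R →+* A)).out 0 2).2
    (algHom_map_maximalIdeal_le hA.residue_surjective q)

end TestAlg

section Bridge

variable {𝒪 : Type} [CommRing 𝒪] [IsLocalRing 𝒪] [Finite (ResidueField 𝒪)] {ι : Type}
  {NL : PointPred 𝒪 ι} {base : ι → 𝒪} {e : ℕ}

theorem levelIdeal_zero : levelIdeal NL base 0 = ⊤ := by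
  unfold levelIdeal
  rw [dif_neg]
  rintro ⟨J, hJ, -⟩
  have h := hJ.adm
  apply augIdeal_ne_top base
  rw [eq_top_iff]
  refine le_trans ?_ h.1
  have := h.2
  rwa [pow_zero, Ideal.one_eq_top] at this

theorem pow_le_levelIdeal (H : LevelHyp NL base e) (n : ℕ) :
    augIdeal base ^ n ≤ levelIdeal NL base n := by
  rcases Nat.eq_zero_or_pos n with rfl | hn
  · rw [levelIdeal_zero]; exact le_top
  · exact (levelIdeal_good H hn.ne').adm.2

theorem levelIdeal_one_le (H : LevelHyp NL base e) : levelIdeal NL base 1 ≤ augIdeal base :=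
  (levelIdeal_good H one_ne_zero).adm.1

theorem levelIdeal_one (H : LevelHyp NL base e) : levelIdeal NL base 1 = augIdeal base :=
  le_antisymm (levelIdeal_one_le H) (by simpa using pow_le_levelIdeal H 1)

theorem levelIdeal_succ_sup (H : LevelHyp NL base e) (n : ℕ) :
    levelIdeal NL base n = levelIdeal NL base (n + 1) ⊔ augIdeal base ^ n := by
  rcases Nat.eq_zero_or_pos n with rfl | hn
  · rw [levelIdeal_zero, pow_zero, Ideal.one_eq_top, sup_top_eq]
  · exact (levelIdeal_sup_pow H hn.ne' n.le_succ).symm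

omit [Finite (ResidueField 𝒪)] in
theorem map_maximalIdeal_le_augIdeal :
    (maximalIdeal 𝒪).map (algebraMap 𝒪 (MvPolynomial ι 𝒪)) ≤ augIdeal base := by
  rw [Ideal.map_le_iff_le_comap]
  intro c hc
  rw [Ideal.mem_comap, mem_augIdeal_iff, AlgHom.commutes,
    IsLocalRing.ResidueField.algebraMap_eq, IsLocalRing.residue_eq_zero_iff]
  exact hc

omit [Finite (ResidueField 𝒪)] in
theorem exists_sub_mem_augIdeal (x : MvPolynomial ι 𝒪) :
    ∃ c : 𝒪, x - algebraMap 𝒪 (MvPolynomial ι 𝒪) c ∈ augIdeal base := by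
  obtain ⟨c, hc⟩ := IsLocalRing.residue_surjective (aug base x)
  refine ⟨c, ?_⟩
  rw [mem_augIdeal_iff, map_sub, AlgHom.commutes, IsLocalRing.ResidueField.algebraMap_eq, hc,
    sub_self]

omit [Finite (ResidueField 𝒪)] in
theorem X_sub_C_mem_augIdeal (i : ι) :
    (X i - C (base i) : MvPolynomial ι 𝒪) ∈ augIdeal base := by
  rw [mem_augIdeal_iff, map_sub]
  simp [aug, IsLocalRing.ResidueField.algebraMap_eq]

theorem exists_gens (H : LevelHyp NL base e) :
    ∃ (d : ℕ) (lam : Fin d → MvPolynomial ι 𝒪), (∀ i, lam i ∈ augIdeal base) ∧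
      augIdeal base ≤ Ideal.span (Set.range lam) ⊔
        (maximalIdeal 𝒪).map (algebraMap 𝒪 (MvPolynomial ι 𝒪)) ⊔ levelIdeal NL base 2 := by
  obtain ⟨s, -, hspan⟩ := H.gen 2 _ (levelIdeal_good H two_ne_zero)
  have hpre : ∀ a : s, ∃ p ∈ augIdeal base,
      Ideal.Quotient.mk (levelIdeal NL base 2) p = a := by
    intro a
    have : (a : _ ⧸ levelIdeal NL base 2) ∈
        (augIdeal base).map (Ideal.Quotient.mk (levelIdeal NL base 2)) := by
      rw [← hspan]; exact Ideal.subset_span a.2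
    rwa [Ideal.mem_map_iff_of_surjective _ Ideal.Quotient.mk_surjective] at this
  choose f hf1 hf2 using hpre
  refine ⟨s.card, fun i => f (s.equivFin.symm i), fun i => hf1 _, ?_⟩
  intro p hp
  have h1 : Ideal.Quotient.mk (levelIdeal NL base 2) p ∈
      Ideal.span (s : Set (_ ⧸ levelIdeal NL base 2)) := by
    rw [hspan]; exact Ideal.mem_map_of_mem _ hp
  have h2 : Ideal.span (s : Set (_ ⧸ levelIdeal NL base 2)) ≤
      (Ideal.span (Set.range fun i => f (s.equivFin.symm i))).map
        (Ideal.Quotient.mk (levelIdeal NL base 2)) := by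
    rw [Ideal.span_le]
    intro a ha
    have := hf2 ⟨a, ha⟩
    rw [SetLike.mem_coe]
    rw [show a = Ideal.Quotient.mk (levelIdeal NL base 2) (f ⟨a, ha⟩) from this.symm]
    refine Ideal.mem_map_of_mem _ (Ideal.subset_span ⟨s.equivFin ⟨a, ha⟩, by simp⟩)
  have h3 := h2 h1
  rw [Ideal.mem_map_iff_of_surjective _ Ideal.Quotient.mk_surjective] at h3
  obtain ⟨q, hq, hqp⟩ := h3
  have h4 : p - q ∈ levelIdeal NL base 2 := by
    rw [← Ideal.Quotient.eq_zero_iff_mem, map_sub, hqp, sub_self]
  have : p = q + (p - q) := by ring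
  rw [this]
  exact Ideal.add_mem _ (Ideal.mem_sup_left (Ideal.mem_sup_left hq)) (Ideal.mem_sup_right h4)

/-- The completion along the level ideals, with the map from `Λ`. -/
theorem exists_completion_of_levelHyp [IsNoetherianRing 𝒪] [IsAdicComplete (maximalIdeal 𝒪) 𝒪]
    (H : LevelHyp NL base e) :
    ∃ (R : Type) (_ : CommRing R) (_ : IsLocalRing R) (_ : IsNoetherianRing R)
      (_ : IsAdicComplete (maximalIdeal R) R) (_ : Algebra 𝒪 R)
      (_ : IsLocalHom (algebraMap 𝒪 R)) (ιR : MvPolynomial ι 𝒪 →ₐ[𝒪] R),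
      Function.Surjective (IsLocalRing.residue R ∘ algebraMap 𝒪 R) ∧
      (∀ n, (maximalIdeal R ^ n).comap (ιR : MvPolynomial ι 𝒪 →+* R) = levelIdeal NL base n) ∧
      (∀ n (x : R), ∃ l : MvPolynomial ι 𝒪, x - ιR l ∈ maximalIdeal R ^ n) := by
  obtain ⟨d, lam, hlam, hgen⟩ := exists_gens H
  exact exists_completion_of_chain (fun n => levelIdeal NL base n) (augIdeal base) lam
    (augIdeal_ne_top base) map_maximalIdeal_le_augIdeal exists_sub_mem_augIdeal
    (pow_le_levelIdeal H) (levelIdeal_one_le H) (levelIdeal_succ_sup H) hlam hgen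

/-- **The universal ring of an abstract level functor.**
Given `LevelHyp NL base e` over a complete noetherian local ring `𝒪` with finite residue field,
there are a complete noetherian local `𝒪`-algebra `R` and a family `u : ι → R` which is
universal for `NL`-families over Artinian test algebras:
* (T) every specialisation of `u` to a test algebra satisfies `NL`;
* (E) every `NL`-family over a test algebra is a specialisation of `u`;
* (G) `𝒪`-algebra maps from `R` to test algebras are determined by the image of `u`. -/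
theorem exists_universal_of_levelHyp [IsNoetherianRing 𝒪] [IsAdicComplete (maximalIdeal 𝒪) 𝒪]
    (H : LevelHyp NL base e) :
    ∃ (R : Type) (_ : CommRing R) (_ : IsLocalRing R) (_ : IsNoetherianRing R)
      (_ : IsAdicComplete (maximalIdeal R) R) (_ : Algebra 𝒪 R)
      (_ : IsLocalHom (algebraMap 𝒪 R)) (u : ι → R),
      Function.Surjective (IsLocalRing.residue R ∘ algebraMap 𝒪 R) ∧
      (∀ i, u i - algebraMap 𝒪 R (base i) ∈ maximalIdeal R) ∧
      (∀ n (x : R), ∃ l : MvPolynomial ι 𝒪, x - aeval u l ∈ maximalIdeal R ^ n) ∧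
      (∀ n, (maximalIdeal R ^ n).comap
        ((aeval u : MvPolynomial ι 𝒪 →ₐ[𝒪] R) : MvPolynomial ι 𝒪 →+* R) =
          levelIdeal NL base n) ∧
      (∀ ⦃B : Type⦄ [CommRing B] [IsLocalRing B] [Algebra 𝒪 B], IsArtinianTestAlgebra 𝒪 B →
        ∀ q : R →ₐ[𝒪] B, NL (fun i => q (u i))) ∧
      (∀ ⦃A : Type⦄ [CommRing A] [IsLocalRing A] [Algebra 𝒪 A], IsArtinianTestAlgebra 𝒪 A →
        ∀ x : ι → A, NL x → ∃ φ : R →ₐ[𝒪] A, ∀ i, φ (u i) = x i) ∧
      (∀ ⦃A : Type⦄ [CommRing A] [IsLocalRing A] [Algebra 𝒪 A], IsArtinianTestAlgebra 𝒪 A →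
        ∀ φ φ' : R →ₐ[𝒪] A, (∀ i, φ (u i) = φ' (u i)) → φ = φ') := by
  obtain ⟨R, _, _, _, _, _, _, ιR, hres, hcomap, hdense⟩ := exists_completion_of_levelHyp H
  have hι : ιR = aeval (fun i => ιR (X i)) := by
    apply MvPolynomial.algHom_ext
    intro i
    rw [aeval_X]
  refine ⟨R, inferInstance, inferInstance, inferInstance, inferInstance, inferInstance,
    inferInstance, fun i => ιR (X i), hres, ?_, ?_, ?_, ?_, ?_, ?_⟩
  · -- residue
    intro i
    have h1 : (X i - C (base i) : MvPolynomial ι 𝒪) ∈ levelIdeal NL base 1 := by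
      rw [levelIdeal_one H]; exact X_sub_C_mem_augIdeal i
    rw [← hcomap 1, Ideal.mem_comap, pow_one] at h1
    have h2 : (ιR : MvPolynomial ι 𝒪 →+* R) (X i - C (base i)) =
        ιR (X i) - algebraMap 𝒪 R (base i) := by
      change ιR (X i - C (base i)) = _
      rw [map_sub]
      congr 1
      exact ιR.commutes (base i)
    rwa [h2] at h1
  · -- density
    intro n x
    rw [← hι]
    exact hdense n x
  · -- comap
    intro n
    rw [← hι]
    exact hcomap n
  · -- (T)
    intro B _ _ _ hB q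
    obtain ⟨n, hn0, hn⟩ := testAlg_pow_eq_bot hB
    have hgood := levelIdeal_good H hn0
    haveI := hgood.adm.isLocalRing
    haveI := hgood.finite
    have hA := hgood.adm.isArtinianTestAlgebra
    have hker : ∀ a : MvPolynomial ι 𝒪, a ∈ levelIdeal NL base n → (q.comp ιR) a = 0 := by
      intro a ha
      rw [← hcomap n, Ideal.mem_comap] at ha
      exact testAlg_map_pow_eq_bot hB q hn ha
    let φ : (MvPolynomial ι 𝒪 ⧸ levelIdeal NL base n) →ₐ[𝒪] B :=
      Ideal.Quotient.liftₐ (levelIdeal NL base n) (q.comp ιR) hker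
    have hφ := H.functor.map hA hB φ (testAlg_isLocalHom hB φ) hgood.nl
    have e1 : (fun i => φ (taut (levelIdeal NL base n) i)) = fun i => q (ιR (X i)) := by
      funext i
      rfl
    rw [e1] at hφ
    exact hφ
  · -- (E)
    intro A _ _ _ hA x hx
    haveI := testAlg_finite hA
    obtain ⟨n, hn0, hn⟩ := testAlg_pow_eq_bot hA
    have hle := levelIdeal_le_ker H hn0 hA hn hx
    let ψ : MvPolynomial ι 𝒪 →ₐ[𝒪] R ⧸ maximalIdeal R ^ n :=
      (Ideal.Quotient.mkₐ 𝒪 (maximalIdeal R ^ n)).comp ιR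
    have hψsurj : Function.Surjective ψ := by
      intro y
      obtain ⟨r, rfl⟩ := Ideal.Quotient.mk_surjective y
      obtain ⟨l, hl⟩ := hdense n r
      refine ⟨l, ?_⟩
      change Ideal.Quotient.mk (maximalIdeal R ^ n) (ιR l) = Ideal.Quotient.mk _ r
      rw [Ideal.Quotient.eq]
      have := (maximalIdeal R ^ n).neg_mem hl
      simpa using this
    have hψker : RingHom.ker ψ.toRingHom ≤
        RingHom.ker (aeval x : MvPolynomial ι 𝒪 →ₐ[𝒪] A).toRingHom := by
      intro a ha
      have ha' : Ideal.Quotient.mk (maximalIdeal R ^ n) (ιR a) = 0 := ha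
      rw [Ideal.Quotient.eq_zero_iff_mem] at ha'
      have h2 : a ∈ levelIdeal NL base n := by
        rw [← hcomap n, Ideal.mem_comap]; exact ha'
      exact hle h2
    refine ⟨(AlgHom.liftOfSurjective ψ hψsurj (aeval x) hψker).comp
      (Ideal.Quotient.mkₐ 𝒪 (maximalIdeal R ^ n)), fun i => ?_⟩
    have h3 := AlgHom.liftOfSurjective_apply ψ hψsurj (aeval x) hψker (X i)
    rw [aeval_X] at h3
    exact h3
  · -- (G)
    intro A _ _ _ hA φ φ' h
    obtain ⟨n, hn0, hn⟩ := testAlg_pow_eq_bot hA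
    have h1 : φ.comp ιR = φ'.comp ιR := by
      apply MvPolynomial.algHom_ext
      intro i
      exact h i
    ext r
    obtain ⟨l, hl⟩ := hdense n r
    have e1 := testAlg_map_pow_eq_bot hA φ hn hl
    have e2 := testAlg_map_pow_eq_bot hA φ' hn hl
    rw [map_sub, sub_eq_zero] at e1 e2
    rw [e1, e2]
    exact DFunLike.congr_fun h1 l

end Bridge

end Fermat.Agent.S53.LvlC
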