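import Mathlib
import Fermat.Prelude.Def_GaloisRep_DeformationCondition

/-!
# S53 / WP6: tangent homomorphisms `A → k[ε]`

`𝒪` a local ring with residue field `k`, `A` a local `𝒪`-algebra with local structure map and
`𝒪 → A → k_A` surjective.  Every `k_A`-linear functional `l` on the cotangent space
`𝔪_A / 𝔪_A²` which kills the image of `𝔪_𝒪` gives an `𝒪`-algebra homomorphism
`tangentHom l : A → k[ε]` (for the `𝒪`-algebra structure on `k[ε]` used by
`GaloisRep.TangentFinite`), and `l ↦ tangentHom l` is injective.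
-/

set_option autoImplicit false

namespace Fermat.Agent.S53.Tangent

open IsLocalRing TrivSqZeroExt

/-- The `𝒪`-algebra structure on `k[ε]` used in `GaloisRep.TangentFinite`
(syntactically the same term). -/
@[reducible] noncomputable def dualNumberAlgebra (𝒪 : Type) [CommRing 𝒪] [IsLocalRing 𝒪] :
    Algebra 𝒪 (DualNumber (ResidueField 𝒪)) :=
  ((algebraMap (ResidueField 𝒪) (DualNumber (ResidueField 𝒪))).comp
      (algebraMap 𝒪 (ResidueField 𝒪))).toAlgebra

theorem dualNumberAlgebra_algebraMap_apply (𝒪 : Type) [CommRing 𝒪] [IsLocalRing 𝒪] (o : 𝒪) :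
    (letI := dualNumberAlgebra 𝒪; algebraMap 𝒪 (DualNumber (ResidueField 𝒪)) o) =
      inl (residue 𝒪 o) := rfl

section

variable {𝒪 A : Type} [CommRing 𝒪] [IsLocalRing 𝒪] [CommRing A] [IsLocalRing A] [Algebra 𝒪 A]
  [IsLocalHom (algebraMap 𝒪 A)]

/-- `algebraMap o ∈ 𝔪_A ↔ o ∈ 𝔪_𝒪` for a local structure map. -/
theorem algebraMap_mem_maximalIdeal_iff (o : 𝒪) :
    algebraMap 𝒪 A o ∈ maximalIdeal A ↔ o ∈ maximalIdeal 𝒪 := by
  rw [mem_maximalIdeal, mem_maximalIdeal, mem_nonunits_iff, mem_nonunits_iff, not_iff_not]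
  exact ⟨fun h => isUnit_of_map_unit (algebraMap 𝒪 A) o h, fun h => h.map _⟩

variable (hsurj : Function.Surjective (residue A ∘ algebraMap 𝒪 A))

include hsurj in
theorem residueFieldMap_bijective :
    Function.Bijective (ResidueField.map (algebraMap 𝒪 A)) := by
  refine ⟨(ResidueField.map (algebraMap 𝒪 A)).injective, fun y => ?_⟩
  obtain ⟨o, ho⟩ := hsurj y
  exact ⟨residue 𝒪 o, by rw [ResidueField.map_residue]; exact ho⟩

/-- The identification `k = k_A`. -/
noncomputable def resEquiv : ResidueField 𝒪 ≃+* ResidueField A :=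
  RingEquiv.ofBijective (ResidueField.map (algebraMap 𝒪 A)) (residueFieldMap_bijective hsurj)

@[simp] theorem resEquiv_residue (o : 𝒪) :
    resEquiv hsurj (residue 𝒪 o) = residue A (algebraMap 𝒪 A o) := by
  show ResidueField.map (algebraMap 𝒪 A) (residue 𝒪 o) = _
  rw [ResidueField.map_residue]

@[simp] theorem resEquiv_symm_residue_algebraMap (o : 𝒪) :
    (resEquiv hsurj).symm (residue A (algebraMap 𝒪 A o)) = residue 𝒪 o := by
  rw [← resEquiv_residue hsurj, RingEquiv.symm_apply_apply]

/-- The residue map of `A` with values in `k = ResidueField 𝒪`. -/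
noncomputable def resO : A →+* ResidueField 𝒪 :=
  ((resEquiv hsurj).symm : ResidueField A →+* ResidueField 𝒪).comp (residue A)

theorem resO_apply (a : A) : resO hsurj a = (resEquiv hsurj).symm (residue A a) := rfl

@[simp] theorem resO_algebraMap (o : 𝒪) : resO hsurj (algebraMap 𝒪 A o) = residue 𝒪 o := by
  rw [resO_apply, resEquiv_symm_residue_algebraMap]

theorem resO_eq_zero_iff (a : A) : resO hsurj a = 0 ↔ a ∈ maximalIdeal A := by
  rw [resO_apply, RingEquiv.map_eq_zero_iff, residue_eq_zero_iff]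

theorem resEquiv_resO (a : A) : resEquiv hsurj (resO hsurj a) = residue A a := by
  rw [resO_apply, RingEquiv.apply_symm_apply]

omit [IsLocalRing 𝒪] [IsLocalHom (algebraMap 𝒪 A)] in
include hsurj in
theorem exists_sub_algebraMap_mem (a : A) : ∃ o : 𝒪, a - algebraMap 𝒪 A o ∈ maximalIdeal A := by
  obtain ⟨o, ho⟩ := hsurj (residue A a)
  refine ⟨o, ?_⟩
  rw [← residue_eq_zero_iff, map_sub, sub_eq_zero]
  exact ho.symm

/-- A chosen lift to `𝒪` of the residue class of `a`. -/
noncomputable def liftO (a : A) : 𝒪 := (exists_sub_algebraMap_mem hsurj a).choose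

theorem sub_liftO_mem (a : A) : a - algebraMap 𝒪 A (liftO hsurj a) ∈ maximalIdeal A :=
  (exists_sub_algebraMap_mem hsurj a).choose_spec

theorem residue_liftO (a : A) : residue 𝒪 (liftO hsurj a) = resO hsurj a := by
  have h := sub_liftO_mem hsurj a
  rw [← resO_eq_zero_iff hsurj, map_sub, sub_eq_zero, resO_algebraMap] at h
  exact h.symm

/-- The functionals on the cotangent space of `A` that kill the image of `𝔪_𝒪`. -/
def IsRelFunctional (l : CotangentSpace A →ₗ[ResidueField A] ResidueField A) : Prop :=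
  ∀ (π : 𝒪) (hπ : π ∈ maximalIdeal 𝒪),
    l ((maximalIdeal A).toCotangent
      ⟨algebraMap 𝒪 A π, (algebraMap_mem_maximalIdeal_iff π).mpr hπ⟩) = 0

variable (l : CotangentSpace A →ₗ[ResidueField A] ResidueField A)

/-- The `ε`-component of the tangent homomorphism attached to `l`. -/
noncomputable def tangentFun (a : A) : ResidueField 𝒪 :=
  (resEquiv hsurj).symm
    (l ((maximalIdeal A).toCotangent ⟨a - algebraMap 𝒪 A (liftO hsurj a), sub_liftO_mem hsurj a⟩))

variable {l}

theorem tangentFun_eq (hl : IsRelFunctional (𝒪 := 𝒪) l) {a : A} (o : 𝒪) {m : A}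
    (hm : m ∈ maximalIdeal A) (ha : a = algebraMap 𝒪 A o + m) :
    tangentFun hsurj l a = (resEquiv hsurj).symm (l ((maximalIdeal A).toCotangent ⟨m, hm⟩)) := by
  unfold tangentFun
  congr 1
  have hmem : algebraMap 𝒪 A (o - liftO hsurj a) ∈ maximalIdeal A := by
    have h1 := sub_liftO_mem hsurj a
    have : algebraMap 𝒪 A (o - liftO hsurj a) = (a - algebraMap 𝒪 A (liftO hsurj a)) - m := by
      rw [ha, map_sub]; ring
    rw [this]
    exact Ideal.sub_mem _ h1 hm
  have hπ : o - liftO hsurj a ∈ maximalIdeal 𝒪 := (algebraMap_mem_maximalIdeal_iff _).mp hmem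
  have hsplit : (⟨a - algebraMap 𝒪 A (liftO hsurj a), sub_liftO_mem hsurj a⟩ : maximalIdeal A)
      = ⟨m, hm⟩ + ⟨algebraMap 𝒪 A (o - liftO hsurj a), hmem⟩ := by
    apply Subtype.ext
    show a - algebraMap 𝒪 A (liftO hsurj a) = m + algebraMap 𝒪 A (o - liftO hsurj a)
    rw [ha, map_sub]; ring
  rw [hsplit, map_add, map_add, hl _ hπ, add_zero]

theorem tangentFun_of_mem (hl : IsRelFunctional (𝒪 := 𝒪) l) {m : A} (hm : m ∈ maximalIdeal A) :
    tangentFun hsurj l m = (resEquiv hsurj).symm (l ((maximalIdeal A).toCotangent ⟨m, hm⟩)) :=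
  tangentFun_eq hsurj hl 0 hm (by rw [map_zero, zero_add])

theorem tangentFun_algebraMap (hl : IsRelFunctional (𝒪 := 𝒪) l) (o : 𝒪) :
    tangentFun hsurj l (algebraMap 𝒪 A o) = 0 := by
  rw [tangentFun_eq hsurj hl o (Ideal.zero_mem _) (by rw [add_zero])]
  have : (⟨0, Ideal.zero_mem _⟩ : maximalIdeal A) = 0 := rfl
  rw [this, map_zero, map_zero, map_zero]

theorem tangentFun_add (hl : IsRelFunctional (𝒪 := 𝒪) l) (a b : A) :
    tangentFun hsurj l (a + b) = tangentFun hsurj l a + tangentFun hsurj l b := by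
  have ha := sub_liftO_mem hsurj a
  have hb := sub_liftO_mem hsurj b
  rw [tangentFun_eq hsurj hl (liftO hsurj a + liftO hsurj b) (Ideal.add_mem _ ha hb)
    (by rw [map_add]; ring)]
  have : (⟨(a - algebraMap 𝒪 A (liftO hsurj a)) + (b - algebraMap 𝒪 A (liftO hsurj b)),
      Ideal.add_mem _ ha hb⟩ : maximalIdeal A) = ⟨_, ha⟩ + ⟨_, hb⟩ := rfl
  rw [this, map_add, map_add, map_add]
  rfl

theorem tangentFun_mul (hl : IsRelFunctional (𝒪 := 𝒪) l) (a b : A) :
    tangentFun hsurj l (a * b) =
      resO hsurj a * tangentFun hsurj l b + resO hsurj b * tangentFun hsurj l a := by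
  have ha := sub_liftO_mem hsurj a
  have hb := sub_liftO_mem hsurj b
  set oa := liftO hsurj a with hoa
  set ob := liftO hsurj b with hob
  set ma : maximalIdeal A := ⟨a - algebraMap 𝒪 A oa, ha⟩ with hma
  set mb : maximalIdeal A := ⟨b - algebraMap 𝒪 A ob, hb⟩ with hmb
  have hmm : (ma : A) * (mb : A) ∈ maximalIdeal A := Ideal.mul_mem_left _ _ mb.2
  set mab : maximalIdeal A := algebraMap 𝒪 A oa • mb + algebraMap 𝒪 A ob • ma + ⟨_, hmm⟩ with hmab
  have hab : a * b = algebraMap 𝒪 A (oa * ob) + (mab : A) := by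
    simp only [hmab, hma, hmb, map_mul, Submodule.coe_add, Submodule.coe_smul, smul_eq_mul]
    ring
  rw [tangentFun_eq hsurj hl (oa * ob) mab.2 hab]
  have hprod : (maximalIdeal A).toCotangent ⟨(ma : A) * (mb : A), hmm⟩ = 0 := by
    rw [Ideal.toCotangent_eq_zero, pow_two]
    exact Ideal.mul_mem_mul ma.2 mb.2
  have hta : tangentFun hsurj l a = (resEquiv hsurj).symm (l ((maximalIdeal A).toCotangent ma)) :=
    rfl
  have htb : tangentFun hsurj l b = (resEquiv hsurj).symm (l ((maximalIdeal A).toCotangent mb)) :=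
    rfl
  have hra : resO hsurj a = residue 𝒪 oa := (residue_liftO hsurj a).symm
  have hrb : resO hsurj b = residue 𝒪 ob := (residue_liftO hsurj b).symm
  have hsm : ∀ (o : 𝒪) (x : maximalIdeal A),
      l ((maximalIdeal A).toCotangent (algebraMap 𝒪 A o • x)) =
        resEquiv hsurj (residue 𝒪 o) * l ((maximalIdeal A).toCotangent x) := by
    intro o x
    rw [map_smul, resEquiv_residue]
    have : (algebraMap 𝒪 A o) • (maximalIdeal A).toCotangent x
        = (residue A (algebraMap 𝒪 A o)) • (maximalIdeal A).toCotangent x := rfl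
    rw [this, map_smul, smul_eq_mul]
  have hcoe : (⟨(mab : A), mab.2⟩ : maximalIdeal A) = mab := rfl
  have hl3 : l ((maximalIdeal A).toCotangent mab) =
      resEquiv hsurj (residue 𝒪 oa) * l ((maximalIdeal A).toCotangent mb) +
        resEquiv hsurj (residue 𝒪 ob) * l ((maximalIdeal A).toCotangent ma) := by
    rw [hmab, map_add, map_add, hprod, map_zero, add_zero, map_add, map_add, hsm, hsm]
  rw [hcoe, hl3, map_add, map_mul, map_mul,
    RingEquiv.symm_apply_apply, RingEquiv.symm_apply_apply, hta, htb, hra, hrb]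

/-- The tangent homomorphism attached to a relative functional `l`, as a ring homomorphism. -/
noncomputable def tangentRingHom (hl : IsRelFunctional (𝒪 := 𝒪) l) :
    A →+* DualNumber (ResidueField 𝒪) where
  toFun a := inl (resO hsurj a) + inr (tangentFun hsurj l a)
  map_one' := by
    have := tangentFun_algebraMap hsurj hl 1
    rw [map_one] at this
    rw [this, map_one, inr_zero, add_zero, inl_one]
  map_mul' a b := by
    rw [tangentFun_mul hsurj hl, map_mul]
    refine TrivSqZeroExt.ext ?_ ?_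
    · simp
    · simp [mul_comm]
  map_zero' := by
    have := tangentFun_algebraMap hsurj hl 0
    rw [map_zero] at this
    rw [this, map_zero, inr_zero, add_zero, inl_zero]
  map_add' a b := by
    rw [tangentFun_add hsurj hl, map_add, inl_add, inr_add]
    abel

theorem tangentRingHom_apply (hl : IsRelFunctional (𝒪 := 𝒪) l) (a : A) :
    tangentRingHom hsurj hl a = inl (resO hsurj a) + inr (tangentFun hsurj l a) := rfl

/-- The tangent homomorphism attached to a relative functional `l`. -/
noncomputable def tangentHom (hl : IsRelFunctional (𝒪 := 𝒪) l) :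
    letI := dualNumberAlgebra 𝒪
    A →ₐ[𝒪] DualNumber (ResidueField 𝒪) :=
  letI := dualNumberAlgebra 𝒪
  { tangentRingHom hsurj hl with
    commutes' := fun o => by
      show tangentRingHom hsurj hl (algebraMap 𝒪 A o) = inl (residue 𝒪 o)
      rw [tangentRingHom_apply, resO_algebraMap, tangentFun_algebraMap hsurj hl, inr_zero,
        add_zero] }

theorem tangentHom_apply (hl : IsRelFunctional (𝒪 := 𝒪) l) (a : A) :
    (letI := dualNumberAlgebra 𝒪; tangentHom hsurj hl a) =
      inl (resO hsurj a) + inr (tangentFun hsurj l a) := rfl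

theorem fst_tangentHom_apply (hl : IsRelFunctional (𝒪 := 𝒪) l) (a : A) :
    (letI := dualNumberAlgebra 𝒪; (tangentHom hsurj hl a).fst) = resO hsurj a := by
  rw [tangentHom_apply]; simp

theorem snd_tangentHom_apply (hl : IsRelFunctional (𝒪 := 𝒪) l) (a : A) :
    (letI := dualNumberAlgebra 𝒪; (tangentHom hsurj hl a).snd) = tangentFun hsurj l a := by
  rw [tangentHom_apply]; simp

theorem tangentHom_injective {l l' : CotangentSpace A →ₗ[ResidueField A] ResidueField A}
    (hl : IsRelFunctional (𝒪 := 𝒪) l) (hl' : IsRelFunctional (𝒪 := 𝒪) l')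
    (h : (letI := dualNumberAlgebra 𝒪; tangentHom hsurj hl) =
      (letI := dualNumberAlgebra 𝒪; tangentHom hsurj hl')) : l = l' := by
  refine LinearMap.ext fun x => ?_
  obtain ⟨m, rfl⟩ := (maximalIdeal A).toCotangent_surjective x
  have h1 : tangentFun hsurj l (m : A) = tangentFun hsurj l' (m : A) := by
    rw [← snd_tangentHom_apply hsurj hl, ← snd_tangentHom_apply hsurj hl', h]
  rw [tangentFun_of_mem hsurj hl m.2, tangentFun_of_mem hsurj hl' m.2] at h1
  exact (resEquiv hsurj).symm.injective h1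

/-- The span in the cotangent space of the image of `𝔪_𝒪`. -/
noncomputable def relSpan (𝒪 A : Type) [CommRing 𝒪] [IsLocalRing 𝒪] [CommRing A] [IsLocalRing A] [Algebra 𝒪 A]
    [IsLocalHom (algebraMap 𝒪 A)] : Submodule (ResidueField A) (CotangentSpace A) :=
  Submodule.span (ResidueField A)
    {c | ∃ (π : 𝒪) (hπ : π ∈ maximalIdeal 𝒪), c = (maximalIdeal A).toCotangent
      ⟨algebraMap 𝒪 A π, (algebraMap_mem_maximalIdeal_iff π).mpr hπ⟩}

theorem isRelFunctional_of_vanish {l : CotangentSpace A →ₗ[ResidueField A] ResidueField A}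
    (h : ∀ c ∈ relSpan 𝒪 A, l c = 0) : IsRelFunctional (𝒪 := 𝒪) l :=
  fun π hπ => h _ (Submodule.subset_span ⟨π, hπ, rfl⟩)

/-- The tangent homomorphism attached to a functional on the relative cotangent space
`(𝔪_A/𝔪_A²) / span(𝔪_𝒪)`. -/
noncomputable def tangentHomQuot
    (f : Module.Dual (ResidueField A) (CotangentSpace A ⧸ relSpan 𝒪 A)) :
    letI := dualNumberAlgebra 𝒪
    A →ₐ[𝒪] DualNumber (ResidueField 𝒪) :=
  tangentHom hsurj (l := f.comp (relSpan 𝒪 A).mkQ)
    (isRelFunctional_of_vanish fun c hc => by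
      rw [LinearMap.comp_apply, Submodule.mkQ_apply, (Submodule.Quotient.mk_eq_zero _).mpr hc,
        map_zero])

theorem tangentHomQuot_injective :
    Function.Injective (tangentHomQuot (𝒪 := 𝒪) (A := A) hsurj) := by
  intro f g h
  have := tangentHom_injective hsurj _ _ h
  refine LinearMap.ext fun x => ?_
  obtain ⟨c, rfl⟩ := (relSpan 𝒪 A).mkQ_surjective x
  exact LinearMap.congr_fun this c

include hsurj in
/-- **Embedding-dimension bound.** If there are at most `|k|^d` many `𝒪`-algebra homomorphisms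
`A → k[ε]`, then `𝔪_A` is generated by `d` elements together with the image of `𝔪_𝒪`. -/
theorem exists_generators_of_card_algHom_le [IsNoetherianRing A] [Finite (ResidueField 𝒪)]
    (d : ℕ)
    (hfin : letI := dualNumberAlgebra 𝒪; Finite (A →ₐ[𝒪] DualNumber (ResidueField 𝒪)))
    (hcard : letI := dualNumberAlgebra 𝒪;
      Nat.card (A →ₐ[𝒪] DualNumber (ResidueField 𝒪)) ≤ Nat.card (ResidueField 𝒪) ^ d) :
    ∃ x : Fin d → A, (∀ i, x i ∈ maximalIdeal A) ∧
      maximalIdeal A = Ideal.span (Set.range x) ⊔ (maximalIdeal 𝒪).map (algebraMap 𝒪 A) := by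
  let _ := dualNumberAlgebra 𝒪
  have : Finite (ResidueField A) := Finite.of_equiv _ (resEquiv hsurj).toEquiv
  set Q := CotangentSpace A ⧸ relSpan 𝒪 A with hQ
  set e := Module.finrank (ResidueField A) Q with he
  -- counting
  have hcardk : Nat.card (ResidueField A) = Nat.card (ResidueField 𝒪) :=
    (Nat.card_congr (resEquiv hsurj).toEquiv).symm
  have h1 : Nat.card (Module.Dual (ResidueField A) Q) = Nat.card (ResidueField 𝒪) ^ e := by
    rw [Module.natCard_eq_pow_finrank (K := ResidueField A), Subspace.dual_finrank_eq, hcardk]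
  have h2 : Nat.card (Module.Dual (ResidueField A) Q) ≤
      Nat.card (A →ₐ[𝒪] DualNumber (ResidueField 𝒪)) :=
    Nat.card_le_card_of_injective _ (tangentHomQuot_injective hsurj)
  have hk2 : 1 < Nat.card (ResidueField 𝒪) := Finite.one_lt_card
  have hed : e ≤ d := by
    by_contra hlt
    have := (Nat.pow_lt_pow_right hk2 (not_le.mp hlt))
    omega
  -- choose lifts of a basis
  let b := Module.finBasis (ResidueField A) Q
  have hlift : ∀ i : Fin e, ∃ m : maximalIdeal A,
      (relSpan 𝒪 A).mkQ ((maximalIdeal A).toCotangent m) = b i := by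
    intro i
    obtain ⟨c, hc⟩ := (relSpan 𝒪 A).mkQ_surjective (b i)
    obtain ⟨m, rfl⟩ := (maximalIdeal A).toCotangent_surjective c
    exact ⟨m, hc⟩
  choose m hm using hlift
  let x : Fin d → maximalIdeal A := fun j => if h : (j : ℕ) < e then m ⟨j, h⟩ else 0
  refine ⟨fun j => (x j : A), fun j => (x j).2, ?_⟩
  -- the generating set inside `𝔪_A`
  set s : Set (maximalIdeal A) := Set.range x ∪
    {y | ∃ (π : 𝒪) (hπ : π ∈ maximalIdeal 𝒪),
      y = ⟨algebraMap 𝒪 A π, (algebraMap_mem_maximalIdeal_iff π).mpr hπ⟩} with hs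
  have hspan : Submodule.span (ResidueField A) ((maximalIdeal A).toCotangent '' s) = ⊤ := by
    set U := Submodule.span (ResidueField A) ((maximalIdeal A).toCotangent '' s) with hU
    have hWU : relSpan 𝒪 A ≤ U := by
      refine Submodule.span_le.mpr ?_
      rintro c ⟨π, hπ, rfl⟩
      exact Submodule.subset_span ⟨_, Or.inr ⟨π, hπ, rfl⟩, rfl⟩
    have hmap : U.map (relSpan 𝒪 A).mkQ = ⊤ := by
      rw [eq_top_iff, ← b.span_eq]
      refine Submodule.span_le.mpr ?_
      rintro _ ⟨i, rfl⟩
      refine ⟨(maximalIdeal A).toCotangent (m i), ?_, hm i⟩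
      refine Submodule.subset_span ⟨m i, Or.inl ⟨⟨i, lt_of_lt_of_le i.2 hed⟩, ?_⟩, rfl⟩
      exact dif_pos i.2
    rw [Submodule.map_mkQ_eq_top, sup_eq_right.mpr hWU] at hmap
    exact hmap
  rw [CotangentSpace.span_image_eq_top_iff] at hspan
  -- transport to ideals of `A`
  have hmapsub := congrArg (Submodule.map (maximalIdeal A).subtype) hspan
  rw [Submodule.map_top, Submodule.range_subtype, Submodule.map_span] at hmapsub
  refine hmapsub.symm.trans ?_
  apply le_antisymm
  · refine Submodule.span_le.mpr ?_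
    rintro _ ⟨y, hy | ⟨π, hπ, rfl⟩, rfl⟩
    · obtain ⟨j, rfl⟩ := hy
      exact Ideal.mem_sup_left (Ideal.subset_span ⟨j, rfl⟩)
    · exact Ideal.mem_sup_right (Ideal.mem_map_of_mem _ hπ)
  · refine sup_le ?_ ?_
    · refine Ideal.span_le.mpr ?_
      rintro _ ⟨j, rfl⟩
      exact Submodule.subset_span ⟨x j, Or.inl ⟨j, rfl⟩, rfl⟩
    · rw [Ideal.map_le_iff_le_comap]
      intro π hπ
      exact Submodule.subset_span ⟨_, Or.inr ⟨π, hπ, rfl⟩, rfl⟩

omit [IsLocalHom (algebraMap 𝒪 A)] in
include hsurj in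
/-- Every `𝒪`-algebra homomorphism `A → k[ε]` is automatically local. -/
theorem isLocalHom_algHom_dualNumber
    (φ : letI := dualNumberAlgebra 𝒪; A →ₐ[𝒪] DualNumber (ResidueField 𝒪)) :
    letI := dualNumberAlgebra 𝒪
    IsLocalHom (φ : A →+* DualNumber (ResidueField 𝒪)) := by
  letI := dualNumberAlgebra 𝒪
  refine ⟨fun a ha => ?_⟩
  by_contra hnu
  have hmem : a ∈ maximalIdeal A := (mem_maximalIdeal _).mpr hnu
  obtain ⟨o, ho⟩ := exists_sub_algebraMap_mem hsurj (1 - a)
  -- `1 - a ≡ algebraMap o`, and `a ∈ 𝔪`, hence `o` is a unit with `residue o = 1`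
  have ho1 : algebraMap 𝒪 A (1 - o) ∈ maximalIdeal A := by
    have : algebraMap 𝒪 A (1 - o) = (1 - a - algebraMap 𝒪 A o) + a := by
      rw [map_sub, map_one]; ring
    rw [this]
    exact Ideal.add_mem _ ho hmem
  have ho2 : 1 - o ∈ maximalIdeal 𝒪 := by
    by_contra hno
    have hu : IsUnit (1 - o) := by
      by_contra h
      exact hno ((mem_maximalIdeal _).mpr h)
    exact ((mem_maximalIdeal _).mp ho1) (hu.map _)
  -- first components
  have hfst : ∀ x : A, x ∈ maximalIdeal A → (φ x).fst = 0 := by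
    intro x hx
    by_contra hne
    -- then `φ x` is a unit while `φ (1 - o - x)`... use nilpotency instead
    have hux : IsUnit (φ x) := by
      rcases TrivSqZeroExt.isUnit_or_isNilpotent (φ x) with h | h
      · exact h
      · exfalso
        rw [TrivSqZeroExt.isNilpotent_iff_isNilpotent_fst] at h
        exact hne (IsNilpotent.eq_zero h)
    -- `1 + c x` is a unit of `A` for all `c`, in particular `φ (1 + c x) ≠ 0`; take `c` with
    -- `φ (1 + c x)` having zero first component
    obtain ⟨c, hc⟩ := exists_sub_algebraMap_mem hsurj (0 : A)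
    obtain ⟨r, hr⟩ : ∃ r : 𝒪, residue 𝒪 r = -((φ x).fst)⁻¹ :=
      Ideal.Quotient.mk_surjective _
    have hunit : IsUnit (1 + algebraMap 𝒪 A r * x) := by
      by_contra h
      have h1 : 1 + algebraMap 𝒪 A r * x ∈ maximalIdeal A := (mem_maximalIdeal _).mpr h
      have h2 : algebraMap 𝒪 A r * x ∈ maximalIdeal A := Ideal.mul_mem_left _ _ hx
      have h3 : (1 : A) ∈ maximalIdeal A := by
        have := Ideal.sub_mem _ h1 h2
        simpa using this
      exact (Ideal.ne_top_iff_one _).mp (maximalIdeal.isMaximal A).ne_top h3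
    have himg : IsUnit (φ (1 + algebraMap 𝒪 A r * x)) := hunit.map φ
    have hfst0 : (φ (1 + algebraMap 𝒪 A r * x)).fst = 0 := by
      rw [map_add, map_one, map_mul, AlgHom.commutes]
      rw [dualNumberAlgebra_algebraMap_apply]
      simp only [TrivSqZeroExt.fst_add, TrivSqZeroExt.fst_one, TrivSqZeroExt.fst_mul,
        TrivSqZeroExt.fst_inl, hr]
      field_simp
      ring
    have hnil : IsNilpotent (φ (1 + algebraMap 𝒪 A r * x)) := by
      rw [TrivSqZeroExt.isNilpotent_iff_isNilpotent_fst, hfst0]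
      exact IsNilpotent.zero
    exact (hnil.not_isUnit) himg
  have : ¬ IsUnit (φ a) := by
    intro hu
    have h0 := hfst a hmem
    have hnil : IsNilpotent (φ a) := by
      rw [TrivSqZeroExt.isNilpotent_iff_isNilpotent_fst, h0]
      exact IsNilpotent.zero
    exact hnil.not_isUnit hu
  exact this ha

end

/-- Alias of `dualNumberAlgebra` (the instance used by `GaloisRep.TangentFinite`). -/
noncomputable abbrev tanAlgebra (O : Type) [CommRing O] [IsLocalRing O] :
    Algebra O (DualNumber (IsLocalRing.ResidueField O)) :=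
  ((algebraMap (ResidueField O) (DualNumber (ResidueField O))).comp
    (algebraMap O (ResidueField O))).toAlgebra

/-- **Packaged bound** (shape requested for P4): if `𝔪_O` is generated by `g` elements and a
finite Artinian test algebra `R` has at most `t` tangent homomorphisms `R → k[ε]`, then `𝔪_R` is
generated by `t + g` elements. -/
theorem exists_generators_of_finite_tangent {O : Type} [CommRing O] [IsLocalRing O]
    [Finite (ResidueField O)] (g : ℕ)
    (hg : ∃ s : Finset O, s.card ≤ g ∧ Ideal.span (s : Set O) = maximalIdeal O)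
    {R : Type} [CommRing R] [IsLocalRing R] [Algebra O R] [Finite R]
    (hR : GaloisRep.IsArtinianTestAlgebra O R) (t : ℕ)
    (ht : ∀ F : Finset (@AlgHom O R (DualNumber (ResidueField O)) _ _ _ _ (tanAlgebra O)),
      F.card ≤ t) :
    ∃ s : Finset R, s.card ≤ t + g ∧ Ideal.span (s : Set R) = maximalIdeal R := by
  classical
  haveI := hR.isLocalHom
  have hsurj := hR.residue_surjective
  haveI : IsArtinianRing R := hR.isArtinian
  letI := tanAlgebra O
  haveI : Finite (DualNumber (ResidueField O)) :=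
    inferInstanceAs (Finite (ResidueField O × ResidueField O))
  haveI hfin : Finite (R →ₐ[O] DualNumber (ResidueField O)) :=
    Finite.of_injective (fun f => (f : R → DualNumber (ResidueField O))) DFunLike.coe_injective
  have hcard : Nat.card (R →ₐ[O] DualNumber (ResidueField O)) ≤ Nat.card (ResidueField O) ^ t := by
    letI := Fintype.ofFinite (R →ₐ[O] DualNumber (ResidueField O))
    have h1 : Nat.card (R →ₐ[O] DualNumber (ResidueField O)) ≤ t := by
      rw [Nat.card_eq_fintype_card, ← Finset.card_univ]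
      exact ht Finset.univ
    have hk2 : 2 ≤ Nat.card (ResidueField O) := Finite.one_lt_card
    calc Nat.card (R →ₐ[O] DualNumber (ResidueField O)) ≤ t := h1
      _ ≤ 2 ^ t := (Nat.lt_two_pow_self).le
      _ ≤ Nat.card (ResidueField O) ^ t := Nat.pow_le_pow_left hk2 t
  obtain ⟨x, -, hx⟩ := exists_generators_of_card_algHom_le (𝒪 := O) (A := R) hsurj t hfin hcard
  obtain ⟨sO, hsO, hspan⟩ := hg
  refine ⟨Finset.image x Finset.univ ∪ Finset.image (algebraMap O R) sO, ?_, ?_⟩
  · calc (Finset.image x Finset.univ ∪ Finset.image (algebraMap O R) sO).card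
        ≤ (Finset.image x Finset.univ).card + (Finset.image (algebraMap O R) sO).card :=
          Finset.card_union_le _ _
      _ ≤ (Finset.univ : Finset (Fin t)).card + sO.card :=
          Nat.add_le_add Finset.card_image_le Finset.card_image_le
      _ ≤ t + g := by
          rw [Finset.card_univ, Fintype.card_fin]
          exact Nat.add_le_add_left hsO t
  · rw [hx, ← hspan, Ideal.map_span, Finset.coe_union, Ideal.span_union, Finset.coe_image,
      Finset.coe_image, Finset.coe_univ, Set.image_univ]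

section

end

end Fermat.Agent.S53.Tangent
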