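import Fermat.Agent.S53.H21_NL
import Fermat.Agent.S53.TangentHom

/-!
# S53: normalised lifts of type `𝒟` over test algebras, over `k` and over `k[ε]`

* `NLSet D 𝒟 A`: the set of (continuous) normalised lifts of type `𝒟` over `A`.
* `mapMat_mem_nlSet`, `mem_nlSet_of_mapMat_injective`, `mem_nlSet_of_fibreProduct`: stability
  under push-forward, injective descent, fibre products.
* `resMatOf_mem_nlSet`: the matrices of `ρbar` form a normalised lift over `k` of type `𝒟`.
* `finite_nlSet_dualNumber`: the set of normalised lifts of type `𝒟` over `k[ε]` is finite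
  (from `TangentFinite` and rigidity); `card_algHom_dualNumber_le`, `exists_generators_of_nl`:
  the resulting bound for the embedding dimension.
-/

set_option autoImplicit false
set_option linter.style.haveILetI false

noncomputable section

namespace Fermat.Agent.S53

open IsLocalRing Matrix Mat GaloisRep

section

variable {𝒪 : Type} [CommRing 𝒪] [IsLocalRing 𝒪]

theorem isArtinianTestAlgebra_residueField : IsArtinianTestAlgebra 𝒪 (ResidueField 𝒪) where
  isLocalHom := by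
    constructor
    intro a ha
    by_contra h
    have h1 : residue 𝒪 a = 0 := (residue_eq_zero_iff a).mpr ((mem_maximalIdeal a).mpr h)
    have h2 : algebraMap 𝒪 (ResidueField 𝒪) a = 0 := h1
    rw [h2] at ha
    exact not_isUnit_zero ha
  residue_surjective := by
    intro x
    obtain ⟨y, rfl⟩ := residue_surjective (R := ResidueField 𝒪) x
    obtain ⟨o, rfl⟩ := residue_surjective (R := 𝒪) y
    exact ⟨o, rfl⟩
  isArtinian := inferInstance

lemma dualNumber_mem_maximalIdeal_iff {k : Type} [Field k] (x : DualNumber k) :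
    x ∈ maximalIdeal (DualNumber k) ↔ x.fst = 0 := by
  rw [mem_maximalIdeal, mem_nonunits_iff, TrivSqZeroExt.isUnit_iff_isUnit_fst, isUnit_iff_ne_zero,
    not_not]

lemma dualNumber_maximalIdeal_sq {k : Type} [Field k] :
    maximalIdeal (DualNumber k) ^ 2 = ⊥ := by
  rw [eq_bot_iff, pow_two, Ideal.mul_le]
  intro x hx y hy
  rw [dualNumber_mem_maximalIdeal_iff] at hx hy
  rw [Ideal.mem_bot]
  ext
  · simp [hx]
  · simp [hx, hy]

instance dualNumber_isArtinianRing {k : Type} [Field k] : IsArtinianRing (DualNumber k) := by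
  rw [isArtinianRing_iff_isNilpotent_maximalIdeal]
  exact ⟨2, dualNumber_maximalIdeal_sq⟩

/-- `k[ε]` is an Artinian test algebra. -/
theorem isArtinianTestAlgebra_dualNumber :
    letI := Tangent.tanAlgebra 𝒪
    IsArtinianTestAlgebra 𝒪 (DualNumber (ResidueField 𝒪)) := by
  letI := Tangent.tanAlgebra 𝒪
  refine ⟨⟨fun a ha => ?_⟩, fun x => ?_, inferInstance⟩
  · have h1 : algebraMap 𝒪 (DualNumber (ResidueField 𝒪)) a = TrivSqZeroExt.inl (residue 𝒪 a) := rfl
    rw [h1, TrivSqZeroExt.isUnit_iff_isUnit_fst, TrivSqZeroExt.fst_inl] at ha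
    by_contra h
    have h2 : residue 𝒪 a = 0 := (residue_eq_zero_iff a).mpr ((mem_maximalIdeal a).mpr h)
    rw [h2] at ha
    exact not_isUnit_zero ha
  · obtain ⟨y, rfl⟩ := residue_surjective (R := DualNumber (ResidueField 𝒪)) x
    obtain ⟨o, ho⟩ := residue_surjective (R := 𝒪) y.fst
    refine ⟨o, ?_⟩
    show residue _ (algebraMap 𝒪 (DualNumber (ResidueField 𝒪)) o) = residue _ y
    rw [← sub_eq_zero, ← map_sub, residue_eq_zero_iff, dualNumber_mem_maximalIdeal_iff]
    have h1 : algebraMap 𝒪 (DualNumber (ResidueField 𝒪)) o = TrivSqZeroExt.inl (residue 𝒪 o) := rfl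
    rw [h1, TrivSqZeroExt.fst_sub, TrivSqZeroExt.fst_inl, ho, sub_self]

variable {ρbar : ResidualGaloisRep (ResidueField 𝒪)} (D : RigidData 𝒪 ρbar)
  {𝒟 : ∀ ⦃A : Type⦄ [CommRing A] [IsLocalRing A] [Algebra 𝒪 A], GaloisRepAdic A → Prop}

/-- (NL6) The matrices of `ρbar` form a normalised lift over `k`. -/
theorem nlof_resMatOf : NLof D (resMatOf ρbar D.b) := by
  have key : ∀ g i j, resMatOf ρbar D.b g i j = algebraMap 𝒪 (ResidueField 𝒪) (D.rbt g i j) := by
    intro g i j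
    rw [resMatOf_apply, ← D.rbt_spec]
    rfl
  refine ⟨fun g i j => ?_, ?_, ?_, ?_⟩
  · rw [key, sub_self]; exact Ideal.zero_mem _
  · rw [key, D.rbt_g₁_00, map_zero]
  · rw [key, D.rbt_g₁_10, map_one]
  · rw [key]

/-- The continuity proof for the matrices of `ρbar`. -/
theorem matContinuous_resMatOf : MatContinuous (resMatOf ρbar D.b) :=
  MatContinuous.of_factors (resMatOf_factors ρbar D.b)

/-- (NL6) The matrices of `ρbar` are of type `𝒟`. -/
theorem cond_resMatOf (h𝒟 : IsDeformationCondition 𝒪 𝒟)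
    (hbar : 𝒟 (GaloisRepAdic.ofResidualGaloisRep ρbar)) :
    𝒟 (ofMat (resMatOf ρbar D.b) (matContinuous_resMatOf D)) :=
  h𝒟.of_isEquiv isArtinianTestAlgebra_residueField ⟨equivOfResidualOfMat ρbar D.b⟩ hbar


/-- The set of normalised lifts of type `𝒟` over `A`. -/
def NLSet (𝒟 : ∀ ⦃A : Type⦄ [CommRing A] [IsLocalRing A] [Algebra 𝒪 A], GaloisRepAdic A → Prop)
    (A : Type) [CommRing A] [IsLocalRing A] [Algebra 𝒪 A] : Set (GQ →* Matrix (Fin 2) (Fin 2) A) :=
  {r | ∃ hr : MatContinuous r, NLof D r ∧ 𝒟 (ofMat r hr)}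

lemma finite_of_quotient_injective {X : Type*} {Y : Type*} (s : Setoid X) (h : Finite (Quotient s))
    (f : Y → X) (hf : ∀ a b, s.r (f a) (f b) → a = b) : Finite Y := by
  haveI := h
  refine Finite.of_injective (fun y => (Quotient.mk s (f y))) ?_
  intro a b hab
  exact hf a b (Quotient.exact hab)

/-- (NL5) The set of normalised lifts of type `𝒟` over `k[ε]` is finite. -/
theorem finite_nlSet_dualNumber (hfin : TangentFinite 𝒪 ρbar 𝒟) :
    letI := Tangent.tanAlgebra 𝒪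
    (NLSet D 𝒟 (DualNumber (ResidueField 𝒪))).Finite := by
  letI alg1 : Algebra 𝒪 (DualNumber (ResidueField 𝒪)) := Tangent.tanAlgebra 𝒪
  letI alg2 : Algebra (ResidueField 𝒪) (ResidueField (DualNumber (ResidueField 𝒪))) :=
    ((IsLocalRing.residue (DualNumber (ResidueField 𝒪))).comp
      (algebraMap (ResidueField 𝒪) (DualNumber (ResidueField 𝒪)))).toAlgebra
  haveI hloc : IsLocalHom (algebraMap 𝒪 (DualNumber (ResidueField 𝒪))) :=
    (isArtinianTestAlgebra_dualNumber (𝒪 := 𝒪)).isLocalHom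
  have hmap : ResidueField.map (algebraMap 𝒪 (DualNumber (ResidueField 𝒪))) =
      algebraMap (ResidueField 𝒪) (ResidueField (DualNumber (ResidueField 𝒪))) := by
    ext x
    obtain ⟨o, rfl⟩ := residue_surjective (R := 𝒪) x
    rw [ResidueField.map_residue]
    rfl
  have hres : ∀ r : NLSet D 𝒟 (DualNumber (ResidueField 𝒪)),
      (ofMat r.1 r.2.choose).residual.IsEquiv
        (ρbar.baseChange (ResidueField (DualNumber (ResidueField 𝒪)))) := by
    intro r
    refine residual_ofMat_isEquiv_baseChange ρbar D.b r.1 r.2.choose ?_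
    rw [← hmap]
    exact (isLift_iff_residue r.1).mp r.2.choose_spec.1.1
  rw [← Set.finite_coe_iff]
  refine finite_of_quotient_injective _ hfin
    (fun r => ⟨ofMat r.1 r.2.choose, r.2.choose_spec.2, hres r⟩) ?_
  intro a b hab
  have h1 : (ofMat a.1 a.2.choose).IsEquiv (ofMat b.1 b.2.choose) := hab
  obtain ⟨P, hP⟩ := (isEquiv_ofMat_iff _ _).mp h1
  exact Subtype.ext (RigidData.eq_of_intertwine a.2.choose_spec.1.1 b.2.choose_spec.1.1
    a.2.choose_spec.1.2 b.2.choose_spec.1.2 (P : Matrix (Fin 2) (Fin 2) _) P.isUnit hP).1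


/-- The number of normalised lifts of type `𝒟` over `k[ε]`. -/
def tangentBound (𝒟 : ∀ ⦃A : Type⦄ [CommRing A] [IsLocalRing A] [Algebra 𝒪 A],
    GaloisRepAdic A → Prop) : ℕ :=
  letI := Tangent.tanAlgebra 𝒪
  (NLSet D 𝒟 (DualNumber (ResidueField 𝒪))).ncard

/-- If `r` is a normalised lift of type `𝒟` over the Artinian test algebra `R`, and `𝒪`-algebra
maps `R → k[ε]` are determined by their effect on the entries of `r`, then there are at most
`tangentBound D 𝒟` such maps. -/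
theorem card_algHom_dualNumber_le (h𝒟 : IsDeformationCondition 𝒪 𝒟)
    (hfin : TangentFinite 𝒪 ρbar 𝒟)
    {R : Type} [CommRing R] [IsLocalRing R] [Algebra 𝒪 R] (hR : IsArtinianTestAlgebra 𝒪 R)
    (r : GQ →* Matrix (Fin 2) (Fin 2) R) (hr : MatContinuous r) (hNL : NLof D r)
    (hD : 𝒟 (ofMat r hr))
    (hgen : ∀ φ ψ : @AlgHom 𝒪 R (DualNumber (ResidueField 𝒪)) _ _ _ _ (Tangent.tanAlgebra 𝒪),
      mapMat (φ : R →+* DualNumber (ResidueField 𝒪)) r =
        mapMat (ψ : R →+* DualNumber (ResidueField 𝒪)) r → φ = ψ)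
    (F : Finset (@AlgHom 𝒪 R (DualNumber (ResidueField 𝒪)) _ _ _ _ (Tangent.tanAlgebra 𝒪))) :
    F.card ≤ tangentBound D 𝒟 := by
  classical
  letI alg1 : Algebra 𝒪 (DualNumber (ResidueField 𝒪)) := Tangent.tanAlgebra 𝒪
  have hS := finite_nlSet_dualNumber D hfin
  have hloc : ∀ φ : R →ₐ[𝒪] DualNumber (ResidueField 𝒪),
      IsLocalHom (φ : R →+* DualNumber (ResidueField 𝒪)) := fun φ =>
    haveI := hR.isLocalHom
    Tangent.isLocalHom_algHom_dualNumber hR.residue_surjective φ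
  let f : (R →ₐ[𝒪] DualNumber (ResidueField 𝒪)) →
      (GQ →* Matrix (Fin 2) (Fin 2) (DualNumber (ResidueField 𝒪))) :=
    fun φ => mapMat (φ : R →+* DualNumber (ResidueField 𝒪)) r
  have hinj : Function.Injective f := fun φ ψ h => hgen φ ψ h
  have hsub : ((F.image f : Finset _) : Set (GQ →* Matrix (Fin 2) (Fin 2)
      (DualNumber (ResidueField 𝒪)))) ⊆ NLSet D 𝒟 (DualNumber (ResidueField 𝒪)) := by
    intro x hx
    rw [Finset.mem_coe, Finset.mem_image] at hx
    obtain ⟨φ, -, rfl⟩ := hx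
    exact ⟨hr.map _ (hloc φ), nlMap D φ (hloc φ) r hNL,
      cond_mapMat h𝒟 hR isArtinianTestAlgebra_dualNumber φ (hloc φ) hr hD⟩
  calc F.card = (F.image f).card := (Finset.card_image_of_injective F hinj).symm
    _ = ((F.image f : Finset _) : Set (GQ →* Matrix (Fin 2) (Fin 2)
          (DualNumber (ResidueField 𝒪)))).ncard := (Set.ncard_coe_finset _).symm
    _ ≤ (NLSet D 𝒟 (DualNumber (ResidueField 𝒪))).ncard := Set.ncard_le_ncard hsub hS

/-- Embedding dimension bound: under the hypotheses of `card_algHom_dualNumber_le`, if `R` is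
finite and `𝔪_𝒪` is generated by `g` elements, then `𝔪_R` is generated by
`tangentBound D 𝒟 + g` elements. -/
theorem exists_generators_of_nl [Finite (ResidueField 𝒪)] (h𝒟 : IsDeformationCondition 𝒪 𝒟)
    (hfin : TangentFinite 𝒪 ρbar 𝒟) (g : ℕ)
    (hg : ∃ s : Finset 𝒪, s.card ≤ g ∧ Ideal.span (s : Set 𝒪) = maximalIdeal 𝒪)
    {R : Type} [CommRing R] [IsLocalRing R] [Algebra 𝒪 R] [Finite R]
    (hR : IsArtinianTestAlgebra 𝒪 R)
    (r : GQ →* Matrix (Fin 2) (Fin 2) R) (hr : MatContinuous r) (hNL : NLof D r)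
    (hD : 𝒟 (ofMat r hr))
    (hgen : ∀ φ ψ : @AlgHom 𝒪 R (DualNumber (ResidueField 𝒪)) _ _ _ _ (Tangent.tanAlgebra 𝒪),
      mapMat (φ : R →+* DualNumber (ResidueField 𝒪)) r =
        mapMat (ψ : R →+* DualNumber (ResidueField 𝒪)) r → φ = ψ) :
    ∃ s : Finset R, s.card ≤ tangentBound D 𝒟 + g ∧ Ideal.span (s : Set R) = maximalIdeal R :=
  Tangent.exists_generators_of_finite_tangent g hg hR (tangentBound D 𝒟)
    (card_algHom_dualNumber_le D h𝒟 hfin hR r hr hNL hD hgen)


/-- (NL6) The matrices of `ρbar` form a normalised lift of type `𝒟` over `k`. -/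
theorem resMatOf_mem_nlSet (h𝒟 : IsDeformationCondition 𝒪 𝒟)
    (hbar : 𝒟 (GaloisRepAdic.ofResidualGaloisRep ρbar)) :
    resMatOf ρbar D.b ∈ NLSet D 𝒟 (ResidueField 𝒪) :=
  ⟨matContinuous_resMatOf D, nlof_resMatOf D, cond_resMatOf D h𝒟 hbar⟩

section Transport

variable {D}
variable {A : Type} [CommRing A] [IsLocalRing A] [Algebra 𝒪 A]
  {B : Type} [CommRing B] [IsLocalRing B] [Algebra 𝒪 B]

lemma mem_nlSet_iff (r : GQ →* Matrix (Fin 2) (Fin 2) A) :
    r ∈ NLSet D 𝒟 A ↔ ∃ hr : MatContinuous r, NLof D r ∧ 𝒟 (ofMat r hr) := Iff.rfl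

/-- (NL1) normalised lifts of type `𝒟` are stable under push-forward. -/
theorem mapMat_mem_nlSet (h𝒟 : IsDeformationCondition 𝒪 𝒟) (hA : IsArtinianTestAlgebra 𝒪 A)
    (hB : IsArtinianTestAlgebra 𝒪 B) (φ : A →ₐ[𝒪] B) (hφ : IsLocalHom (φ : A →+* B))
    {r : GQ →* Matrix (Fin 2) (Fin 2) A} (h : r ∈ NLSet D 𝒟 A) :
    mapMat (φ : A →+* B) r ∈ NLSet D 𝒟 B := by
  obtain ⟨hr, hNL, hD⟩ := h
  exact ⟨hr.map _ hφ, nlMap D φ hφ r hNL, cond_mapMat h𝒟 hA hB φ hφ hr hD⟩

/-- Continuity descends along injective maps out of an Artinian local ring. -/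
theorem matContinuous_of_mapMat_injective [IsArtinianRing B] (φ : A →+* B)
    (hinj : Function.Injective φ) {r : GQ →* Matrix (Fin 2) (Fin 2) A}
    (h : MatContinuous (mapMat φ r)) : MatContinuous r := by
  obtain ⟨n, hn⟩ : IsNilpotent (maximalIdeal B) := by
    rw [← IsLocalRing.jacobson_eq_maximalIdeal (⊥ : Ideal B) bot_ne_top]
    exact IsArtinianRing.isNilpotent_jacobson_bot
  rw [Ideal.zero_eq_bot] at hn
  obtain ⟨L, hL, h1⟩ := h.factors hn
  refine MatContinuous.of_factors ⟨L, hL, fun σ hσ => ?_⟩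
  have h2 := h1 σ hσ
  ext i j
  apply hinj
  have h3 := congrFun (congrFun h2 i) j
  rw [mapMat_apply] at h3
  rw [h3]
  by_cases hij : i = j
  · subst hij; simp
  · simp [hij]

/-- (NL2) normalised lifts of type `𝒟` descend along injective maps. -/
theorem mem_nlSet_of_mapMat_injective (h𝒟 : IsDeformationCondition 𝒪 𝒟)
    (hA : IsArtinianTestAlgebra 𝒪 A)
    (hB : IsArtinianTestAlgebra 𝒪 B) (φ : A →ₐ[𝒪] B) (hφ : IsLocalHom (φ : A →+* B))
    (hinj : Function.Injective φ)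
    {r : GQ →* Matrix (Fin 2) (Fin 2) A} (h : mapMat (φ : A →+* B) r ∈ NLSet D 𝒟 B) :
    r ∈ NLSet D 𝒟 A := by
  obtain ⟨hr, hNL, hD⟩ := h
  haveI := hB.isArtinian
  have hr' : MatContinuous r := matContinuous_of_mapMat_injective (φ : A →+* B) hinj hr
  refine ⟨hr', ⟨RigidData.IsLift.of_map φ ?_ hNL.1, RigidData.IsNormalized.of_map φ hinj hNL.2⟩,
    cond_of_mapMat_injective h𝒟 hA hB φ hφ hinj hr' hD⟩
  intro a ha
  rw [mem_maximalIdeal, mem_nonunits_iff] at ha ⊢
  exact fun hu => ha (hu.map φ)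

/-- Continuity descends along a jointly injective pair of maps out of a local ring into
Artinian local rings. -/
theorem matContinuous_of_mapMat_pair {P : Type} [CommRing P] [IsLocalRing P]
    [IsArtinianRing A] [IsArtinianRing B] (pA : P →+* A) (pB : P →+* B)
    (hinj : Function.Injective (fun x => (pA x, pB x)))
    {r : GQ →* Matrix (Fin 2) (Fin 2) P}
    (hA : MatContinuous (mapMat pA r)) (hB : MatContinuous (mapMat pB r)) : MatContinuous r := by
  obtain ⟨n, hn⟩ : IsNilpotent (maximalIdeal A) := by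
    rw [← IsLocalRing.jacobson_eq_maximalIdeal (⊥ : Ideal A) bot_ne_top]
    exact IsArtinianRing.isNilpotent_jacobson_bot
  obtain ⟨m, hm⟩ : IsNilpotent (maximalIdeal B) := by
    rw [← IsLocalRing.jacobson_eq_maximalIdeal (⊥ : Ideal B) bot_ne_top]
    exact IsArtinianRing.isNilpotent_jacobson_bot
  rw [Ideal.zero_eq_bot] at hn hm
  obtain ⟨L, hL, h1⟩ := hA.factors hn
  obtain ⟨L', hL', h1'⟩ := hB.factors hm
  haveI := hL
  haveI := hL'
  refine MatContinuous.of_factors ⟨L ⊔ L', inferInstance, fun σ hσ => ?_⟩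
  have h2 := h1 σ (fun x hx => hσ x ((le_sup_left : L ≤ L ⊔ L') hx))
  have h2' := h1' σ (fun x hx => hσ x ((le_sup_right : L' ≤ L ⊔ L') hx))
  ext i j
  apply hinj
  have h3 := congrFun (congrFun h2 i) j
  have h3' := congrFun (congrFun h2' i) j
  rw [mapMat_apply] at h3 h3'
  simp only [Prod.mk.injEq]
  rw [h3, h3']
  by_cases hij : i = j
  · subst hij; simp
  · simp [hij]

/-- (NL3) normalised lifts of type `𝒟` glue along fibre products. -/
theorem mem_nlSet_of_fibreProduct (h𝒟 : IsDeformationCondition 𝒪 𝒟)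
    {C P : Type} [CommRing C] [IsLocalRing C] [Algebra 𝒪 C]
    [CommRing P] [IsLocalRing P] [Algebra 𝒪 P]
    (hA : IsArtinianTestAlgebra 𝒪 A) (hB : IsArtinianTestAlgebra 𝒪 B)
    (hC : IsArtinianTestAlgebra 𝒪 C) (hP : IsArtinianTestAlgebra 𝒪 P)
    (f : A →ₐ[𝒪] C) (g : B →ₐ[𝒪] C) (pA : P →ₐ[𝒪] A) (pB : P →ₐ[𝒪] B)
    (hpA : IsLocalHom (pA : P →+* A)) (hpB : IsLocalHom (pB : P →+* B))
    (hfg : f.comp pA = g.comp pB)
    (hinj : Function.Injective (fun x => (pA x, pB x)))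
    (hex : ∀ a b, f a = g b → ∃ x, pA x = a ∧ pB x = b)
    {r : GQ →* Matrix (Fin 2) (Fin 2) P}
    (h1 : mapMat (pA : P →+* A) r ∈ NLSet D 𝒟 A)
    (h2 : mapMat (pB : P →+* B) r ∈ NLSet D 𝒟 B) : r ∈ NLSet D 𝒟 P := by
  obtain ⟨hrA, hNLA, hDA⟩ := h1
  obtain ⟨hrB, hNLB, hDB⟩ := h2
  haveI := hA.isArtinian
  haveI := hB.isArtinian
  have hr : MatContinuous r :=
    matContinuous_of_mapMat_pair (pA : P →+* A) (pB : P →+* B) hinj hrA hrB
  have hl : D.IsLift r := by
    refine RigidData.IsLift.of_map pA ?_ hNLA.1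
    intro a ha
    rw [mem_maximalIdeal, mem_nonunits_iff] at ha ⊢
    exact fun hu => ha (hu.map pA)
  have hn : D.IsNormalized r := by
    obtain ⟨a1, a2, a3⟩ := hNLA.2
    obtain ⟨b1, b2, b3⟩ := hNLB.2
    rw [mapMat_apply] at a1 a2 a3 b1 b2 b3
    refine ⟨hinj ?_, hinj ?_, hinj ?_⟩
    · simp only [Prod.mk.injEq, map_zero]
      exact ⟨a1, b1⟩
    · simp only [Prod.mk.injEq, map_one]
      exact ⟨a2, b2⟩
    · simp only [Prod.mk.injEq, AlgHom.commutes]
      exact ⟨a3, b3⟩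
  exact ⟨hr, ⟨hl, hn⟩,
    cond_of_fibreProduct h𝒟 hA hB hC hP f g pA pB hpA hpB hfg hinj hex hr hDA hDB⟩

end Transport

end
end Fermat.Agent.S53
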