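import Fermat.Agent.S53.H28_Functor
import Fermat.Agent.S53.H21_Tangent
import Fermat.Agent.S53.H15_LevelCompletion
import Fermat.Agent.S53.Assembly

/-!
# S53: final glue

* `h28_basePoint`, `h28_genBound`: the remaining hypotheses of `Lvl.LevelHyp` for the concrete
  point predicate `NLfam D 𝒟`;
* `h28_exists_universal_framed`: the universal framed normalized lift, in the shape required by
  `Asm.nonempty_deformationRingData`.
-/

set_option autoImplicit false
set_option linter.unusedSectionVars false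
set_option linter.unusedVariables false
set_option linter.style.haveILetI false

namespace Fermat.Agent.S53

open IsLocalRing GaloisRep Mat Lvl

section

variable {𝒪 : Type} [CommRing 𝒪] [IsLocalRing 𝒪] {ρbar : ResidualGaloisRep (ResidueField 𝒪)}
  {𝒟 : ∀ ⦃A : Type⦄ [CommRing A] [IsLocalRing A] [Algebra 𝒪 A], GaloisRepAdic A → Prop}

/-- The base point of the level construction. -/
theorem h28_basePoint (D : RigidData 𝒪 ρbar) (h𝒟 : IsDeformationCondition 𝒪 𝒟)
    (hbar : 𝒟 (GaloisRepAdic.ofResidualGaloisRep ρbar)) :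
    NLfam D 𝒟 (fun i => IsLocalRing.residue 𝒪 (D.base i)) := by
  refine ⟨resMatOf ρbar D.b, matContinuous_resMatOf D, ?_, nlof_resMatOf D,
    cond_resMatOf D h𝒟 hbar⟩
  intro σ i j
  rw [resMatOf_apply, ← D.rbt_spec]
  rfl

/-- The generator bound from finiteness of the tangent space. -/
theorem h28_genBound [IsNoetherianRing 𝒪] [Finite (ResidueField 𝒪)]
    (D : RigidData 𝒪 ρbar) (h𝒟 : IsDeformationCondition 𝒪 𝒟)
    (hfin : TangentFinite 𝒪 ρbar 𝒟) :
    ∃ e : ℕ, GenBound (NLfam D 𝒟) D.base e := by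
  classical
  obtain ⟨s0, hs0⟩ := (IsNoetherian.noetherian (maximalIdeal 𝒪) : (maximalIdeal 𝒪).FG)
  refine ⟨tangentBound D 𝒟 + s0.card, fun n J hJ => ?_⟩
  haveI := hJ.adm.isLocalRing
  haveI := hJ.finite
  have hR : IsArtinianTestAlgebra 𝒪 (MvPolynomial Idx 𝒪 ⧸ J) := hJ.adm.isArtinianTestAlgebra
  obtain ⟨r, hr, hrx, hNL, hD⟩ := hJ.nl
  have hgen : ∀ φ ψ : @AlgHom 𝒪 (MvPolynomial Idx 𝒪 ⧸ J) (DualNumber (ResidueField 𝒪)) _ _ _ _
      (Tangent.tanAlgebra 𝒪),
      mapMat (φ : (MvPolynomial Idx 𝒪 ⧸ J) →+* DualNumber (ResidueField 𝒪)) r =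
        mapMat (ψ : (MvPolynomial Idx 𝒪 ⧸ J) →+* DualNumber (ResidueField 𝒪)) r → φ = ψ := by
    letI := Tangent.tanAlgebra 𝒪
    intro φ ψ h
    have h1 : φ.comp (Ideal.Quotient.mkₐ 𝒪 J) = ψ.comp (Ideal.Quotient.mkₐ 𝒪 J) := by
      apply MvPolynomial.algHom_ext
      rintro ⟨σ, i, j⟩
      have h2 := congrArg (fun f => f σ i j) h
      simp only [mapMat_apply, hrx] at h2
      exact h2
    refine DFunLike.ext _ _ fun y => ?_
    obtain ⟨p, rfl⟩ := Ideal.Quotient.mk_surjective y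
    exact DFunLike.congr_fun h1 p
  obtain ⟨s, hs, hspan⟩ := exists_generators_of_nl D h𝒟 hfin s0.card ⟨s0, le_rfl, hs0⟩ hR r hr
    hNL hD hgen
  exact ⟨s, hs, by rw [hspan, hJ.adm.maximalIdeal_eq]⟩

/-- The hypotheses of the level construction hold for the concrete point predicate. -/
theorem h28_levelHyp [IsNoetherianRing 𝒪] [Finite (ResidueField 𝒪)]
    (D : RigidData 𝒪 ρbar) (h𝒟 : IsDeformationCondition 𝒪 𝒟)
    (hbar : 𝒟 (GaloisRepAdic.ofResidualGaloisRep ρbar))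
    (hfin : TangentFinite 𝒪 ρbar 𝒟) :
    ∃ e : ℕ, LevelHyp (NLfam D 𝒟) D.base e := by
  obtain ⟨e, he⟩ := h28_genBound D h𝒟 hfin
  exact ⟨e, levelFunctor_NLfam D h𝒟, he, h28_basePoint D h𝒟 hbar⟩

/-- Hausdorff property, in terms of the quotients by `𝔪 ^ (n + 1)`. -/
lemma h28_eq_of_forall_mk_succ_eq {R : Type} [CommRing R] [IsLocalRing R]
    [IsHausdorff (maximalIdeal R) R] {x y : R}
    (h : ∀ n : ℕ, Ideal.Quotient.mk (maximalIdeal R ^ (n + 1)) x =
      Ideal.Quotient.mk (maximalIdeal R ^ (n + 1)) y) : x = y := by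
  apply Asm.eq_of_forall_mk_eq
  intro n
  have := h n
  rw [Ideal.Quotient.eq] at this ⊢
  exact Ideal.pow_le_pow_right (Nat.le_succ n) this

/-- The universal framed normalized lift. -/
theorem h28_exists_universal_framed [IsNoetherianRing 𝒪] [IsAdicComplete (maximalIdeal 𝒪) 𝒪]
    [Finite (ResidueField 𝒪)]
    (D : RigidData 𝒪 ρbar) (h𝒟 : IsDeformationCondition 𝒪 𝒟) {e : ℕ}
    (H : LevelHyp (NLfam D 𝒟) D.base e) :
    ∃ (R : Type) (_ : CommRing R) (_ : IsLocalRing R) (_ : IsNoetherianRing R)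
      (_ : IsAdicComplete (maximalIdeal R) R) (_ : Algebra 𝒪 R)
      (_ : IsLocalHom (algebraMap 𝒪 R)) (r : GQ →* Matrix (Fin 2) (Fin 2) R)
      (hr : MatContinuous r),
      Function.Surjective (residue R ∘ algebraMap 𝒪 R) ∧ NLof D r ∧
        Asm.UnivType r hr 𝒟 ∧ Asm.UnivExists (NLof D) r 𝒟 ∧ Asm.UnivGen (𝒪 := 𝒪) r := by
  obtain ⟨R, _, _, _, _, _, _, u, hres, hures, hdense, hcomap, hT, hE, hG⟩ :=
    LvlC.exists_universal_of_levelHyp H
  -- the finite levels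
  have hlev : ∀ n : ℕ,
      (∀ i j, Ideal.Quotient.mk (maximalIdeal R ^ (n + 1)) (u (1, i, j)) =
        Ideal.Quotient.mk (maximalIdeal R ^ (n + 1)) ((1 : Matrix (Fin 2) (Fin 2) R) i j)) ∧
      (∀ σ τ i j, Ideal.Quotient.mk (maximalIdeal R ^ (n + 1)) (u (σ * τ, i, j)) =
        Ideal.Quotient.mk (maximalIdeal R ^ (n + 1)) (∑ k, u (σ, i, k) * u (τ, k, j))) ∧
      (∃ L : IntermediateField ℚ (AlgebraicClosure ℚ), FiniteDimensional ℚ L ∧
        ∀ σ : GQ, (∀ x ∈ L, σ x = x) → ∀ i j,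
          (u (σ, i, j) - (1 : Matrix (Fin 2) (Fin 2) R) i j) ∈ maximalIdeal R ^ (n + 1)) ∧
      Ideal.Quotient.mk (maximalIdeal R ^ (n + 1)) (u (D.g₁, 0, 0)) = 0 ∧
      Ideal.Quotient.mk (maximalIdeal R ^ (n + 1)) (u (D.g₁, 1, 0)) = 1 ∧
      Ideal.Quotient.mk (maximalIdeal R ^ (n + 1)) (u (D.g₂, 1, 0)) =
        Ideal.Quotient.mk (maximalIdeal R ^ (n + 1)) (algebraMap 𝒪 R (D.rbt D.g₂ 1 0)) := by
    intro n
    haveI := Asm.quotPow_isLocalRing R n
    have hB : IsArtinianTestAlgebra 𝒪 (R ⧸ maximalIdeal R ^ (n + 1)) :=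
      Asm.quotPow_isArtinianTestAlgebra hres n
    obtain ⟨rn, hrn, hrnx, hNLn, hDn⟩ := hT hB (Ideal.Quotient.mkₐ 𝒪 (maximalIdeal R ^ (n + 1)))
    have hmk : ∀ σ i j, Ideal.Quotient.mk (maximalIdeal R ^ (n + 1)) (u (σ, i, j)) = rn σ i j :=
      fun σ i j => (hrnx σ i j).symm
    refine ⟨?_, ?_, ?_, ?_, ?_, ?_⟩
    · intro i j
      rw [hmk, map_one]
      exact (map_one_entry (Ideal.Quotient.mk (maximalIdeal R ^ (n + 1))) i j).symm
    · intro σ τ i j
      rw [hmk, map_mul, Matrix.mul_apply, map_sum]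
      refine Finset.sum_congr rfl fun k _ => ?_
      rw [map_mul, hmk, hmk]
    · obtain ⟨L, hL, hfac⟩ := hrn.factors (Asm.quotPow_maximalIdeal_pow R n)
      refine ⟨L, hL, fun σ hσ i j => ?_⟩
      rw [← Ideal.Quotient.eq, hmk, hfac σ hσ]
      exact (map_one_entry (Ideal.Quotient.mk (maximalIdeal R ^ (n + 1))) i j).symm
    · rw [hmk]
      exact hNLn.2.1
    · rw [hmk]
      exact hNLn.2.2.1
    · rw [hmk, hNLn.2.2.2]
      rfl
  -- the universal representation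
  have h1 : ∀ i j, u (1, i, j) = (1 : Matrix (Fin 2) (Fin 2) R) i j := by
    intro i j
    apply h28_eq_of_forall_mk_succ_eq
    intro n
    exact (hlev n).1 i j
  have hmul : ∀ σ τ i j, u (σ * τ, i, j) = ∑ k, u (σ, i, k) * u (τ, k, j) := by
    intro σ τ i j
    apply h28_eq_of_forall_mk_succ_eq
    intro n
    exact (hlev n).2.1 σ τ i j
  set r : GQ →* Matrix (Fin 2) (Fin 2) R := monoidHomOfEntries u h1 hmul with hrdef
  have hru : ∀ σ i j, r σ i j = u (σ, i, j) := fun _ _ _ => rfl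
  have hr : MatContinuous r := by
    intro n
    obtain ⟨L, hL, hfac⟩ := (hlev n).2.2.1
    refine ⟨L, hL, fun σ hσ i j => ?_⟩
    have := hfac σ hσ i j
    rw [Matrix.sub_apply, hru]
    exact Ideal.pow_le_pow_right (Nat.le_succ n) this
  have hNL : NLof D r := by
    refine ⟨fun σ i j => hures (σ, i, j), ?_, ?_, ?_⟩
    · apply h28_eq_of_forall_mk_succ_eq
      intro n
      rw [hru, (hlev n).2.2.2.1, map_zero]
    · apply h28_eq_of_forall_mk_succ_eq
      intro n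
      rw [hru, (hlev n).2.2.2.2.1, map_one]
    · apply h28_eq_of_forall_mk_succ_eq
      intro n
      rw [hru, (hlev n).2.2.2.2.2]
  refine ⟨R, inferInstance, inferInstance, inferInstance, inferInstance, inferInstance,
    inferInstance, r, hr, hres, hNL, ?_, ?_, ?_⟩
  · -- UnivType
    intro B _ _ _ hB q hq hsurj
    obtain ⟨hr', -, hD'⟩ := NLfam.of_entries (hT hB q) (mapMat (q : R →+* B) r)
      (fun σ i j => by rw [mapMat_apply]; rfl)
    exact hD'
  · -- UnivExists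
    intro A _ _ _ hA s hs hsNL hsD
    obtain ⟨φ, hφ⟩ := hE hA (famOf s) (nlfam_famOf hs hsNL hsD)
    refine ⟨φ, ?_⟩
    ext σ i j
    rw [mapMat_apply]
    exact hφ (σ, i, j)
  · -- UnivGen
    intro A _ _ _ hA φ φ' h
    apply hG hA
    rintro ⟨σ, i, j⟩
    have h2 := congrArg (fun f => f σ i j) h
    simp only [mapMat_apply] at h2
    exact h2

end

end Fermat.Agent.S53
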