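import Fermat.Agent.S53.H21_Rigid

/-!
# S53: lifts of the residual representation in matrix form, normalised lifts

* `RigidData.IsLift r`: the matrix representation `r` over the local `𝒪`-algebra `A` reduces to
  `ρbar` (in the fixed basis) modulo the maximal ideal.
* `RigidData.IsNormalized r`: the three normalising equations.
* `RigidData.exists_conj_normalized`: (EX) every lift is conjugate, by a matrix `≡ 1`, to a
  normalised lift (needs the quadratic Hensel property of `A`).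
* `RigidData.eq_of_intertwine`: (RIG) two normalised lifts which are conjugate are equal.
-/

set_option autoImplicit false

noncomputable section

namespace Fermat.Agent.S53

open IsLocalRing Matrix Mat

lemma mapMat_injective {A B : Type} [CommRing A] [CommRing B]
    (φ : A →+* B) (hφ : Function.Injective φ) {r r' : GQ →* M2 A}
    (h : mapMat φ r = mapMat φ r') : r = r' := by
  ext g i j
  apply hφ
  have := congrFun (congrFun (DFunLike.congr_fun h g) i) j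
  simpa using this

section

variable {𝒪 : Type} [CommRing 𝒪] [IsLocalRing 𝒪] {ρbar : ResidualGaloisRep (ResidueField 𝒪)}
  (D : RigidData 𝒪 ρbar)
  {A : Type} [CommRing A] [IsLocalRing A] [Algebra 𝒪 A]
  {B : Type} [CommRing B] [IsLocalRing B] [Algebra 𝒪 B]

/-- `r` reduces to `ρbar` (in the fixed basis) modulo the maximal ideal. -/
def RigidData.IsLift (r : GQ →* M2 A) : Prop :=
  ∀ g i j, r g i j - algebraMap 𝒪 A (D.rbt g i j) ∈ maximalIdeal A

/-- The three normalising equations. -/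
def RigidData.IsNormalized (r : GQ →* M2 A) : Prop :=
  r D.g₁ 0 0 = 0 ∧ r D.g₁ 1 0 = 1 ∧ r D.g₂ 1 0 = algebraMap 𝒪 A (D.rbt D.g₂ 1 0)

variable {D}

lemma RigidData.IsLift.entriesIn {r : GQ →* M2 A} (hr : D.IsLift r) (g : GQ) :
    EntriesIn (maximalIdeal A) (r g - (algebraMap 𝒪 A).mapMatrix (D.rbt g)) :=
  fun i j => hr g i j

lemma RigidData.IsLift.sub_entriesIn {r r' : GQ →* M2 A} (hr : D.IsLift r) (hr' : D.IsLift r')
    (g : GQ) : EntriesIn (maximalIdeal A) (r g - r' g) := by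
  have : r g - r' g = (r g - (algebraMap 𝒪 A).mapMatrix (D.rbt g)) -
      (r' g - (algebraMap 𝒪 A).mapMatrix (D.rbt g)) := by abel
  rw [this]
  exact (hr.entriesIn g).sub (hr'.entriesIn g)

lemma RigidData.IsLift.conj {r : GQ →* M2 A} (hr : D.IsLift r) (u : (M2 A)ˣ)
    (hu : EntriesIn (maximalIdeal A) ((u : M2 A) - 1)) : D.IsLift (conjRep u r) := by
  intro g i j
  have h1 := entriesIn_conj_sub u hu (r g) i j
  have h2 := hr g i j
  have : conjRep u r g i j - algebraMap 𝒪 A (D.rbt g i j) =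
      ((u : M2 A) * r g * ((u⁻¹ : (M2 A)ˣ) : M2 A) - r g) i j +
        (r g i j - algebraMap 𝒪 A (D.rbt g i j)) := by
    simp only [conjRep_apply, Matrix.sub_apply]; ring
  rw [this]
  exact (maximalIdeal A).add_mem h1 h2

/-- The commutator of `r g₁` and `r g₂` has a unit `(1, 0)`-entry, for any lift `r`. -/
lemma RigidData.IsLift.isUnit_comm {r : GQ →* M2 A} (hr : D.IsLift r) :
    IsUnit ((r D.g₁ * r D.g₂ - r D.g₂ * r D.g₁) 1 0) := by
  set φ := (algebraMap 𝒪 A).mapMatrix (m := Fin 2) with hφ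
  have hu : IsUnit (algebraMap 𝒪 A ((D.rbt D.g₁ * D.rbt D.g₂ - D.rbt D.g₂ * D.rbt D.g₁) 1 0)) :=
    D.isUnit_comm.map _
  refine isUnit_of_sub_mem hu ?_
  have e : algebraMap 𝒪 A ((D.rbt D.g₁ * D.rbt D.g₂ - D.rbt D.g₂ * D.rbt D.g₁) 1 0) =
      (φ (D.rbt D.g₁) * φ (D.rbt D.g₂) - φ (D.rbt D.g₂) * φ (D.rbt D.g₁)) 1 0 := by
    rw [← map_mul, ← map_mul, ← map_sub]
    rfl
  rw [e]
  have h1 := EntriesIn.mul_sub_mul (hr.entriesIn D.g₁) (hr.entriesIn D.g₂)
  have h2 := EntriesIn.mul_sub_mul (hr.entriesIn D.g₂) (hr.entriesIn D.g₁)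
  have h3 := (h1.sub h2) 1 0
  have : (r D.g₁ * r D.g₂ - r D.g₂ * r D.g₁) 1 0 -
      (φ (D.rbt D.g₁) * φ (D.rbt D.g₂) - φ (D.rbt D.g₂) * φ (D.rbt D.g₁)) 1 0 =
      (r D.g₁ * r D.g₂ - φ (D.rbt D.g₁) * φ (D.rbt D.g₂) -
        (r D.g₂ * r D.g₁ - φ (D.rbt D.g₂) * φ (D.rbt D.g₁))) 1 0 := by
    simp only [Matrix.sub_apply]; ring
  rw [this]
  exact h3

/-- (EX) Every lift is conjugate to a normalised lift. -/
theorem RigidData.exists_conj_normalized (hQ : QuadHensel A) {r : GQ →* M2 A}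
    (hr : D.IsLift r) :
    ∃ u : (M2 A)ˣ, EntriesIn (maximalIdeal A) ((u : M2 A) - 1) ∧
      D.IsLift (conjRep u r) ∧ D.IsNormalized (conjRep u r) := by
  -- step 1
  have h0 : r D.g₁ 0 0 ∈ maximalIdeal A := by
    have := hr D.g₁ 0 0
    rwa [D.rbt_g₁_00, map_zero, sub_zero] at this
  have h1 : r D.g₁ 1 0 - 1 ∈ maximalIdeal A := by
    have := hr D.g₁ 1 0
    rwa [D.rbt_g₁_10, map_one] at this
  obtain ⟨u₁, hu₁, h00, h10⟩ := step1 (r D.g₁) h0 h1
  set r₁ := conjRep u₁ r with hr₁def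
  have hr₁ : D.IsLift r₁ := hr.conj u₁ hu₁
  -- step 2
  have hY : r₁ D.g₂ 1 0 - algebraMap 𝒪 A (D.rbt D.g₂ 1 0) ∈ maximalIdeal A := hr₁ D.g₂ 1 0
  obtain ⟨u₂, hu₂, hC, hY2⟩ := step2 hQ (r₁ D.g₁) (r₁ D.g₂) (algebraMap 𝒪 A (D.rbt D.g₂ 1 0))
    h00 h10 hY hr₁.isUnit_comm
  refine ⟨u₂ * u₁, ?_, ?_, ?_⟩
  · have : ((u₂ * u₁ : (M2 A)ˣ) : M2 A) - 1 =
        ((u₂ : M2 A) - 1) * (u₁ : M2 A) + ((u₁ : M2 A) - 1) := by
      rw [Units.val_mul]; noncomm_ring
    rw [this]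
    exact (hu₂.mul_right _).add hu₁
  · rw [← conjRep_conjRep]
    exact hr₁.conj u₂ hu₂
  · rw [← conjRep_conjRep]
    refine ⟨?_, ?_, ?_⟩
    · show ((u₂ : M2 A) * r₁ D.g₁ * ((u₂⁻¹ : (M2 A)ˣ) : M2 A)) 0 0 = 0
      rw [hC]; exact h00
    · show ((u₂ : M2 A) * r₁ D.g₁ * ((u₂⁻¹ : (M2 A)ˣ) : M2 A)) 1 0 = 1
      rw [hC]; exact h10
    · exact hY2

/-- (RIG) Two normalised lifts which are intertwined by an invertible matrix are equal, and the
intertwiner is a scalar matrix. -/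
theorem RigidData.eq_of_intertwine {r r' : GQ →* M2 A} (hr : D.IsLift r) (hr' : D.IsLift r')
    (hn : D.IsNormalized r) (hn' : D.IsNormalized r') (P : M2 A) (hP : IsUnit P)
    (h : ∀ g, P * r g = r' g * P) :
    r = r' ∧ ∃ p : A, IsUnit p ∧ P = p • (1 : M2 A) := by
  obtain ⟨p, hp, hPp⟩ := rigid (r D.g₁) (r' D.g₁) (r D.g₂) (r' D.g₂) P hP hn.1 hn.2.1 hn'.1 hn'.2.1
    (hr.sub_entriesIn hr' D.g₂) (by rw [hn.2.2, hn'.2.2]) hr.isUnit_comm (h D.g₁) (h D.g₂)
  refine ⟨?_, p, hp, hPp⟩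
  ext g i j
  have hg := h g
  rw [hPp] at hg
  have h2 := congrFun (congrFun hg i) j
  simp only [Matrix.smul_mul, Matrix.mul_smul, Matrix.one_mul, Matrix.mul_one,
    Matrix.smul_apply, smul_eq_mul] at h2
  obtain ⟨pu, hpu⟩ := hp
  rw [← hpu] at h2
  exact (Units.mul_right_inj pu).mp h2

omit [IsLocalRing A] [IsLocalRing B] in
/-- Normalised lifts are stable under base change. -/
lemma RigidData.IsNormalized.map {r : GQ →* M2 A} (hn : D.IsNormalized r) (φ : A →ₐ[𝒪] B) :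
    D.IsNormalized (mapMat (φ : A →+* B) r) := by
  refine ⟨?_, ?_, ?_⟩
  · simp [hn.1]
  · simp [hn.2.1]
  · simp [hn.2.2]

lemma RigidData.IsLift.map {r : GQ →* M2 A} (hr : D.IsLift r) (φ : A →ₐ[𝒪] B)
    (hφ : ∀ a ∈ maximalIdeal A, φ a ∈ maximalIdeal B) :
    D.IsLift (mapMat (φ : A →+* B) r) := by
  intro g i j
  have := hφ _ (hr g i j)
  simpa using this

omit [IsLocalRing A] [IsLocalRing B] in
lemma RigidData.IsNormalized.of_map {r : GQ →* M2 A} (φ : A →ₐ[𝒪] B)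
    (hφ : Function.Injective φ) (hn : D.IsNormalized (mapMat (φ : A →+* B) r)) :
    D.IsNormalized r := by
  obtain ⟨h1, h2, h3⟩ := hn
  refine ⟨hφ ?_, hφ ?_, hφ ?_⟩
  · simpa using h1
  · simpa using h2
  · simpa using h3

lemma RigidData.IsLift.of_map {r : GQ →* M2 A} (φ : A →ₐ[𝒪] B)
    (hφ : ∀ a, φ a ∈ maximalIdeal B → a ∈ maximalIdeal A)
    (hr : D.IsLift (mapMat (φ : A →+* B) r)) : D.IsLift r := by
  intro g i j
  apply hφ
  have := hr g i j
  simpa using this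

end

end Fermat.Agent.S53
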