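import Mathlib
import Fermat.Agent.S53.MatRep

/-!
# S53: limits of compatible systems of matrix representations

Given a complete local ring `R` with levels `π n : R → B n` (surjective, kernel `𝔪 ^ (n + 1)`)
and a compatible system of finite-level matrix representations `r n` over `B n`, we construct
the limit representation over `R`, show that it is continuous, and that it satisfies a
deformation condition as soon as all `r n` do.
-/

set_option autoImplicit false

open IsLocalRing

namespace Fermat.Agent.S53.Mat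

section Limit

variable {R : Type} [CommRing R] [IsLocalRing R]

/-- Two elements agreeing modulo all powers of the maximal ideal are equal. -/
theorem eq_of_forall_sub_mem_pow [IsHausdorff (maximalIdeal R) R] {x y : R}
    (h : ∀ n : ℕ, x - y ∈ maximalIdeal R ^ (n + 1)) : x = y := by
  rw [← sub_eq_zero]
  refine IsHausdorff.haus ‹IsHausdorff (maximalIdeal R) R› (x - y) fun n => ?_
  rw [SModEq.zero, smul_eq_mul, Ideal.mul_top]
  exact Ideal.pow_le_pow_right (Nat.le_succ n) (h n)

/-- Existence of a limit of a compatible sequence modulo powers of the maximal ideal. -/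
theorem exists_limit_of_compatible [IsPrecomplete (maximalIdeal R) R] (f : ℕ → R)
    (hf : ∀ n, f (n + 1) - f n ∈ maximalIdeal R ^ (n + 1)) :
    ∃ L : R, ∀ n, f n - L ∈ maximalIdeal R ^ (n + 1) := by
  -- reindex: `g n = f (n - 1)`
  have hmono : ∀ m n, m ≤ n → f n - f m ∈ maximalIdeal R ^ (m + 1) := by
    intro m n hmn
    induction n, hmn using Nat.le_induction with
    | base => simp
    | succ n hmn ih =>
      have h1 : f (n + 1) - f m = (f (n + 1) - f n) + (f n - f m) := by ring
      rw [h1]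
      exact Ideal.add_mem _ (Ideal.pow_le_pow_right (by omega) (hf n)) ih
  let g : ℕ → R := fun n => f (n - 1)
  have hg : ∀ {m n}, m ≤ n → g m ≡ g n [SMOD (maximalIdeal R ^ m • ⊤ : Submodule R R)] := by
    intro m n hmn
    rw [SModEq.sub_mem, smul_eq_mul, Ideal.mul_top]
    rcases Nat.eq_zero_or_pos m with rfl | hm
    · simp
    · have h1 := hmono (m - 1) (n - 1) (by omega)
      have h2 : m - 1 + 1 = m := by omega
      rw [h2] at h1
      have h3 : g m - g n = -(f (n - 1) - f (m - 1)) := by simp [g]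
      rw [h3]
      exact Ideal.neg_mem_iff _ |>.mpr h1
  obtain ⟨L, hL⟩ := IsPrecomplete.prec ‹IsPrecomplete (maximalIdeal R) R› hg
  refine ⟨L, fun n => ?_⟩
  have := hL (n + 1)
  rw [SModEq.sub_mem, smul_eq_mul, Ideal.mul_top] at this
  simpa [g] using this

variable (B : ℕ → Type) [∀ n, CommRing (B n)] (π : ∀ n, R →+* B n)

/-- **Limit of a compatible system of matrix representations.** -/
theorem exists_matRep_of_compatible [IsAdicComplete (maximalIdeal R) R]
    (hπ : ∀ n, Function.Surjective (π n))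
    (hker : ∀ n, RingHom.ker (π n) = maximalIdeal R ^ (n + 1))
    (r : ∀ n, GQ →* Matrix (Fin 2) (Fin 2) (B n))
    (hfin : ∀ n, GaloisFactorsThroughFiniteLevel (r n))
    (hcompat : ∀ n (x : R) (σ : GQ) (i j : Fin 2),
      π (n + 1) x = r (n + 1) σ i j → π n x = r n σ i j) :
    ∃ ρ : GQ →* Matrix (Fin 2) (Fin 2) R, MatContinuous ρ ∧ ∀ n, mapMat (π n) ρ = r n := by
  -- entries
  have hentry : ∀ (σ : GQ) (i j : Fin 2), ∃ L : R, ∀ n, π n L = r n σ i j := by
    intro σ i j
    choose f hf using fun n => hπ n (r n σ i j)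
    have hcomp : ∀ n, f (n + 1) - f n ∈ maximalIdeal R ^ (n + 1) := by
      intro n
      rw [← hker n, RingHom.mem_ker, map_sub, sub_eq_zero, hf n]
      exact hcompat n _ σ i j (hf (n + 1))
    obtain ⟨L, hL⟩ := exists_limit_of_compatible f hcomp
    refine ⟨L, fun n => ?_⟩
    have := hL n
    rw [← hker n, RingHom.mem_ker, map_sub, sub_eq_zero, hf n] at this
    exact this.symm
  choose ρ₀ hρ₀ using hentry
  have huniq : ∀ {x y : R}, (∀ n, π n x = π n y) → x = y := by
    intro x y h
    refine eq_of_forall_sub_mem_pow fun n => ?_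
    rw [← hker n, RingHom.mem_ker, map_sub, sub_eq_zero]
    exact h n
  have hmapmat : ∀ n (M : Matrix (Fin 2) (Fin 2) R) (N : Matrix (Fin 2) (Fin 2) R) (i j : Fin 2),
      π n ((M * N) i j) = ((M.map (π n)) * (N.map (π n))) i j := by
    intro n M N i j
    simp [Matrix.mul_apply]
  have hmapof : ∀ n σ, (Matrix.of fun i j => ρ₀ σ i j).map (π n) = r n σ := by
    intro n σ
    ext i j
    simp [hρ₀]
  let ρ : GQ →* Matrix (Fin 2) (Fin 2) R :=
    { toFun := fun σ => Matrix.of fun i j => ρ₀ σ i j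
      map_one' := by
        ext i j
        apply huniq
        intro n
        rw [Matrix.of_apply, hρ₀, map_one, Matrix.one_apply, Matrix.one_apply]
        split_ifs <;> simp
      map_mul' := fun σ τ => by
        ext i j
        apply huniq
        intro n
        rw [Matrix.of_apply, hρ₀, map_mul, hmapmat, hmapof, hmapof] }
  have hρ : ∀ n, mapMat (π n) ρ = r n := by
    intro n
    ext σ i j
    exact hρ₀ σ i j n
  refine ⟨ρ, ?_, hρ⟩
  intro n
  rcases Nat.eq_zero_or_pos n with rfl | hn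
  · exact ⟨⊥, inferInstance, fun σ _ i j => by simp⟩
  obtain ⟨L, hL, h1⟩ := hfin (n - 1)
  refine ⟨L, hL, fun σ hσ i j => ?_⟩
  have h2 : n - 1 + 1 = n := by omega
  rw [← h2, ← hker (n - 1), RingHom.mem_ker, Matrix.sub_apply, map_sub, sub_eq_zero]
  have h3 : π (n - 1) (ρ σ i j) = r (n - 1) σ i j := hρ₀ σ i j (n - 1)
  rw [h3, h1 σ hσ, Matrix.one_apply, Matrix.one_apply]
  split_ifs <;> simp

end Limit

section TestAlgebra

open GaloisRep

variable {𝒪 : Type} [CommRing 𝒪] [IsLocalRing 𝒪]
  {R : Type} [CommRing R] [IsLocalRing R] [Algebra 𝒪 R]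
  {B : Type} [CommRing B] [IsLocalRing B] [Algebra 𝒪 B]

/-- A local quotient of a noetherian local `𝒪`-algebra killing a power of the maximal ideal is
an Artinian test algebra. -/
theorem isArtinianTestAlgebra_of_surjective [IsNoetherianRing R]
    (hloc : IsLocalHom (algebraMap 𝒪 R))
    (hres : Function.Surjective (IsLocalRing.residue R ∘ algebraMap 𝒪 R))
    (π : R →ₐ[𝒪] B) (hπ : Function.Surjective π) {n : ℕ}
    (hker : maximalIdeal R ^ n ≤ RingHom.ker (π : R →+* B)) : IsArtinianTestAlgebra 𝒪 B := by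
  have hπloc : IsLocalHom (π : R →+* B) := IsLocalHom.of_surjective (π : R →+* B) hπ
  refine ⟨⟨fun a ha => ?_⟩, ?_, ?_⟩
  · have h1 : IsUnit ((π : R →+* B) (algebraMap 𝒪 R a)) := by
      have : (π : R →+* B) (algebraMap 𝒪 R a) = algebraMap 𝒪 B a := π.commutes a
      rw [this]
      exact ha
    exact hloc.map_nonunit a (hπloc.map_nonunit _ h1)
  · intro y
    obtain ⟨b, rfl⟩ := IsLocalRing.residue_surjective y
    obtain ⟨x, rfl⟩ := hπ b
    obtain ⟨a, ha⟩ := hres (IsLocalRing.residue R x)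
    refine ⟨a, ?_⟩
    have h1 : algebraMap 𝒪 R a - x ∈ maximalIdeal R := by
      rw [← IsLocalRing.residue_eq_zero_iff, map_sub, sub_eq_zero]
      exact ha
    have h2 : (π : R →+* B) (algebraMap 𝒪 R a - x) ∈ maximalIdeal B := by
      by_contra hnot
      have hu : IsUnit ((π : R →+* B) (algebraMap 𝒪 R a - x)) := by
        simpa [IsLocalRing.mem_maximalIdeal, mem_nonunits_iff] using hnot
      exact (IsLocalRing.mem_maximalIdeal _).mp h1 (hπloc.map_nonunit _ hu)
    show IsLocalRing.residue B (algebraMap 𝒪 B a) = IsLocalRing.residue B (π x)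
    rw [← sub_eq_zero, ← map_sub, IsLocalRing.residue_eq_zero_iff]
    have h3 : (π : R →+* B) (algebraMap 𝒪 R a - x) = algebraMap 𝒪 B a - π x := by
      rw [map_sub]
      congr 1
      exact π.commutes a
    rw [← h3]
    exact h2
  · have : IsNoetherianRing B := isNoetherianRing_of_surjective R B (π : R →+* B) hπ
    rw [isArtinianRing_iff_isNilpotent_maximalIdeal]
    refine ⟨n, ?_⟩
    rw [← IsLocalRing.map_maximalIdeal_of_surjective (π : R →+* B) hπ, ← Ideal.map_pow,
      Ideal.zero_eq_bot, Ideal.map_eq_bot_iff_le_ker]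
    exact hker

end TestAlgebra

section LimitCondition

open GaloisRep

variable {𝒪 : Type} [CommRing 𝒪] [IsLocalRing 𝒪]
  {𝒟 : ∀ ⦃A : Type⦄ [CommRing A] [IsLocalRing A] [Algebra 𝒪 A], GaloisRepAdic A → Prop}
  {R : Type} [CommRing R] [IsLocalRing R] [Algebra 𝒪 R]

/-- **The condition passes to the limit.** If `R` is a complete noetherian local `𝒪`-algebra with
levels `π n : R → B n` (surjective with kernel `𝔪 ^ (n + 1)`) and `ρ` is a matrix representation
over `R` all of whose reductions `mapMat (π n) ρ` satisfy `𝒟`, then `ρ` satisfies `𝒟`. -/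
theorem cond_of_levels (h𝒟 : IsDeformationCondition 𝒪 𝒟) [IsNoetherianRing R]
    [IsAdicComplete (maximalIdeal R) R]
    (hloc : IsLocalHom (algebraMap 𝒪 R))
    (hres : Function.Surjective (IsLocalRing.residue R ∘ algebraMap 𝒪 R))
    (B : ℕ → Type) [∀ n, CommRing (B n)] [∀ n, IsLocalRing (B n)] [∀ n, Algebra 𝒪 (B n)]
    (π : ∀ n, R →ₐ[𝒪] B n) (hπ : ∀ n, Function.Surjective (π n))
    (hker : ∀ n, RingHom.ker (π n : R →+* B n) = maximalIdeal R ^ (n + 1))
    (ρ : GQ →* Matrix (Fin 2) (Fin 2) R) (hρ : MatContinuous ρ)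
    (hlev : ∀ n (h : MatContinuous (mapMat (π n : R →+* B n) ρ)),
      𝒟 (ofMat (mapMat (π n : R →+* B n) ρ) h)) :
    𝒟 (ofMat ρ hρ) := by
  rw [h𝒟.iff_forall_surjective hloc hres]
  intro C _ _ _ hC q hq hqsurj
  -- the maximal ideal of `C` is nilpotent
  have := hC.isArtinian
  obtain ⟨m, hm⟩ : IsNilpotent (maximalIdeal C) := by
    have := IsArtinianRing.isNilpotent_jacobson_bot (R := C)
    rwa [IsLocalRing.jacobson_eq_maximalIdeal _ bot_ne_top] at this
  have hm' : maximalIdeal C ^ (m + 1) = ⊥ := by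
    rw [pow_succ, hm, Ideal.zero_eq_bot, Ideal.bot_mul]
  -- `q` factors through level `m`
  have hle : RingHom.ker (π m : R →+* B m) ≤ RingHom.ker (q : R →+* C) := by
    rw [hker m]
    intro x hx
    have := map_maximalIdeal_pow_le (q : R →+* C) hq (m + 1) (Ideal.mem_map_of_mem _ hx)
    rwa [hm', Ideal.mem_bot] at this
  let q' : B m →ₐ[𝒪] C := AlgHom.liftOfSurjective (π m) (hπ m) q hle
  have hq'comp : q'.comp (π m) = q := AlgHom.liftOfSurjective_comp (π m) (hπ m) q hle
  have hq'surj : Function.Surjective q' := AlgHom.liftOfSurjective_surjective _ _ _ _ hqsurj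
  have hq'loc : IsLocalHom (q' : B m →+* C) := IsLocalHom.of_surjective (q' : B m →+* C) hq'surj
  have hπloc : IsLocalHom (π m : R →+* B m) := IsLocalHom.of_surjective (π m : R →+* B m) (hπ m)
  have hBm : IsArtinianTestAlgebra 𝒪 (B m) :=
    isArtinianTestAlgebra_of_surjective hloc hres (π m) (hπ m) (hker m).ge
  have h1 := cond_mapMat h𝒟 hBm hC q' hq'loc (hρ.map _ hπloc) (hlev m _)
  have h2 : mapMat (q' : B m →+* C) (mapMat (π m : R →+* B m) ρ) = mapMat (q : R →+* C) ρ := by
    rw [mapMat_comp]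
    congr 1
    exact congrArg (fun f : R →ₐ[𝒪] C => (f : R →+* C)) hq'comp
  have h3 : 𝒟 (ofMat (mapMat (q : R →+* C) ρ) (hρ.map _ hq)) := by
    have : ∀ (s : GQ →* Matrix (Fin 2) (Fin 2) C) (hs : MatContinuous s),
        s = mapMat (q : R →+* C) ρ → 𝒟 (ofMat s hs) → 𝒟 (ofMat (mapMat (q : R →+* C) ρ) (hρ.map _ hq)) := by
      rintro s hs rfl h
      exact h
    exact this _ _ h2 h1
  exact h𝒟.of_isEquiv hC ⟨(equivBaseChangeOfMat (q : R →+* C) hq ρ hρ).symm⟩ h3

end LimitCondition

section Congruence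

variable {𝒪 : Type} [CommRing 𝒪] [IsLocalRing 𝒪]
  {A : Type} [CommRing A] [IsLocalRing A] [Algebra 𝒪 A] [IsLocalHom (algebraMap 𝒪 A)]

/-- Converse of `sub_algebraMap_mem_maximalIdeal`. -/
theorem mapMat_residue_eq_of_sub_mem
    (rb : GQ →* Matrix (Fin 2) (Fin 2) (ResidueField 𝒪))
    (rbt : GQ → Matrix (Fin 2) (Fin 2) 𝒪) (hrbt : ∀ σ i j, residue 𝒪 (rbt σ i j) = rb σ i j)
    {r : GQ →* Matrix (Fin 2) (Fin 2) A}
    (h : ∀ σ i j, r σ i j - algebraMap 𝒪 A (rbt σ i j) ∈ maximalIdeal A) :
    mapMat (residue A) r = mapMat (ResidueField.map (algebraMap 𝒪 A)) rb := by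
  ext σ i j
  have h1 := h σ i j
  rw [← residue_eq_zero_iff, map_sub, sub_eq_zero] at h1
  rw [mapMat_apply, mapMat_apply, h1, ← hrbt, ResidueField.map_residue]

/-- The residual condition in terms of congruences of entries. -/
theorem residual_ofMat_isEquiv_of_sub_mem (ρbar : ResidualGaloisRep (ResidueField 𝒪))
    (bbar : Module.Basis (Fin 2) (ResidueField 𝒪) ρbar.V)
    (rbt : GQ → Matrix (Fin 2) (Fin 2) 𝒪)
    (hrbt : ∀ σ i j, residue 𝒪 (rbt σ i j) = resMatOf ρbar bbar σ i j)
    {r : GQ →* Matrix (Fin 2) (Fin 2) A} (hr : MatContinuous r)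
    (h : ∀ σ i j, r σ i j - algebraMap 𝒪 A (rbt σ i j) ∈ maximalIdeal A) :
    (ofMat r hr).residual.IsEquiv
      (ρbar.baseChangeAlong (ResidueField.map (algebraMap 𝒪 A))) :=
  residual_ofMat_isEquiv_baseChangeAlong ρbar bbar _ r hr
    (mapMat_residue_eq_of_sub_mem (resMatOf ρbar bbar) rbt hrbt h)

end Congruence

end Fermat.Agent.S53.Mat
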