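import Mathlib
import Fermat.Agent.S53.MatRep
import Fermat.Agent.S53.MatLimit
import Fermat.Agent.S53.Assembly
import Fermat.Agent.S53.H21_Lift

/-!
# S53, step (4): the universal matrix representation over the completed ring

Input: an `𝒪`-algebra `Λ` with a family of "generic matrices" `x : GQ → M₂(Λ)` whose entries
generate `Λ`, a chain of ideals `J n` of `Λ`, and a complete noetherian local `𝒪`-algebra `R`
with a map `ι : Λ → R` such that `ι⁻¹ (𝔪_R ^ n) = J n` and `ι` has dense image.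

If every `J (n + 1)` is a *level ideal* (the kernel of the classifying map of a normalised lift of
type `𝒟` over an Artinian test algebra) and the chain is *minimal* (every normalised lift of type
`𝒟` over a test algebra with `𝔪 ^ n = 0` is classified by a map killing `J n`), then
`r σ := ι (x σ)` is a continuous matrix representation over `R` satisfying the hypotheses
`UnivType`, `UnivExists`, `UnivGen` of the final assembly.
-/

set_option autoImplicit false
set_option linter.unusedSectionVars false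
set_option linter.unusedVariables false

open IsLocalRing GaloisRep

namespace Fermat.Agent.S53.H13

open Fermat.Agent.S53 Fermat.Agent.S53.Mat Fermat.Agent.S53.Asm

section Defs

variable {𝒪 : Type} [CommRing 𝒪] [IsLocalRing 𝒪]
  (NL : ∀ ⦃A : Type⦄ [CommRing A] [IsLocalRing A] [Algebra 𝒪 A],
    (GQ →* Matrix (Fin 2) (Fin 2) A) → Prop)
  (𝒟 : ∀ ⦃A : Type⦄ [CommRing A] [IsLocalRing A] [Algebra 𝒪 A], GaloisRepAdic A → Prop)
  {Λ : Type} [CommRing Λ] [Algebra 𝒪 Λ] (x : GQ → Matrix (Fin 2) (Fin 2) Λ)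

/-- `J` is a level ideal: it is the kernel of a surjective `𝒪`-algebra map `ev : Λ → A` onto an
Artinian test algebra carrying the generic matrices `x` to a continuous normalised matrix
representation of type `𝒟`. -/
def IsLevelIdeal (J : Ideal Λ) : Prop :=
  ∃ (A : Type) (_ : CommRing A) (_ : IsLocalRing A) (_ : Algebra 𝒪 A)
    (_ : IsArtinianTestAlgebra 𝒪 A)
    (s : GQ →* Matrix (Fin 2) (Fin 2) A) (hs : MatContinuous s) (ev : Λ →ₐ[𝒪] A),
    Function.Surjective ev ∧ RingHom.ker (ev : Λ →+* A) = J ∧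
      (∀ σ i j, ev (x σ i j) = s σ i j) ∧ NL s ∧ 𝒟 (ofMat s hs)

/-- The chain `J` is minimal: every normalised lift of type `𝒟` over a test algebra with
`𝔪 ^ n = 0` is classified by an `𝒪`-algebra map `Λ → A` killing `J n`. -/
def IsLevelMin (J : ℕ → Ideal Λ) : Prop :=
  ∀ (n : ℕ) ⦃A : Type⦄ [CommRing A] [IsLocalRing A] [Algebra 𝒪 A], IsArtinianTestAlgebra 𝒪 A →
    maximalIdeal A ^ n = ⊥ →
    ∀ (s : GQ →* Matrix (Fin 2) (Fin 2) A) (hs : MatContinuous s), NL s → 𝒟 (ofMat s hs) →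
      ∃ ev : Λ →ₐ[𝒪] A, (∀ σ i j, ev (x σ i j) = s σ i j) ∧ J n ≤ RingHom.ker (ev : Λ →+* A)

/-- The normal form is detected by families of local homomorphisms which are jointly
injective. -/
def NLReflect : Prop :=
  ∀ ⦃A : Type⦄ [CommRing A] [IsLocalRing A] [Algebra 𝒪 A] (r : GQ →* Matrix (Fin 2) (Fin 2) A),
    (∀ a : A, a ≠ 0 → ∃ (B : Type) (_ : CommRing B) (_ : IsLocalRing B) (_ : Algebra 𝒪 B)
      (φ : A →ₐ[𝒪] B), IsLocalHom (φ : A →+* B) ∧ φ a ≠ 0 ∧ NL (mapMat (φ : A →+* B) r)) →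
    NL r

end Defs

section Artin

variable {𝒪 : Type} [CommRing 𝒪] [IsLocalRing 𝒪]
  {B : Type} [CommRing B] [IsLocalRing B] [Algebra 𝒪 B]

/-- The maximal ideal of an Artinian test algebra is nilpotent. -/
theorem exists_pow_succ_eq_bot (hB : IsArtinianTestAlgebra 𝒪 B) :
    ∃ m : ℕ, maximalIdeal B ^ (m + 1) = ⊥ := by
  have := hB.isArtinian
  obtain ⟨m, hm⟩ : IsNilpotent (maximalIdeal B) := by
    have := IsArtinianRing.isNilpotent_jacobson_bot (R := B)
    rwa [IsLocalRing.jacobson_eq_maximalIdeal _ bot_ne_top] at this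
  refine ⟨m, ?_⟩
  rw [pow_succ, hm, Ideal.zero_eq_bot, Ideal.bot_mul]

end Artin

section Glue

variable {𝒪 : Type} [CommRing 𝒪] [IsLocalRing 𝒪]
  {NL : ∀ ⦃A : Type⦄ [CommRing A] [IsLocalRing A] [Algebra 𝒪 A],
    (GQ →* Matrix (Fin 2) (Fin 2) A) → Prop}
  {𝒟 : ∀ ⦃A : Type⦄ [CommRing A] [IsLocalRing A] [Algebra 𝒪 A], GaloisRepAdic A → Prop}
  {Λ : Type} [CommRing Λ] [Algebra 𝒪 Λ] {x : GQ → Matrix (Fin 2) (Fin 2) Λ}
  {R : Type} [CommRing R] [IsLocalRing R] [Algebra 𝒪 R]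
  {ι : Λ →ₐ[𝒪] R} {J : ℕ → Ideal Λ}

/-- The kernel of `ι` is the intersection of the chain. -/
theorem map_eq_zero_iff_forall_mem [IsHausdorff (maximalIdeal R) R]
    (hcomap : ∀ n, (maximalIdeal R ^ n).comap (ι : Λ →+* R) = J n) (l : Λ) :
    ι l = 0 ↔ ∀ n, l ∈ J (n + 1) := by
  constructor
  · intro h n
    rw [← hcomap, Ideal.mem_comap]
    show ι l ∈ _
    rw [h]
    exact Ideal.zero_mem _
  · intro h
    refine eq_of_forall_sub_mem_pow fun n => ?_
    rw [sub_zero]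
    have := h n
    rwa [← hcomap, Ideal.mem_comap] at this

/-- Two elements of `Λ` with the same image at every level have the same image in `R`. -/
theorem map_eq_of_forall_level [IsHausdorff (maximalIdeal R) R]
    (hcomap : ∀ n, (maximalIdeal R ^ n).comap (ι : Λ →+* R) = J n)
    (hlev : ∀ n, IsLevelIdeal NL 𝒟 x (J (n + 1))) {l l' : Λ}
    (h : ∀ (A : Type) [CommRing A] [IsLocalRing A] [Algebra 𝒪 A]
      (s : GQ →* Matrix (Fin 2) (Fin 2) A) (ev : Λ →ₐ[𝒪] A),
      (∀ σ i j, ev (x σ i j) = s σ i j) → NL s → ev l = ev l') : ι l = ι l' := by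
  rw [← sub_eq_zero, ← map_sub, map_eq_zero_iff_forall_mem hcomap]
  intro n
  obtain ⟨A, _, _, _, hA, s, hs, ev, hevsurj, hker, hevx, hNL, hD⟩ := hlev n
  rw [← hker, RingHom.mem_ker]
  show ev (l - l') = 0
  rw [map_sub, sub_eq_zero]
  exact h A s ev hevx hNL

/-- The universal matrix representation exists as a monoid homomorphism. -/
theorem exists_univRep [IsHausdorff (maximalIdeal R) R]
    (hcomap : ∀ n, (maximalIdeal R ^ n).comap (ι : Λ →+* R) = J n)
    (hlev : ∀ n, IsLevelIdeal NL 𝒟 x (J (n + 1))) :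
    ∃ r : GQ →* Matrix (Fin 2) (Fin 2) R, (∀ σ i j, r σ i j = ι (x σ i j)) ∧
      MatContinuous r := by
  have hone : ∀ i j, ι (x 1 i j) = (1 : Matrix (Fin 2) (Fin 2) R) i j := by
    intro i j
    have h1 : (1 : Matrix (Fin 2) (Fin 2) R) i j
        = ι (if i = j then (1 : Λ) else 0) := by
      rw [Matrix.one_apply]
      split_ifs <;> simp
    rw [h1]
    refine map_eq_of_forall_level hcomap hlev ?_
    intro A _ _ _ s ev hev _
    rw [hev, map_one, Matrix.one_apply]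
    split_ifs <;> simp
  have hmul : ∀ σ τ i j, ι (x (σ * τ) i j) = ∑ k, ι (x σ i k) * ι (x τ k j) := by
    intro σ τ i j
    have h1 : ∑ k, ι (x σ i k) * ι (x τ k j) = ι (∑ k, x σ i k * x τ k j) := by
      rw [map_sum]
      simp
    rw [h1]
    refine map_eq_of_forall_level hcomap hlev ?_
    intro A _ _ _ s ev hev _
    rw [hev, map_mul, Matrix.mul_apply, map_sum]
    simp [hev]
  let r : GQ →* Matrix (Fin 2) (Fin 2) R :=
    { toFun := fun σ => Matrix.of fun i j => ι (x σ i j)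
      map_one' := by
        ext i j
        rw [Matrix.of_apply, hone]
      map_mul' := fun σ τ => by
        ext i j
        rw [Matrix.of_apply, hmul, Matrix.mul_apply]
        rfl }
  refine ⟨r, fun σ i j => rfl, ?_⟩
  intro n
  rcases Nat.eq_zero_or_pos n with rfl | hn
  · exact ⟨⊥, inferInstance, fun σ _ i j => by simp⟩
  obtain ⟨A, _, _, _, hA, s, hs, ev, hevsurj, hker, hevx, hNL, hD⟩ := hlev (n - 1)
  have hn1 : n - 1 + 1 = n := by omega
  rw [hn1] at hker
  obtain ⟨m, hm⟩ := exists_pow_succ_eq_bot hA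
  obtain ⟨L, hL, h1⟩ := hs (m + 1)
  refine ⟨L, hL, fun σ hσ i j => ?_⟩
  have h2 := h1 σ hσ i j
  rw [hm, Ideal.mem_bot] at h2
  have h3 : (r σ - 1) i j = ι (x σ i j - if i = j then (1 : Λ) else 0) := by
    rw [Matrix.sub_apply, Matrix.one_apply, map_sub]
    congr 1
    split_ifs <;> simp
  rw [h3]
  have h4 : x σ i j - (if i = j then (1 : Λ) else 0) ∈ J n := by
    rw [← hker, RingHom.mem_ker]
    show ev _ = 0
    rw [map_sub, hevx]
    rw [Matrix.sub_apply, Matrix.one_apply] at h2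
    rw [← h2]
    congr 1
    split_ifs <;> simp
  rw [← hcomap, Ideal.mem_comap] at h4
  exact h4

variable [IsLocalHom (algebraMap 𝒪 R)]

omit [IsLocalHom (algebraMap 𝒪 R)] in
/-- The normal form of the universal representation. -/
theorem univRep_NL [IsHausdorff (maximalIdeal R) R]
    (hmap : NLMap (𝒪 := 𝒪) NL) (hrefl : NLReflect (𝒪 := 𝒪) NL)
    (hcomap : ∀ n, (maximalIdeal R ^ n).comap (ι : Λ →+* R) = J n)
    (hdense : ∀ (n : ℕ) (y : R), ∃ l : Λ, y - ι l ∈ maximalIdeal R ^ n)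
    (hlev : ∀ n, IsLevelIdeal NL 𝒟 x (J (n + 1)))
    (r : GQ →* Matrix (Fin 2) (Fin 2) R) (hrx : ∀ σ i j, r σ i j = ι (x σ i j)) : NL r := by
  apply hrefl
  intro a ha
  -- some level sees `a`
  obtain ⟨n, hn⟩ : ∃ n : ℕ, a ∉ maximalIdeal R ^ (n + 1) := by
    by_contra hcon
    push Not at hcon
    apply ha
    exact eq_of_forall_sub_mem_pow fun n => by simpa using hcon n
  obtain ⟨A, iA1, iA2, iA3, hA, s, hs, ev, hevsurj, hker, hevx, hNL, hD⟩ := hlev n
  -- the map `R → A`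
  have hmksurj : Function.Surjective
      ((Ideal.Quotient.mkₐ 𝒪 (maximalIdeal R ^ (n + 1))).comp ι) := by
    intro y
    obtain ⟨y, rfl⟩ := Ideal.Quotient.mk_surjective y
    obtain ⟨l, hl⟩ := hdense (n + 1) y
    refine ⟨l, ?_⟩
    show Ideal.Quotient.mk _ (ι l) = Ideal.Quotient.mk _ y
    rw [Ideal.Quotient.eq, ← Ideal.neg_mem_iff]
    simpa using hl
  have hle : RingHom.ker (((Ideal.Quotient.mkₐ 𝒪 (maximalIdeal R ^ (n + 1))).comp ι :
      Λ →ₐ[𝒪] R ⧸ maximalIdeal R ^ (n + 1)) : Λ →+* R ⧸ maximalIdeal R ^ (n + 1))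
      ≤ RingHom.ker (ev : Λ →+* A) := by
    intro l hl
    rw [hker, ← hcomap, Ideal.mem_comap]
    rw [RingHom.mem_ker] at hl
    exact Ideal.Quotient.eq_zero_iff_mem.mp hl
  let θ : (R ⧸ maximalIdeal R ^ (n + 1)) →ₐ[𝒪] A :=
    AlgHom.liftOfSurjective _ hmksurj ev hle
  have hθ : ∀ l, θ (Ideal.Quotient.mk _ (ι l)) = ev l := fun l =>
    AlgHom.liftOfSurjective_apply _ hmksurj ev hle l
  have hθinj : Function.Injective θ := by
    rw [injective_iff_map_eq_zero]
    intro y hy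
    obtain ⟨l, rfl⟩ := hmksurj y
    have h1 : ev l = 0 := by rw [← hθ]; exact hy
    have h2 : l ∈ J (n + 1) := by rw [← hker]; exact h1
    rw [← hcomap, Ideal.mem_comap] at h2
    exact Ideal.Quotient.eq_zero_iff_mem.mpr h2
  let φ : R →ₐ[𝒪] A := θ.comp (Ideal.Quotient.mkₐ 𝒪 (maximalIdeal R ^ (n + 1)))
  have hφsurj : Function.Surjective φ := by
    intro y
    obtain ⟨l, rfl⟩ := hevsurj y
    exact ⟨ι l, hθ l⟩
  have hφloc : IsLocalHom (φ : R →+* A) := IsLocalHom.of_surjective _ hφsurj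
  refine ⟨A, iA1, iA2, iA3, φ, hφloc, ?_, ?_⟩
  · intro h0
    apply hn
    have : Ideal.Quotient.mk (maximalIdeal R ^ (n + 1)) a = 0 := hθinj (by rw [map_zero]; exact h0)
    exact Ideal.Quotient.eq_zero_iff_mem.mp this
  · have : mapMat (φ : R →+* A) r = s := by
      ext σ i j
      rw [mapMat_apply, hrx, ← hevx]
      exact hθ _
    rw [this]
    exact hNL

omit [IsLocalHom (algebraMap 𝒪 R)] in
/-- [T] Artinian quotients of the universal representation are of type `𝒟`. -/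
theorem univRep_univType (h𝒟 : IsDeformationCondition 𝒪 𝒟)
    (hcomap : ∀ n, (maximalIdeal R ^ n).comap (ι : Λ →+* R) = J n)
    (hdense : ∀ (n : ℕ) (y : R), ∃ l : Λ, y - ι l ∈ maximalIdeal R ^ n)
    (hlev : ∀ n, IsLevelIdeal NL 𝒟 x (J (n + 1)))
    (r : GQ →* Matrix (Fin 2) (Fin 2) R) (hr : MatContinuous r)
    (hrx : ∀ σ i j, r σ i j = ι (x σ i j)) : UnivType r hr 𝒟 := by
  intro B _ _ _ hB q hq hqsurj
  obtain ⟨m, hm⟩ := exists_pow_succ_eq_bot hB
  obtain ⟨A, _, _, _, hA, s, hs, ev, hevsurj, hker, hevx, hNL, hD⟩ := hlev m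
  have hqkill : ∀ y ∈ maximalIdeal R ^ (m + 1), q y = 0 := by
    intro y hy
    have := map_maximalIdeal_pow_le (q : R →+* B) hq (m + 1) (Ideal.mem_map_of_mem _ hy)
    rwa [hm, Ideal.mem_bot] at this
  have hle : RingHom.ker (ev : Λ →+* A) ≤
      RingHom.ker ((q.comp ι : Λ →ₐ[𝒪] B) : Λ →+* B) := by
    rw [hker, ← hcomap]
    intro l hl
    rw [Ideal.mem_comap] at hl
    rw [RingHom.mem_ker]
    exact hqkill _ hl
  let ψ : A →ₐ[𝒪] B := AlgHom.liftOfSurjective ev hevsurj (q.comp ι) hle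
  have hψ : ∀ l, ψ (ev l) = q (ι l) := fun l =>
    AlgHom.liftOfSurjective_apply ev hevsurj (q.comp ι) hle l
  have hqι : Function.Surjective (q.comp ι) := by
    intro b
    obtain ⟨y, rfl⟩ := hqsurj b
    obtain ⟨l, hl⟩ := hdense (m + 1) y
    refine ⟨l, ?_⟩
    have := hqkill _ hl
    rw [map_sub, sub_eq_zero] at this
    exact this.symm
  have hψsurj : Function.Surjective ψ :=
    AlgHom.liftOfSurjective_surjective ev hevsurj (q.comp ι) hle hqι
  have hψloc : IsLocalHom (ψ : A →+* B) := IsLocalHom.of_surjective _ hψsurj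
  have h1 := cond_mapMat h𝒟 hA hB ψ hψloc hs hD
  have h2 : mapMat (ψ : A →+* B) s = mapMat (q : R →+* B) r := by
    ext σ i j
    rw [mapMat_apply, mapMat_apply, hrx, ← hevx]
    exact hψ _
  have key : ∀ (t : GQ →* Matrix (Fin 2) (Fin 2) B) (ht : MatContinuous t),
      t = mapMat (q : R →+* B) r → 𝒟 (ofMat t ht) →
        𝒟 (ofMat (mapMat (q : R →+* B) r) (hr.map _ hq)) := by
    rintro t ht rfl h
    exact h
  exact key _ _ h2 h1

omit [IsLocalHom (algebraMap 𝒪 R)] in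
/-- [E] every normalised lift of type `𝒟` over a test algebra comes from the universal one. -/
theorem univRep_univExists
    (hcomap : ∀ n, (maximalIdeal R ^ n).comap (ι : Λ →+* R) = J n)
    (hdense : ∀ (n : ℕ) (y : R), ∃ l : Λ, y - ι l ∈ maximalIdeal R ^ n)
    (hmin : IsLevelMin NL 𝒟 x J)
    (r : GQ →* Matrix (Fin 2) (Fin 2) R)
    (hrx : ∀ σ i j, r σ i j = ι (x σ i j)) : UnivExists NL r 𝒟 := by
  intro A _ _ _ hA s hs hNL hD
  obtain ⟨m, hm⟩ := exists_pow_succ_eq_bot hA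
  obtain ⟨ev, hevx, hJ⟩ := hmin (m + 1) hA hm s hs hNL hD
  have hmksurj : Function.Surjective
      ((Ideal.Quotient.mkₐ 𝒪 (maximalIdeal R ^ (m + 1))).comp ι) := by
    intro y
    obtain ⟨y, rfl⟩ := Ideal.Quotient.mk_surjective y
    obtain ⟨l, hl⟩ := hdense (m + 1) y
    refine ⟨l, ?_⟩
    show Ideal.Quotient.mk _ (ι l) = Ideal.Quotient.mk _ y
    rw [Ideal.Quotient.eq, ← Ideal.neg_mem_iff]
    simpa using hl
  have hle : RingHom.ker (((Ideal.Quotient.mkₐ 𝒪 (maximalIdeal R ^ (m + 1))).comp ι :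
      Λ →ₐ[𝒪] R ⧸ maximalIdeal R ^ (m + 1)) : Λ →+* R ⧸ maximalIdeal R ^ (m + 1))
      ≤ RingHom.ker (ev : Λ →+* A) := by
    intro l hl
    apply hJ
    rw [← hcomap, Ideal.mem_comap]
    rw [RingHom.mem_ker] at hl
    exact Ideal.Quotient.eq_zero_iff_mem.mp hl
  let θ : (R ⧸ maximalIdeal R ^ (m + 1)) →ₐ[𝒪] A :=
    AlgHom.liftOfSurjective _ hmksurj ev hle
  have hθ : ∀ l, θ (Ideal.Quotient.mk _ (ι l)) = ev l := fun l =>
    AlgHom.liftOfSurjective_apply _ hmksurj ev hle l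
  refine ⟨θ.comp (Ideal.Quotient.mkₐ 𝒪 (maximalIdeal R ^ (m + 1))), ?_⟩
  ext σ i j
  rw [mapMat_apply, hrx, ← hevx]
  exact hθ _

omit [IsLocalHom (algebraMap 𝒪 R)] in
/-- [G] maps from the universal ring to test algebras are determined by the images of the
matrix entries. -/
theorem univRep_univGen
    (hgen : Algebra.adjoin 𝒪 {l : Λ | ∃ σ i j, l = x σ i j} = ⊤)
    (hdense : ∀ (n : ℕ) (y : R), ∃ l : Λ, y - ι l ∈ maximalIdeal R ^ n)
    (r : GQ →* Matrix (Fin 2) (Fin 2) R)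
    (hrx : ∀ σ i j, r σ i j = ι (x σ i j)) : UnivGen (𝒪 := 𝒪) r := by
  intro A _ _ _ hA φ φ' h
  have := hA.isLocalHom
  obtain ⟨m, hm⟩ := exists_pow_succ_eq_bot hA
  have hφ : IsLocalHom (φ : R →+* A) := algHom_isLocalHom hA.residue_surjective φ
  have hφ' : IsLocalHom (φ' : R →+* A) := algHom_isLocalHom hA.residue_surjective φ'
  have hkill : ∀ (ψ : R →ₐ[𝒪] A), IsLocalHom (ψ : R →+* A) →
      ∀ y ∈ maximalIdeal R ^ (m + 1), ψ y = 0 := by
    intro ψ hψ y hy
    have := map_maximalIdeal_pow_le (ψ : R →+* A) hψ (m + 1) (Ideal.mem_map_of_mem _ hy)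
    rwa [hm, Ideal.mem_bot] at this
  have hcomp : φ.comp ι = φ'.comp ι := by
    apply AlgHom.ext_of_adjoin_eq_top hgen
    rintro l ⟨σ, i, j, rfl⟩
    have := congrArg (fun f : GQ →* Matrix (Fin 2) (Fin 2) A => f σ i j) h
    simp only [mapMat_apply, hrx] at this
    exact this
  ext y
  obtain ⟨l, hl⟩ := hdense (m + 1) y
  have h1 := hkill φ hφ _ hl
  have h2 := hkill φ' hφ' _ hl
  rw [map_sub, sub_eq_zero] at h1 h2
  rw [h1, h2]
  exact congrArg (fun f : Λ →ₐ[𝒪] A => f l) hcomp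

/-- **Step (4), packaged.** -/
theorem exists_universal [IsNoetherianRing R] [IsAdicComplete (maximalIdeal R) R]
    (h𝒟 : IsDeformationCondition 𝒪 𝒟)
    (hmap : NLMap (𝒪 := 𝒪) NL) (hrefl : NLReflect (𝒪 := 𝒪) NL)
    (hgen : Algebra.adjoin 𝒪 {l : Λ | ∃ σ i j, l = x σ i j} = ⊤)
    (hcomap : ∀ n, (maximalIdeal R ^ n).comap (ι : Λ →+* R) = J n)
    (hdense : ∀ (n : ℕ) (y : R), ∃ l : Λ, y - ι l ∈ maximalIdeal R ^ n)
    (hlev : ∀ n, IsLevelIdeal NL 𝒟 x (J (n + 1)))
    (hmin : IsLevelMin NL 𝒟 x J) :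
    ∃ (r : GQ →* Matrix (Fin 2) (Fin 2) R) (hr : MatContinuous r),
      NL r ∧ UnivType r hr 𝒟 ∧ UnivExists NL r 𝒟 ∧ UnivGen (𝒪 := 𝒪) r := by
  obtain ⟨r, hrx, hr⟩ := exists_univRep (NL := NL) (𝒟 := 𝒟) hcomap hlev
  exact ⟨r, hr, univRep_NL hmap hrefl hcomap hdense hlev r hrx,
    univRep_univType h𝒟 hcomap hdense hlev r hr hrx,
    univRep_univExists hcomap hdense hmin r hrx,
    univRep_univGen hgen hdense r hrx⟩

end Glue

section Concrete

variable {𝒪 : Type} [CommRing 𝒪] [IsLocalRing 𝒪] {ρbar : ResidualGaloisRep (ResidueField 𝒪)}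
  (D : RigidData 𝒪 ρbar)

/-- The concrete normal form `IsLift ∧ IsNormalized` is detected by jointly injective families
of local homomorphisms. -/
theorem nlReflect_rigidData :
    NLReflect (𝒪 := 𝒪) (fun A _ _ _ r => D.IsLift r ∧ D.IsNormalized r) := by
  intro A _ _ _ r h
  have key : ∀ a b : A, (∀ (B : Type) [CommRing B] [IsLocalRing B] [Algebra 𝒪 B]
      (φ : A →ₐ[𝒪] B), IsLocalHom (φ : A →+* B) →
        (D.IsLift (mapMat (φ : A →+* B) r) ∧ D.IsNormalized (mapMat (φ : A →+* B) r)) →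
        φ a = φ b) → a = b := by
    intro a b hab
    by_contra hne
    obtain ⟨B, _, _, _, φ, hφ, hφa, hNL⟩ := h (a - b) (sub_ne_zero.mpr hne)
    apply hφa
    rw [map_sub, sub_eq_zero]
    exact hab B φ hφ hNL
  refine ⟨?_, ?_, ?_, ?_⟩
  · obtain ⟨B, _, _, _, φ, hφ, -, hNL⟩ := h 1 one_ne_zero
    refine RigidData.IsLift.of_map φ (fun a ha => ?_) hNL.1
    by_contra hna
    have hu : IsUnit a := by
      by_contra hnu
      exact hna hnu
    exact ha (hu.map φ)
  · refine key _ _ fun B _ _ _ φ hφ hNL => ?_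
    have := hNL.2.1
    rw [mapMat_apply] at this
    rw [map_zero]
    exact this
  · refine key _ _ fun B _ _ _ φ hφ hNL => ?_
    have := hNL.2.2.1
    rw [mapMat_apply] at this
    rw [map_one]
    exact this
  · refine key _ _ fun B _ _ _ φ hφ hNL => ?_
    have := hNL.2.2.2
    rw [mapMat_apply] at this
    rw [AlgHom.commutes]
    exact this

end Concrete

end Fermat.Agent.S53.H13
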