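import Mathlib
import Fermat.Agent.S53.Level
import Fermat.Agent.S53.H13_UniversalRep

/-!
# S53: bridge from the abstract level ideals (`Level.lean`) to the universal representation

Given `H : Lvl.LevelHyp NLP base e` for a point predicate `NLP` on families indexed by
`GQ × Fin 2 × Fin 2` which is *linked* to a normal form `NL` and a condition `𝒟`
(`NLP x ↔ x` is the family of entries of a continuous matrix representation `r` with `NL r` and
`𝒟 (ofMat r)`), the level ideals `Lvl.levelIdeal NLP base n` are level ideals in the sense of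
`H13.IsLevelIdeal` and form a minimal chain in the sense of `H13.IsLevelMin`.
-/

set_option autoImplicit false
set_option linter.unusedSectionVars false
set_option linter.unusedVariables false

open IsLocalRing GaloisRep

namespace Fermat.Agent.S53.H13

open Fermat.Agent.S53 Fermat.Agent.S53.Mat Fermat.Agent.S53.Asm Fermat.Agent.S53.Lvl

section Finite

variable {𝒪 : Type} [CommRing 𝒪] [IsLocalRing 𝒪] [Finite (ResidueField 𝒪)]
  {A : Type} [CommRing A] [IsLocalRing A] [Algebra 𝒪 A]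

/-- An Artinian test algebra over a local ring with finite residue field is finite. -/
theorem finite_of_isArtinianTestAlgebra (hA : IsArtinianTestAlgebra 𝒪 A) : Finite A := by
  have := hA.isArtinian
  have := hA.isLocalHom
  obtain ⟨m, hm⟩ := exists_pow_succ_eq_bot hA
  have hres : Finite (A ⧸ maximalIdeal A) := by
    have h1 : Function.Surjective (ResidueField.map (algebraMap 𝒪 A)) := by
      intro y
      obtain ⟨a, ha⟩ := hA.residue_surjective y
      exact ⟨residue 𝒪 a, by rw [ResidueField.map_residue]; exact ha⟩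
    exact Finite.of_surjective _ h1
  have h2 : Finite (A ⧸ maximalIdeal A ^ (m + 1)) :=
    Ideal.finite_quotient_pow (IsNoetherian.noetherian (maximalIdeal A)) (m + 1)
  rw [hm] at h2
  exact Finite.of_equiv _ (RingEquiv.quotientBot A).toEquiv

end Finite

section Bridge

variable {𝒪 : Type} [CommRing 𝒪] [IsLocalRing 𝒪] [Finite (ResidueField 𝒪)]
  {NL : ∀ ⦃A : Type⦄ [CommRing A] [IsLocalRing A] [Algebra 𝒪 A],
    (GQ →* Matrix (Fin 2) (Fin 2) A) → Prop}
  {𝒟 : ∀ ⦃A : Type⦄ [CommRing A] [IsLocalRing A] [Algebra 𝒪 A], GaloisRepAdic A → Prop}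
  {NLP : PointPred 𝒪 (GQ × Fin 2 × Fin 2)} {base : GQ × Fin 2 × Fin 2 → 𝒪} {e : ℕ}

/-- The generic matrices over the polynomial ring. -/
noncomputable def genMat (𝒪 : Type) [CommRing 𝒪] :
    GQ → Matrix (Fin 2) (Fin 2) (MvPolynomial (GQ × Fin 2 × Fin 2) 𝒪) :=
  fun σ => Matrix.of fun i j => MvPolynomial.X (σ, i, j)

omit [IsLocalRing 𝒪] [Finite (ResidueField 𝒪)] in
@[simp] theorem genMat_apply (σ : GQ) (i j : Fin 2) :
    genMat 𝒪 σ i j = MvPolynomial.X (σ, i, j) := rfl

omit [IsLocalRing 𝒪] [Finite (ResidueField 𝒪)] in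
/-- The entries of the generic matrices generate the polynomial ring. -/
theorem adjoin_genMat :
    Algebra.adjoin 𝒪 {l : MvPolynomial (GQ × Fin 2 × Fin 2) 𝒪 | ∃ σ i j, l = genMat 𝒪 σ i j}
      = ⊤ := by
  have h : {l : MvPolynomial (GQ × Fin 2 × Fin 2) 𝒪 | ∃ σ i j, l = genMat 𝒪 σ i j}
      = Set.range MvPolynomial.X := by
    ext l
    constructor
    · rintro ⟨σ, i, j, rfl⟩
      exact ⟨(σ, i, j), rfl⟩
    · rintro ⟨⟨σ, i, j⟩, rfl⟩
      exact ⟨σ, i, j, rfl⟩
  rw [h]
  exact MvPolynomial.adjoin_range_X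

/-- The link between the point predicate and the matrix-level data. -/
def Linked (NL : ∀ ⦃A : Type⦄ [CommRing A] [IsLocalRing A] [Algebra 𝒪 A],
      (GQ →* Matrix (Fin 2) (Fin 2) A) → Prop)
    (𝒟 : ∀ ⦃A : Type⦄ [CommRing A] [IsLocalRing A] [Algebra 𝒪 A], GaloisRepAdic A → Prop)
    (NLP : PointPred 𝒪 (GQ × Fin 2 × Fin 2)) : Prop :=
  ∀ ⦃A : Type⦄ [CommRing A] [IsLocalRing A] [Algebra 𝒪 A] (x : GQ × Fin 2 × Fin 2 → A),
    NLP x ↔ ∃ (r : GQ →* Matrix (Fin 2) (Fin 2) A) (hr : MatContinuous r),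
      (∀ σ i j, r σ i j = x (σ, i, j)) ∧ NL r ∧ 𝒟 (ofMat r hr)

/-- The level ideals of `Level.lean` are level ideals in the sense of `IsLevelIdeal`. -/
theorem isLevelIdeal_levelIdeal (H : LevelHyp NLP base e) (hlink : Linked NL 𝒟 NLP) (n : ℕ) :
    IsLevelIdeal NL 𝒟 (genMat 𝒪) (levelIdeal NLP base (n + 1)) := by
  have hg := levelIdeal_good H (Nat.succ_ne_zero n)
  have hloc : IsLocalRing (MvPolynomial (GQ × Fin 2 × Fin 2) 𝒪 ⧸ levelIdeal NLP base (n + 1)) :=
    hg.adm.isLocalRing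
  have hfin := hg.finite
  have hA := hg.adm.isArtinianTestAlgebra
  obtain ⟨r, hr, hrx, hNL, hD⟩ := (hlink _).mp hg.nl
  refine ⟨_, inferInstance, hloc, inferInstance, hA, r, hr,
    Ideal.Quotient.mkₐ 𝒪 (levelIdeal NLP base (n + 1)), Ideal.Quotient.mkₐ_surjective 𝒪 _, ?_,
    fun σ i j => (hrx σ i j).symm, hNL, hD⟩
  ext p
  rw [RingHom.mem_ker]
  exact Ideal.Quotient.eq_zero_iff_mem

/-- The chain of level ideals of `Level.lean` is minimal in the sense of `IsLevelMin`. -/
theorem isLevelMin_levelIdeal (H : LevelHyp NLP base e) (hlink : Linked NL 𝒟 NLP) :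
    IsLevelMin NL 𝒟 (genMat 𝒪) (levelIdeal NLP base) := by
  intro n A _ _ _ hA hpow s hs hNL hD
  have hn : n ≠ 0 := by
    rintro rfl
    rw [pow_zero, Ideal.one_eq_top] at hpow
    exact top_ne_bot hpow
  have := finite_of_isArtinianTestAlgebra hA
  have hx : NLP (fun p : GQ × Fin 2 × Fin 2 => s p.1 p.2.1 p.2.2) :=
    (hlink _).mpr ⟨s, hs, fun _ _ _ => rfl, hNL, hD⟩
  refine ⟨MvPolynomial.aeval (fun p : GQ × Fin 2 × Fin 2 => s p.1 p.2.1 p.2.2), ?_, ?_⟩
  · intro σ i j
    rw [genMat_apply, MvPolynomial.aeval_X]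
  · exact levelIdeal_le_ker H hn hA hpow hx

/-- **Step (4) from the level hypotheses.** Given the completion `R` of the polynomial ring
along the chain of level ideals, the universal matrix representation over `R` has all the
properties required by the final assembly. -/
theorem exists_universal_of_levelHyp (h𝒟 : IsDeformationCondition 𝒪 𝒟)
    (hmap : NLMap (𝒪 := 𝒪) NL) (hrefl : NLReflect (𝒪 := 𝒪) NL)
    (H : LevelHyp NLP base e) (hlink : Linked NL 𝒟 NLP)
    {R : Type} [CommRing R] [IsLocalRing R] [Algebra 𝒪 R] [IsLocalHom (algebraMap 𝒪 R)]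
    [IsNoetherianRing R] [IsAdicComplete (maximalIdeal R) R]
    (ι : MvPolynomial (GQ × Fin 2 × Fin 2) 𝒪 →ₐ[𝒪] R)
    (hcomap : ∀ n, (maximalIdeal R ^ n).comap
      (ι : MvPolynomial (GQ × Fin 2 × Fin 2) 𝒪 →+* R) = levelIdeal NLP base n)
    (hdense : ∀ (n : ℕ) (y : R), ∃ l, y - ι l ∈ maximalIdeal R ^ n) :
    ∃ (r : GQ →* Matrix (Fin 2) (Fin 2) R) (hr : MatContinuous r),
      NL r ∧ UnivType r hr 𝒟 ∧ UnivExists NL r 𝒟 ∧ UnivGen (𝒪 := 𝒪) r :=
  exists_universal h𝒟 hmap hrefl adjoin_genMat hcomap hdense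
    (isLevelIdeal_levelIdeal H hlink) (isLevelMin_levelIdeal H hlink)

end Bridge

end Fermat.Agent.S53.H13
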