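import Fermat.Agent.S53.H21_NL
import Fermat.Agent.S53.Level

/-!
# S53: the concrete point predicate fed into the level construction

Index set `Idx = GQ × Fin 2 × Fin 2` (matrix entries); `NLfam D 𝒟 x` says that the family `x`
is the family of entries of a continuous normalized lift (in the sense of `NLof D`) of
type `𝒟`.
-/

set_option autoImplicit false
set_option linter.unusedSectionVars false

namespace Fermat.Agent.S53

open IsLocalRing GaloisRep Mat Lvl

/-- The index set of matrix entries. -/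
abbrev Idx : Type := GQ × Fin 2 × Fin 2

variable {𝒪 : Type} [CommRing 𝒪] [IsLocalRing 𝒪] {ρbar : ResidualGaloisRep (ResidueField 𝒪)}

/-- The base family in `𝒪` (entrywise lifts of the residual matrices). -/
def RigidData.base (D : RigidData 𝒪 ρbar) : Idx → 𝒪 :=
  fun p => D.rbt p.1 p.2.1 p.2.2

@[simp] lemma RigidData.base_apply (D : RigidData 𝒪 ρbar) (σ : GQ) (i j : Fin 2) :
    D.base (σ, i, j) = D.rbt σ i j := rfl

/-- The family of entries of a matrix-valued function. -/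
def famOf {A : Type} (r : GQ → Matrix (Fin 2) (Fin 2) A) : Idx → A :=
  fun p => r p.1 p.2.1 p.2.2

@[simp] lemma famOf_apply {A : Type} (r : GQ → Matrix (Fin 2) (Fin 2) A) (σ : GQ) (i j : Fin 2) :
    famOf r (σ, i, j) = r σ i j := rfl

/-- The concrete point predicate: `x` is the family of entries of a continuous normalized lift
of type `𝒟`. -/
def NLfam (D : RigidData 𝒪 ρbar)
    (𝒟 : ∀ ⦃A : Type⦄ [CommRing A] [IsLocalRing A] [Algebra 𝒪 A], GaloisRepAdic A → Prop) :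
    PointPred 𝒪 Idx :=
  fun A _ _ _ x => ∃ (r : GQ →* Matrix (Fin 2) (Fin 2) A) (hr : MatContinuous r),
    (∀ σ i j, r σ i j = x (σ, i, j)) ∧ NLof D r ∧ 𝒟 (ofMat r hr)

lemma nlfam_iff (D : RigidData 𝒪 ρbar)
    (𝒟 : ∀ ⦃A : Type⦄ [CommRing A] [IsLocalRing A] [Algebra 𝒪 A], GaloisRepAdic A → Prop)
    {A : Type} [CommRing A] [IsLocalRing A] [Algebra 𝒪 A] (x : Idx → A) :
    NLfam D 𝒟 x ↔ ∃ (r : GQ →* Matrix (Fin 2) (Fin 2) A) (hr : MatContinuous r),
      (∀ σ i j, r σ i j = x (σ, i, j)) ∧ NLof D r ∧ 𝒟 (ofMat r hr) := Iff.rfl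

lemma nlfam_famOf {D : RigidData 𝒪 ρbar}
    {𝒟 : ∀ ⦃A : Type⦄ [CommRing A] [IsLocalRing A] [Algebra 𝒪 A], GaloisRepAdic A → Prop}
    {A : Type} [CommRing A] [IsLocalRing A] [Algebra 𝒪 A]
    {r : GQ →* Matrix (Fin 2) (Fin 2) A} (hr : MatContinuous r)
    (hn : NLof D r) (hD : 𝒟 (ofMat r hr)) :
    NLfam D 𝒟 (famOf (r : GQ → Matrix (Fin 2) (Fin 2) A)) :=
  ⟨r, hr, fun _ _ _ => rfl, hn, hD⟩

/-- If `x` satisfies `NLfam` and `r` is any monoid hom with entries `x`, then `r` is a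
continuous normalized lift of type `𝒟`. -/
lemma NLfam.of_entries {D : RigidData 𝒪 ρbar}
    {𝒟 : ∀ ⦃A : Type⦄ [CommRing A] [IsLocalRing A] [Algebra 𝒪 A], GaloisRepAdic A → Prop}
    {A : Type} [CommRing A] [IsLocalRing A] [Algebra 𝒪 A] {x : Idx → A} (hx : NLfam D 𝒟 x)
    (r : GQ →* Matrix (Fin 2) (Fin 2) A) (hrx : ∀ σ i j, r σ i j = x (σ, i, j)) :
    ∃ hr : MatContinuous r, NLof D r ∧ 𝒟 (ofMat r hr) := by
  obtain ⟨r', hr', h1, h2, h3⟩ := hx
  have : r' = r := by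
    ext σ i j
    rw [h1, hrx]
  subst this
  exact ⟨hr', h2, h3⟩

end Fermat.Agent.S53
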