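import Mathlib
import Fermat.Agent.S53.H28_Fam
import Fermat.Agent.S53.H13_LevelBridge

/-!
# S53: the work packages (WP-U2a), (WP-U2b), (WP-U2c) of the integration skeleton

The universal matrix representation over the completion `R` of `Λ = MvPolynomial Idx 𝒪` along
the level ideals of the concrete point predicate `NLfam D 𝒟`: existence as a continuous
normalised monoid homomorphism, type `𝒟` of all Artinian quotients, existence and uniqueness of
classifying maps to Artinian test algebras.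
-/

set_option autoImplicit false
set_option linter.unusedSectionVars false
set_option linter.unusedVariables false

open IsLocalRing GaloisRep

namespace Fermat.Agent.S53.H13

open Fermat.Agent.S53 Fermat.Agent.S53.Mat Fermat.Agent.S53.Asm Fermat.Agent.S53.Lvl

variable {𝒪 : Type} [CommRing 𝒪] [IsLocalRing 𝒪] {ρbar : ResidualGaloisRep (ResidueField 𝒪)}
  {𝒟 : ∀ ⦃A : Type⦄ [CommRing A] [IsLocalRing A] [Algebra 𝒪 A], GaloisRepAdic A → Prop}

/-- The concrete point predicate is linked to `NLof D` and `𝒟`. -/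
theorem linked_NLfam (D : RigidData 𝒪 ρbar) : Linked (NLof D) 𝒟 (NLfam D 𝒟) :=
  fun _ _ _ _ _ => Iff.rfl

/-- `NLof D` is detected by jointly injective families of local homomorphisms. -/
theorem nlReflect_NLof (D : RigidData 𝒪 ρbar) : NLReflect (𝒪 := 𝒪) (NLof D) :=
  nlReflect_rigidData D

/-- (WP-U2a) the universal representation over the completion: monoid hom with entries
`ι (X (σ, i, j))`, continuity, normal form, type `𝒟` of all Artinian quotients. -/
theorem univRep_of_completion [IsNoetherianRing 𝒪] [Finite (ResidueField 𝒪)]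
    (D : RigidData 𝒪 ρbar) (h𝒟 : IsDeformationCondition 𝒪 𝒟) {e : ℕ}
    (H : LevelHyp (NLfam D 𝒟) D.base e)
    (R : Type) [CommRing R] [IsLocalRing R] [IsNoetherianRing R]
    [IsAdicComplete (maximalIdeal R) R] [Algebra 𝒪 R] [IsLocalHom (algebraMap 𝒪 R)]
    (hres : Function.Surjective (residue R ∘ algebraMap 𝒪 R))
    (ι : MvPolynomial Idx 𝒪 →ₐ[𝒪] R)
    (hcomap : ∀ n, (maximalIdeal R ^ n).comap (ι : MvPolynomial Idx 𝒪 →+* R) =
      levelIdeal (NLfam D 𝒟) D.base n)
    (hdense : ∀ n (x : R), ∃ l : MvPolynomial Idx 𝒪, x - ι l ∈ maximalIdeal R ^ n) :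
    ∃ (r : GQ →* Matrix (Fin 2) (Fin 2) R) (hr : MatContinuous r),
      (∀ σ i j, r σ i j = ι (MvPolynomial.X (σ, i, j))) ∧ NLof D r ∧ Asm.UnivType r hr 𝒟 := by
  have hlev : ∀ n, IsLevelIdeal (NLof D) 𝒟 (genMat 𝒪) (levelIdeal (NLfam D 𝒟) D.base (n + 1)) :=
    isLevelIdeal_levelIdeal H (linked_NLfam D)
  obtain ⟨r, hrx, hr⟩ := exists_univRep (NL := NLof D) (𝒟 := 𝒟) hcomap hlev
  exact ⟨r, hr, hrx, univRep_NL (nlMap D) (nlReflect_NLof D) hcomap hdense hlev r hrx,
    univRep_univType h𝒟 hcomap hdense hlev r hr hrx⟩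

/-- (WP-U2b) existence part of the universal property at Artinian level. -/
theorem univExists_of_completion [IsNoetherianRing 𝒪] [Finite (ResidueField 𝒪)]
    (D : RigidData 𝒪 ρbar) (h𝒟 : IsDeformationCondition 𝒪 𝒟) {e : ℕ}
    (H : LevelHyp (NLfam D 𝒟) D.base e)
    (R : Type) [CommRing R] [IsLocalRing R] [IsNoetherianRing R]
    [IsAdicComplete (maximalIdeal R) R] [Algebra 𝒪 R] [IsLocalHom (algebraMap 𝒪 R)]
    (hres : Function.Surjective (residue R ∘ algebraMap 𝒪 R))
    (ι : MvPolynomial Idx 𝒪 →ₐ[𝒪] R)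
    (hcomap : ∀ n, (maximalIdeal R ^ n).comap (ι : MvPolynomial Idx 𝒪 →+* R) =
      levelIdeal (NLfam D 𝒟) D.base n)
    (hdense : ∀ n (x : R), ∃ l : MvPolynomial Idx 𝒪, x - ι l ∈ maximalIdeal R ^ n)
    (r : GQ →* Matrix (Fin 2) (Fin 2) R)
    (hrι : ∀ σ i j, r σ i j = ι (MvPolynomial.X (σ, i, j))) :
    Asm.UnivExists (NLof D) r 𝒟 :=
  univRep_univExists (x := genMat 𝒪) hcomap hdense (isLevelMin_levelIdeal H (linked_NLfam D))
    r hrι

/-- (WP-U2c) uniqueness part of the universal property at Artinian level. -/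
theorem univGen_of_completion
    (R : Type) [CommRing R] [IsLocalRing R] [Algebra 𝒪 R]
    (ι : MvPolynomial Idx 𝒪 →ₐ[𝒪] R)
    (hdense : ∀ n (x : R), ∃ l : MvPolynomial Idx 𝒪, x - ι l ∈ maximalIdeal R ^ n)
    (r : GQ →* Matrix (Fin 2) (Fin 2) R)
    (hrι : ∀ σ i j, r σ i j = ι (MvPolynomial.X (σ, i, j))) :
    Asm.UnivGen (𝒪 := 𝒪) r :=
  univRep_univGen (x := genMat 𝒪) adjoin_genMat hdense r hrι

end Fermat.Agent.S53.H13
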