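import Mathlib
import Fermat.Prelude.Def_GaloisRep_DeformationCondition

/-!
# S53 helper (helper17): Artinian test algebras over a ring with finite residue field are finite
-/

set_option autoImplicit false

open IsLocalRing GaloisRep

namespace Fermat.Agent.S53

variable {𝒪 : Type} [CommRing 𝒪] [IsLocalRing 𝒪]

/-- The residue field of an Artinian test algebra is finite if that of `𝒪` is. -/
theorem H17.finite_residueField_of_testAlgebra [Finite (ResidueField 𝒪)]
    {A : Type} [CommRing A] [IsLocalRing A] [Algebra 𝒪 A]
    (hA : IsArtinianTestAlgebra 𝒪 A) : Finite (ResidueField A) := by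
  have : IsLocalHom (algebraMap 𝒪 A) := hA.isLocalHom
  have hsurj : Function.Surjective (ResidueField.map (algebraMap 𝒪 A)) := by
    intro y
    obtain ⟨o, ho⟩ := hA.residue_surjective y
    refine ⟨residue 𝒪 o, ?_⟩
    rw [ResidueField.map_residue]
    exact ho
  exact Finite.of_surjective _ hsurj

/-- An Artinian local ring with finite residue field is finite. -/
theorem H17.finite_of_artinian_of_finite_residueField
    {A : Type} [CommRing A] [IsLocalRing A] [IsArtinianRing A] [Finite (ResidueField A)] :
    Finite A := by
  have h : Finite (A ⧸ (⊥ : Ideal A)) := by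
    rw [IsLocalRing.finite_quotient_iff]
    obtain ⟨n, hn⟩ := IsArtinianRing.isNilpotent_jacobson_bot (R := A)
    rw [jacobson_eq_maximalIdeal _ bot_ne_top] at hn
    exact ⟨n, le_of_eq hn⟩
  exact Finite.of_equiv _ (RingEquiv.quotientBot A).toEquiv

/-- **Artinian test algebras are finite** when the residue field of `𝒪` is finite. -/
lemma finite_of_isArtinianTestAlgebra [Finite (ResidueField 𝒪)] [IsNoetherianRing 𝒪]
    {A : Type} [CommRing A] [IsLocalRing A] [Algebra 𝒪 A]
    (hA : IsArtinianTestAlgebra 𝒪 A) : Finite A := by
  have := hA.isArtinian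
  have := H17.finite_residueField_of_testAlgebra hA
  exact H17.finite_of_artinian_of_finite_residueField

/-- The maximal ideal of an Artinian local ring is nilpotent. -/
theorem H17.exists_maximalIdeal_pow_eq_bot
    {A : Type} [CommRing A] [IsLocalRing A] [IsArtinianRing A] :
    ∃ n : ℕ, maximalIdeal A ^ n = ⊥ := by
  obtain ⟨n, hn⟩ := IsArtinianRing.isNilpotent_jacobson_bot (R := A)
  rw [jacobson_eq_maximalIdeal _ bot_ne_top] at hn
  exact ⟨n, hn⟩

end Fermat.Agent.S53
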