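import Fermat.Agent.S53.Assembly
import Fermat.Agent.S53.H28_Fam
import Fermat.Agent.S53.H17_Finite

/-!
# S53 helper (helper17): WP-U2c, maps out of the completed ring are determined by the entries

If the image of `ι : MvPolynomial Idx 𝒪 →ₐ[𝒪] R` is dense for the `𝔪_R`-adic topology and the
matrix representation `r` has entries `ι (X (σ, i, j))`, then `𝒪`-algebra homomorphisms from `R`
to Artinian test algebras are determined by their values on the entries of `r`.
-/

set_option autoImplicit false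

open IsLocalRing GaloisRep

namespace Fermat.Agent.S53

open Mat Lvl

variable {𝒪 : Type} [CommRing 𝒪] [IsLocalRing 𝒪]

/-- A local homomorphism maps powers of the maximal ideal into powers of the maximal ideal. -/
theorem H17.map_mem_maximalIdeal_pow {R A : Type} [CommRing R] [IsLocalRing R]
    [CommRing A] [IsLocalRing A] (φ : R →+* A) [IsLocalHom φ] (n : ℕ) {x : R}
    (hx : x ∈ maximalIdeal R ^ n) : φ x ∈ maximalIdeal A ^ n := by
  have h1 : (maximalIdeal R).map φ ≤ maximalIdeal A := by
    rw [Ideal.map_le_iff_le_comap]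
    intro y hy
    rw [Ideal.mem_comap, mem_maximalIdeal, mem_nonunits_iff]
    intro hu
    exact hy (isUnit_of_map_unit φ y hu)
  have h2 : (maximalIdeal R ^ n).map φ ≤ maximalIdeal A ^ n := by
    rw [Ideal.map_pow]
    exact Ideal.pow_right_mono h1 n
  exact h2 (Ideal.mem_map_of_mem φ hx)

/-- Abstract form of WP-U2c: two `𝒪`-algebra homomorphisms from `R` to an Artinian test algebra
which agree on a family `y` whose polynomial expressions are `𝔪_R`-adically dense are equal. -/
theorem H17.algHom_ext_of_dense {ι' : Type} {R : Type} [CommRing R] [IsLocalRing R] [Algebra 𝒪 R]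
    (ι : MvPolynomial ι' 𝒪 →ₐ[𝒪] R)
    (hdense : ∀ n (x : R), ∃ l : MvPolynomial ι' 𝒪, x - ι l ∈ maximalIdeal R ^ n)
    {A : Type} [CommRing A] [IsLocalRing A] [Algebra 𝒪 A] (hA : IsArtinianTestAlgebra 𝒪 A)
    (φ φ' : R →ₐ[𝒪] A) (h : ∀ i, φ (ι (MvPolynomial.X i)) = φ' (ι (MvPolynomial.X i))) :
    φ = φ' := by
  have hloc : IsLocalHom (algebraMap 𝒪 A) := hA.isLocalHom
  have hφ : IsLocalHom (φ : R →+* A) := Asm.algHom_isLocalHom hA.residue_surjective φ
  have hφ' : IsLocalHom (φ' : R →+* A) := Asm.algHom_isLocalHom hA.residue_surjective φ'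
  have hA' := hA.isArtinian
  obtain ⟨n, hn⟩ := H17.exists_maximalIdeal_pow_eq_bot (A := A)
  have hcomp : φ.comp ι = φ'.comp ι := by
    apply MvPolynomial.algHom_ext
    intro i
    simpa using h i
  ext x
  obtain ⟨l, hl⟩ := hdense n x
  have h1 : (φ : R →+* A) (x - ι l) ∈ maximalIdeal A ^ n :=
    H17.map_mem_maximalIdeal_pow (φ : R →+* A) n hl
  have h2 : (φ' : R →+* A) (x - ι l) ∈ maximalIdeal A ^ n :=
    H17.map_mem_maximalIdeal_pow (φ' : R →+* A) n hl
  rw [hn, Ideal.mem_bot] at h1 h2
  have h3 : φ (ι l) = φ' (ι l) := by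
    have := congrArg (fun f : MvPolynomial ι' 𝒪 →ₐ[𝒪] A => f l) hcomp
    simpa using this
  have h4 : φ x = φ (ι l) := by
    have : φ (x - ι l) = 0 := h1
    rw [map_sub, sub_eq_zero] at this
    exact this
  have h5 : φ' x = φ' (ι l) := by
    have : φ' (x - ι l) = 0 := h2
    rw [map_sub, sub_eq_zero] at this
    exact this
  rw [h4, h5, h3]

/-- **WP-U2c**: the universal representation over the completed ring generates: two
`𝒪`-algebra homomorphisms to an Artinian test algebra agreeing on the entries of `r` are equal. -/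
theorem univGen_of_completion (R : Type) [CommRing R] [IsLocalRing R] [Algebra 𝒪 R]
    (ι : MvPolynomial Idx 𝒪 →ₐ[𝒪] R)
    (hdense : ∀ n (x : R), ∃ l : MvPolynomial Idx 𝒪, x - ι l ∈ maximalIdeal R ^ n)
    (r : GQ →* Matrix (Fin 2) (Fin 2) R)
    (hrι : ∀ σ i j, r σ i j = ι (MvPolynomial.X (σ, i, j))) :
    Asm.UnivGen (𝒪 := 𝒪) r := by
  intro A _ _ _ hA φ φ' h
  refine H17.algHom_ext_of_dense ι hdense hA φ φ' ?_
  rintro ⟨σ, i, j⟩
  have := congrArg (fun s : GQ →* Matrix (Fin 2) (Fin 2) A => s σ i j) h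
  simp only [mapMat_apply] at this
  rw [← hrι]
  exact this

end Fermat.Agent.S53
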