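import Fermat.Agent.S53.H21_Tangent
import Fermat.Agent.S53.H28_Fam

/-!
# S53: base point and generator bound for the concrete point predicate `NLfam`

* `basePoint_NLfam` (WP-B): the residual matrices give a point of `NLfam D 𝒟` over `k`.
* `genBound_NLfam` (WP-G): the maximal ideals of the good quotients are generated by a bounded
  number of elements (from `TangentFinite`).
-/

set_option autoImplicit false
set_option linter.unusedSectionVars false

namespace Fermat.Agent.S53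

open IsLocalRing GaloisRep Mat Lvl

variable {𝒪 : Type} [CommRing 𝒪] [IsLocalRing 𝒪] {ρbar : ResidualGaloisRep (ResidueField 𝒪)}
  {𝒟 : ∀ ⦃A : Type⦄ [CommRing A] [IsLocalRing A] [Algebra 𝒪 A], GaloisRepAdic A → Prop}

/-- (WP-B) The residual matrices give a point of `NLfam D 𝒟` over `k`. -/
theorem basePoint_NLfam (D : RigidData 𝒪 ρbar) (h𝒟 : IsDeformationCondition 𝒪 𝒟)
    (hbar : 𝒟 (GaloisRepAdic.ofResidualGaloisRep ρbar)) :
    NLfam D 𝒟 (fun i => IsLocalRing.residue 𝒪 (D.base i)) := by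
  refine ⟨resMatOf ρbar D.b, matContinuous_resMatOf D, fun σ i j => ?_, nlof_resMatOf D,
    cond_resMatOf D h𝒟 hbar⟩
  rw [resMatOf_apply, ← D.rbt_spec]
  rfl

/-- (WP-G) Generator bound for the good quotients. -/
theorem genBound_NLfam [IsNoetherianRing 𝒪] [Finite (ResidueField 𝒪)] (D : RigidData 𝒪 ρbar)
    (h𝒟 : IsDeformationCondition 𝒪 𝒟) (hfin : TangentFinite 𝒪 ρbar 𝒟) :
    ∃ e : ℕ, GenBound (NLfam D 𝒟) D.base e := by
  classical
  obtain ⟨s𝒪, hs𝒪⟩ : (maximalIdeal 𝒪).FG := IsNoetherian.noetherian _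
  refine ⟨tangentBound D 𝒟 + s𝒪.card, fun n J hJ => ?_⟩
  haveI := hJ.adm.isLocalRing
  haveI := hJ.finite
  have hR : IsArtinianTestAlgebra 𝒪 (MvPolynomial Idx 𝒪 ⧸ J) := hJ.adm.isArtinianTestAlgebra
  obtain ⟨r, hr, hrx, hNL, hD⟩ := hJ.nl
  have hgen : ∀ φ ψ : @AlgHom 𝒪 (MvPolynomial Idx 𝒪 ⧸ J) (DualNumber (ResidueField 𝒪)) _ _ _ _
      (Tangent.tanAlgebra 𝒪),
      mapMat (φ : (MvPolynomial Idx 𝒪 ⧸ J) →+* DualNumber (ResidueField 𝒪)) r =
        mapMat (ψ : (MvPolynomial Idx 𝒪 ⧸ J) →+* DualNumber (ResidueField 𝒪)) r → φ = ψ := by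
    letI := Tangent.tanAlgebra 𝒪
    intro φ ψ h
    apply Ideal.Quotient.algHom_ext
    apply MvPolynomial.algHom_ext
    rintro ⟨σ, i, j⟩
    have h1 := congrFun (congrFun (DFunLike.congr_fun h σ) i) j
    rw [mapMat_apply, mapMat_apply, hrx] at h1
    exact h1
  obtain ⟨s, hs, hspan⟩ := exists_generators_of_nl D h𝒟 hfin s𝒪.card ⟨s𝒪, le_rfl, hs𝒪⟩ hR r hr
    hNL hD hgen
  exact ⟨s, hs, hspan.trans hJ.adm.maximalIdeal_eq⟩

end Fermat.Agent.S53
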