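import Fermat.Agent.S53.MatRep

/-!
# S53: elementary facts on `2 × 2` matrices over a commutative (local) ring
-/

set_option autoImplicit false

noncomputable section

namespace Fermat.Agent.S53

open IsLocalRing Mat

/-- `2 × 2` matrices. -/
abbrev M2 (A : Type) : Type := Matrix (Fin 2) (Fin 2) A

section EntriesIn

variable {A : Type} [CommRing A]

/-- All entries of the matrix lie in the ideal `I`. -/
def EntriesIn (I : Ideal A) (m : M2 A) : Prop := ∀ i j, m i j ∈ I

lemma EntriesIn.zero (I : Ideal A) : EntriesIn I (0 : M2 A) := fun _ _ => I.zero_mem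

lemma EntriesIn.add {I : Ideal A} {m n : M2 A} (hm : EntriesIn I m) (hn : EntriesIn I n) :
    EntriesIn I (m + n) := fun i j => I.add_mem (hm i j) (hn i j)

lemma EntriesIn.neg {I : Ideal A} {m : M2 A} (hm : EntriesIn I m) :
    EntriesIn I (-m) := fun i j => I.neg_mem (hm i j)

lemma EntriesIn.sub {I : Ideal A} {m n : M2 A} (hm : EntriesIn I m) (hn : EntriesIn I n) :
    EntriesIn I (m - n) := fun i j => I.sub_mem (hm i j) (hn i j)

lemma EntriesIn.mul_left {I : Ideal A} {m : M2 A} (hm : EntriesIn I m) (n : M2 A) :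
    EntriesIn I (n * m) := fun i j => by
  rw [Matrix.mul_apply]
  exact I.sum_mem fun l _ => I.mul_mem_left _ (hm l j)

lemma EntriesIn.mul_right {I : Ideal A} {m : M2 A} (hm : EntriesIn I m) (n : M2 A) :
    EntriesIn I (m * n) := fun i j => by
  rw [Matrix.mul_apply]
  exact I.sum_mem fun l _ => I.mul_mem_right _ (hm i l)

lemma EntriesIn.smul {I : Ideal A} {m : M2 A} (hm : EntriesIn I m) (a : A) :
    EntriesIn I (a • m) := fun i j => by
  rw [Matrix.smul_apply, smul_eq_mul]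
  exact I.mul_mem_left _ (hm i j)

lemma EntriesIn.smul_of_mem {I : Ideal A} (m : M2 A) {a : A} (ha : a ∈ I) :
    EntriesIn I (a • m) := fun i j => by
  rw [Matrix.smul_apply, smul_eq_mul]
  exact I.mul_mem_right _ ha

lemma EntriesIn.mono {I J : Ideal A} (h : I ≤ J) {m : M2 A} (hm : EntriesIn I m) :
    EntriesIn J m := fun i j => h (hm i j)

/-- Congruence of products modulo an ideal. -/
lemma EntriesIn.mul_sub_mul {I : Ideal A} {m m' n n' : M2 A} (hm : EntriesIn I (m - m'))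
    (hn : EntriesIn I (n - n')) : EntriesIn I (m * n - m' * n') := by
  have : m * n - m' * n' = (m - m') * n + m' * (n - n') := by noncomm_ring
  rw [this]
  exact (hm.mul_right _).add (hn.mul_left _)

lemma EntriesIn.map {B : Type} [CommRing B] (φ : A →+* B) {I : Ideal A} {J : Ideal B}
    (h : ∀ a ∈ I, φ a ∈ J) {m : M2 A} (hm : EntriesIn I m) : EntriesIn J (φ.mapMatrix m) :=
  fun i j => h _ (hm i j)

end EntriesIn

section Conj

variable {G : Type} [Monoid G] {A : Type} [CommRing A]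

/-- Conjugation of a matrix-valued monoid hom by an invertible matrix. -/
def conjRep (u : (M2 A)ˣ) (r : G →* M2 A) : G →* M2 A where
  toFun g := (u : M2 A) * r g * ((u⁻¹ : (M2 A)ˣ) : M2 A)
  map_one' := by simp
  map_mul' g h := by
    rw [map_mul]
    have h1 : ((u⁻¹ : (M2 A)ˣ) : M2 A) * (u : M2 A) = 1 := u.inv_mul
    calc (u : M2 A) * (r g * r h) * ((u⁻¹ : (M2 A)ˣ) : M2 A)
        = (u : M2 A) * r g * (1 : M2 A) * r h * ((u⁻¹ : (M2 A)ˣ) : M2 A) := by noncomm_ring
      _ = (u : M2 A) * r g * (((u⁻¹ : (M2 A)ˣ) : M2 A) * (u : M2 A)) * r h *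
            ((u⁻¹ : (M2 A)ˣ) : M2 A) := by rw [h1]
      _ = _ := by noncomm_ring

@[simp] lemma conjRep_apply (u : (M2 A)ˣ) (r : G →* M2 A) (g : G) :
    conjRep u r g = (u : M2 A) * r g * ((u⁻¹ : (M2 A)ˣ) : M2 A) := rfl

lemma conjRep_mul_eq (u : (M2 A)ˣ) (r : G →* M2 A) (g : G) :
    conjRep u r g * (u : M2 A) = (u : M2 A) * r g := by
  rw [conjRep_apply, mul_assoc, Units.inv_mul, mul_one]

lemma conjRep_one (r : G →* M2 A) : conjRep (1 : (M2 A)ˣ) r = r := by
  ext g : 1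
  simp

lemma conjRep_conjRep (u v : (M2 A)ˣ) (r : G →* M2 A) :
    conjRep u (conjRep v r) = conjRep (u * v) r := by
  ext g : 1
  simp only [conjRep_apply, Units.val_mul, mul_inv_rev]
  noncomm_ring

/-- If `u ≡ 1` modulo `I` then `u⁻¹ ≡ 1` modulo `I`. -/
lemma entriesIn_inv_sub_one {I : Ideal A} (u : (M2 A)ˣ) (hu : EntriesIn I ((u : M2 A) - 1)) :
    EntriesIn I (((u⁻¹ : (M2 A)ˣ) : M2 A) - 1) := by
  have : ((u⁻¹ : (M2 A)ˣ) : M2 A) - 1 = -(((u⁻¹ : (M2 A)ˣ) : M2 A) * ((u : M2 A) - 1)) := by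
    rw [mul_sub, Units.inv_mul, mul_one]; abel
  rw [this]
  exact (hu.mul_left _).neg

/-- If `u ≡ 1` modulo `I` then conjugation by `u` is the identity modulo `I`. -/
lemma entriesIn_conj_sub {I : Ideal A} (u : (M2 A)ˣ) (hu : EntriesIn I ((u : M2 A) - 1))
    (m : M2 A) : EntriesIn I ((u : M2 A) * m * ((u⁻¹ : (M2 A)ˣ) : M2 A) - m) := by
  have hu' := entriesIn_inv_sub_one u hu
  have : (u : M2 A) * m * ((u⁻¹ : (M2 A)ˣ) : M2 A) - m =
      ((u : M2 A) - 1) * m * ((u⁻¹ : (M2 A)ˣ) : M2 A) + m * (((u⁻¹ : (M2 A)ˣ) : M2 A) - 1) := by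
    noncomm_ring
  rw [this]
  exact ((hu.mul_right _).mul_right _).add (hu'.mul_left _)

/-- Conjugation preserves membership of entries in an ideal. -/
lemma entriesIn_conj {I : Ideal A} (u : (M2 A)ˣ) {m : M2 A} (hm : EntriesIn I m) :
    EntriesIn I ((u : M2 A) * m * ((u⁻¹ : (M2 A)ˣ) : M2 A)) :=
  (hm.mul_left _).mul_right _

end Conj

section Cont

variable {A : Type} [CommRing A] [IsLocalRing A]

lemma matContinuous_conjRep {r : GQ →* M2 A} (h : MatContinuous r) (u : (M2 A)ˣ) :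
    MatContinuous (conjRep u r) := by
  intro n
  obtain ⟨L, hL, h1⟩ := h n
  refine ⟨L, hL, fun σ hσ => ?_⟩
  have h2 : EntriesIn (maximalIdeal A ^ n) (r σ - 1) := h1 σ hσ
  have : conjRep u r σ - 1 = (u : M2 A) * (r σ - 1) * ((u⁻¹ : (M2 A)ˣ) : M2 A) := by
    rw [conjRep_apply, mul_sub, sub_mul, mul_one, Units.mul_inv]
  rw [this]
  exact entriesIn_conj u h2

end Cont

end Fermat.Agent.S53
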