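import Mathlib

/-!
# S53 / WP2: quadratic Hensel lemma

For a local ring `A` which is Henselian at its maximal ideal (e.g. adically complete), and
`f0 ∈ 𝔪`, `f1` a unit, `f2` arbitrary, the equation `f2 * β ^ 2 + f1 * β + f0 = 0` has a
unique solution `β ∈ 𝔪`.
-/

set_option autoImplicit false

namespace Fermat.Agent.S53

open Polynomial IsLocalRing

/-- Uniqueness part: two roots in the maximal ideal of `f2 X^2 + f1 X + f0` with `f1` a unit
coincide. Needs no completeness. -/
theorem quadHensel_unique {A : Type*} [CommRing A] [IsLocalRing A]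
    {f0 f1 f2 : A} (hf1 : IsUnit f1) {β β' : A}
    (hβ : β ∈ maximalIdeal A) (hβ' : β' ∈ maximalIdeal A)
    (h : f2 * β ^ 2 + f1 * β + f0 = 0) (h' : f2 * β' ^ 2 + f1 * β' + f0 = 0) :
    β = β' := by
  have hmul : (β - β') * (f2 * (β + β') + f1) = 0 := by
    linear_combination h - h'
  have hunit : IsUnit (f2 * (β + β') + f1) := by
    by_contra hnu
    have hmem : f2 * (β + β') + f1 ∈ maximalIdeal A := (mem_maximalIdeal _).mpr hnu
    have h1 : f2 * (β + β') ∈ maximalIdeal A :=
      Ideal.mul_mem_left _ _ (Ideal.add_mem _ hβ hβ')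
    have h2 : f1 ∈ maximalIdeal A := by
      have := Ideal.sub_mem _ hmem h1
      simpa using this
    exact ((mem_maximalIdeal _).mp h2) hf1
  have := (hunit.mul_left_eq_zero).mp hmul
  exact sub_eq_zero.mp this

/-- Existence part, for a ring that is Henselian at its maximal ideal. -/
theorem quadHensel_exists_of_henselianRing {A : Type*} [CommRing A] [IsLocalRing A]
    [HenselianRing A (maximalIdeal A)]
    {f0 f1 : A} (f2 : A) (hf0 : f0 ∈ maximalIdeal A) (hf1 : IsUnit f1) :
    ∃ β : A, β ∈ maximalIdeal A ∧ f2 * β ^ 2 + f1 * β + f0 = 0 := by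
  -- the monic auxiliary polynomial `X^2 + f1 X + f2 f0` has the simple root `-f1` mod `𝔪`
  set g : A[X] := X ^ 2 + C f1 * X + C (f2 * f0) with hg
  have hgm : g.Monic := by
    rw [hg]
    monicity!
  have hev : g.eval (-f1) = f2 * f0 := by
    rw [hg]
    simp only [eval_add, eval_pow, eval_X, eval_mul, eval_C]
    ring
  have hder : g.derivative.eval (-f1) = -f1 := by
    rw [hg]
    simp only [derivative_add, derivative_X_pow, derivative_mul, derivative_C, derivative_X,
      eval_add, eval_mul, eval_C, eval_X, eval_pow, Nat.cast_ofNat]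
    simp
    ring
  have h1 : g.eval (-f1) ∈ maximalIdeal A := by
    rw [hev]
    exact Ideal.mul_mem_left _ _ hf0
  have h2 : IsUnit (Ideal.Quotient.mk (maximalIdeal A) (g.derivative.eval (-f1))) := by
    rw [hder]
    exact (hf1.neg).map _
  obtain ⟨ε, hroot, hε⟩ := HenselianRing.is_henselian g hgm (-f1) h1 h2
  -- `ε` is a unit since `ε ≡ -f1`
  have hεu : IsUnit ε := by
    by_contra hnu
    have hmem : ε ∈ maximalIdeal A := (mem_maximalIdeal _).mpr hnu
    have : f1 ∈ maximalIdeal A := by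
      have := Ideal.sub_mem _ hmem hε
      simpa using this
    exact ((mem_maximalIdeal _).mp this) hf1
  obtain ⟨u, rfl⟩ := hεu
  have hroot' : (u : A) ^ 2 + f1 * u + f2 * f0 = 0 := by
    have := hroot
    rw [IsRoot.def, hg] at this
    simpa only [eval_add, eval_pow, eval_X, eval_mul, eval_C] using this
  refine ⟨f0 * (↑u⁻¹ : A), Ideal.mul_mem_right _ _ hf0, ?_⟩
  have hu : (u : A) * (↑u⁻¹ : A) = 1 := u.mul_inv
  have key : f2 * (f0 * (↑u⁻¹ : A)) ^ 2 + f1 * (f0 * (↑u⁻¹ : A)) + f0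
      = f0 * (↑u⁻¹ : A) ^ 2 * ((u : A) ^ 2 + f1 * u + f2 * f0)
        + f0 * (1 - ((u : A) * (↑u⁻¹ : A)) ^ 2)
        + f1 * f0 * (↑u⁻¹ : A) * (1 - (u : A) * (↑u⁻¹ : A)) := by
    ring
  rw [key, hroot', hu]
  ring

/-- **Quadratic Hensel**, Henselian version. -/
theorem quadHensel_existsUnique_of_henselianRing {A : Type*} [CommRing A] [IsLocalRing A]
    [HenselianRing A (maximalIdeal A)]
    {f0 f1 : A} (f2 : A) (hf0 : f0 ∈ maximalIdeal A) (hf1 : IsUnit f1) :
    ∃! β : A, β ∈ maximalIdeal A ∧ f2 * β ^ 2 + f1 * β + f0 = 0 := by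
  obtain ⟨β, hβ, h⟩ := quadHensel_exists_of_henselianRing f2 hf0 hf1
  exact ⟨β, ⟨hβ, h⟩, fun β' hβ' => quadHensel_unique hf1 hβ'.1 hβ hβ'.2 h⟩

/-- **Quadratic Hensel**, adically complete version. -/
theorem quadHensel_existsUnique {A : Type*} [CommRing A] [IsLocalRing A]
    [IsAdicComplete (maximalIdeal A) A]
    {f0 f1 : A} (f2 : A) (hf0 : f0 ∈ maximalIdeal A) (hf1 : IsUnit f1) :
    ∃! β : A, β ∈ maximalIdeal A ∧ f2 * β ^ 2 + f1 * β + f0 = 0 :=
  quadHensel_existsUnique_of_henselianRing f2 hf0 hf1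

/-- **Quadratic Hensel**, existence for adically complete local rings. -/
theorem quadHensel_exists {A : Type*} [CommRing A] [IsLocalRing A]
    [IsAdicComplete (maximalIdeal A) A]
    {f0 f1 : A} (f2 : A) (hf0 : f0 ∈ maximalIdeal A) (hf1 : IsUnit f1) :
    ∃ β : A, β ∈ maximalIdeal A ∧ f2 * β ^ 2 + f1 * β + f0 = 0 :=
  quadHensel_exists_of_henselianRing f2 hf0 hf1

end Fermat.Agent.S53
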