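import Fermat.Agent.S53.H21_Lift
import Fermat.Agent.S53.QuadHensel
import Fermat.Agent.S53.Assembly

/-!
# S53: the normal form predicate in the shape required by the final assembly

For `D : RigidData 𝒪 ρbar` we define `NLof D` (a lift of `ρbar` in the basis `D.b` which is
normalised) and prove the four properties `Asm.NLRes`, `Asm.NLMap`, `Asm.NLRig`, `Asm.NLEx`
required by `Asm.nonempty_deformationRingData`.
-/

set_option autoImplicit false

noncomputable section

namespace Fermat.Agent.S53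

open IsLocalRing Matrix Mat

section

variable {𝒪 : Type} [CommRing 𝒪] [IsLocalRing 𝒪] {ρbar : ResidualGaloisRep (ResidueField 𝒪)}
  (D : RigidData 𝒪 ρbar)

/-- The normal form predicate: normalised lifts of `ρbar` (in the basis `D.b`). -/
def NLof : ∀ ⦃A : Type⦄ [CommRing A] [IsLocalRing A] [Algebra 𝒪 A],
    (GQ →* Matrix (Fin 2) (Fin 2) A) → Prop :=
  fun _ _ _ _ r => D.IsLift r ∧ D.IsNormalized r

variable {D}

lemma nlof_iff {A : Type} [CommRing A] [IsLocalRing A] [Algebra 𝒪 A]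
    (r : GQ →* Matrix (Fin 2) (Fin 2) A) : NLof D r ↔ D.IsLift r ∧ D.IsNormalized r :=
  Iff.rfl

/-- A matrix representation is a lift iff it reduces to the matrices of `ρbar`. -/
lemma isLift_iff_residue {A : Type} [CommRing A] [IsLocalRing A] [Algebra 𝒪 A]
    [IsLocalHom (algebraMap 𝒪 A)] (r : GQ →* Matrix (Fin 2) (Fin 2) A) :
    D.IsLift r ↔
      mapMat (residue A) r = mapMat (ResidueField.map (algebraMap 𝒪 A)) (resMatOf ρbar D.b) := by
  constructor
  · intro h
    ext σ i j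
    rw [mapMat_apply, mapMat_apply, resMatOf_apply, ← D.rbt_spec, ResidueField.map_residue,
      ← sub_eq_zero, ← map_sub, residue_eq_zero_iff]
    exact h σ i j
  · intro h σ i j
    exact sub_algebraMap_mem_maximalIdeal (resMatOf ρbar D.b) D.rbt
      (fun σ i j => by rw [resMatOf_apply]; exact D.rbt_spec σ i j) h σ i j

variable (D)

theorem nlRes : Asm.NLRes (𝒪 := 𝒪) (resMatOf ρbar D.b) (NLof D) := by
  intro A _ _ _ _ r hr
  exact (isLift_iff_residue r).mp hr.1

theorem nlMap : Asm.NLMap (𝒪 := 𝒪) (NLof D) := by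
  intro A B _ _ _ _ _ _ φ hφ r hr
  refine ⟨hr.1.map φ ?_, hr.2.map φ⟩
  intro a ha
  rw [mem_maximalIdeal, mem_nonunits_iff] at ha ⊢
  intro hu
  exact ha (hφ.map_nonunit a hu)

theorem nlRig : Asm.NLRig (𝒪 := 𝒪) (NLof D) := by
  intro A _ _ _ _ _ _ _ r r' _ _ hr hr' hP
  obtain ⟨P, hP⟩ := hP
  exact (RigidData.eq_of_intertwine hr.1 hr'.1 hr.2 hr'.2 (P : Matrix (Fin 2) (Fin 2) A)
    P.isUnit hP).1

theorem nlEx : Asm.NLEx (𝒪 := 𝒪) (resMatOf ρbar D.b) (NLof D) := by
  intro A _ _ _ _ _ _ _ r hr hres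
  have hl : D.IsLift r := (isLift_iff_residue r).mpr hres
  have hQ : QuadHensel A := fun f0 f1 f2 h0 h1 => quadHensel_exists f2 h0 h1
  obtain ⟨u, _, hlu, hnu⟩ := RigidData.exists_conj_normalized hQ hl
  refine ⟨conjRep u r, matContinuous_conjRep hr u, ⟨hlu, hnu⟩, u, fun σ => ?_⟩
  exact (conjRep_mul_eq u r σ).symm

end

end Fermat.Agent.S53
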