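import Fermat.Agent.S53.H21_Mat2

/-!
# S53: normal forms for `2 × 2` matrix representations over a local ring

Pure matrix algebra.  `step1`/`step2` are the two conjugation steps used to normalise a lift,
`rigid` is the rigidity statement (two conjugate normalised lifts are equal).
-/

set_option autoImplicit false

noncomputable section

namespace Fermat.Agent.S53

open IsLocalRing Matrix

/-- The "quadratic Hensel" property of a local ring: a quadratic polynomial with
unit linear coefficient and constant coefficient in the maximal ideal has a root in the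
maximal ideal. -/
def QuadHensel (A : Type) [CommRing A] [IsLocalRing A] : Prop :=
  ∀ f0 f1 f2 : A, f0 ∈ maximalIdeal A → IsUnit f1 →
    ∃ β : A, β ∈ maximalIdeal A ∧ f2 * β ^ 2 + f1 * β + f0 = 0

section

variable {A : Type} [CommRing A]

/-- A matrix whose first column is `(0, 1)`. -/
lemma eq_of_first_col (C : M2 A) (h0 : C 0 0 = 0) (h1 : C 1 0 = 1) :
    C = !![0, C 0 1; 1, C 1 1] := by
  ext i j
  fin_cases i <;> fin_cases j <;> simp [h0, h1]

end

section Local

variable {A : Type} [CommRing A] [IsLocalRing A]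

lemma isUnit_of_sub_mem {a b : A} (hb : IsUnit b) (h : a - b ∈ maximalIdeal A) : IsUnit a := by
  by_contra ha
  have ha' : a ∈ maximalIdeal A := (mem_maximalIdeal a).mpr ha
  have : b ∈ maximalIdeal A := by
    have := (maximalIdeal A).sub_mem ha' h
    simpa using this
  exact (mem_maximalIdeal b).mp this hb

/-- Step 1: make the first column of `C₀` equal to `(0, 1)`. -/
theorem step1 (C₀ : M2 A) (h0 : C₀ 0 0 ∈ maximalIdeal A) (h1 : C₀ 1 0 - 1 ∈ maximalIdeal A) :
    ∃ u : (M2 A)ˣ, EntriesIn (maximalIdeal A) ((u : M2 A) - 1) ∧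
      ((u : M2 A) * C₀ * ((u⁻¹ : (M2 A)ˣ) : M2 A)) 0 0 = 0 ∧
      ((u : M2 A) * C₀ * ((u⁻¹ : (M2 A)ˣ) : M2 A)) 1 0 = 1 := by
  have hc : IsUnit (C₀ 1 0) := isUnit_of_sub_mem isUnit_one h1
  obtain ⟨cu, hcu⟩ := hc
  set a := C₀ 0 0 with ha
  set c := C₀ 1 0 with hc'
  set c' : A := ((cu⁻¹ : Aˣ) : A) with hc'def
  have hcc' : c * c' = 1 := by rw [← hcu]; exact cu.mul_inv
  have hc'c : c' * c = 1 := by rw [mul_comm]; exact hcc'
  have hc'1 : c' - 1 ∈ maximalIdeal A := by
    have : c' - 1 = -(c' * (c - 1)) := by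
      have : c' * (c - 1) = 1 - c' := by rw [mul_sub, hc'c, mul_one]
      rw [this]; ring
    rw [this]
    exact (maximalIdeal A).neg_mem ((maximalIdeal A).mul_mem_left _ h1)
  let u : (M2 A)ˣ :=
    { val := !![1, -(a * c'); 0, c']
      inv := !![1, a; 0, c]
      val_inv := by
        ext i j
        fin_cases i <;> fin_cases j <;>
          simp [Matrix.mul_apply, Fin.sum_univ_two, hc'c, mul_assoc]
      inv_val := by
        ext i j
        fin_cases i <;> fin_cases j <;>
          simp [Matrix.mul_apply, Fin.sum_univ_two, hcc'] }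
  refine ⟨u, ?_, ?_, ?_⟩
  · intro i j
    fin_cases i <;> fin_cases j
    · simp [u]
    · simpa [u] using (maximalIdeal A).mul_mem_right c' h0
    · simp [u]
    · simpa [u] using hc'1
  · have : ((u⁻¹ : (M2 A)ˣ) : M2 A) = !![1, a; 0, c] := rfl
    rw [this]
    show (!![1, -(a * c'); 0, c'] * C₀ * !![1, a; 0, c]) 0 0 = 0
    simp only [Matrix.mul_apply, Fin.sum_univ_two]
    simp
    rw [← ha, ← hc']
    linear_combination (-a) * hc'c
  · have : ((u⁻¹ : (M2 A)ˣ) : M2 A) = !![1, a; 0, c] := rfl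
    rw [this]
    show (!![1, -(a * c'); 0, c'] * C₀ * !![1, a; 0, c]) 1 0 = 1
    simp only [Matrix.mul_apply, Fin.sum_univ_two]
    simp
    rw [← hc']
    exact hc'c

/-- Step 2: keeping `C` (with first column `(0, 1)`) fixed, normalise the `(1, 0)` entry of `Y`
to the prescribed value `c₀`. -/
theorem step2 (hQ : QuadHensel A) (C Y : M2 A) (c₀ : A) (h0 : C 0 0 = 0) (h1 : C 1 0 = 1)
    (hY : Y 1 0 - c₀ ∈ maximalIdeal A) (hunit : IsUnit ((C * Y - Y * C) 1 0)) :
    ∃ u : (M2 A)ˣ, EntriesIn (maximalIdeal A) ((u : M2 A) - 1) ∧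
      (u : M2 A) * C * ((u⁻¹ : (M2 A)ˣ) : M2 A) = C ∧
      ((u : M2 A) * Y * ((u⁻¹ : (M2 A)ˣ) : M2 A)) 1 0 = c₀ := by
  set x := C 0 1 with hx
  set y := C 1 1 with hy
  have hCeq : C = !![0, x; 1, y] := eq_of_first_col C h0 h1
  set y00 := Y 0 0 with hy00
  set y01 := Y 0 1 with hy01
  set y10 := Y 1 0 with hy10
  set y11 := Y 1 1 with hy11
  have hYeq : Y = !![y00, y01; y10, y11] := Matrix.eta_fin_two Y
  have hw : (C * Y - Y * C) 1 0 = y00 + y * y10 - y11 := by
    rw [hCeq, hYeq]
    simp [Matrix.mul_apply, Fin.sum_univ_two]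
  rw [hw] at hunit
  have hf1 : IsUnit (y00 + y * y10 - y11 + y * (y10 - c₀)) := by
    refine isUnit_of_sub_mem hunit ?_
    have : y00 + y * y10 - y11 + y * (y10 - c₀) - (y00 + y * y10 - y11) = y * (y10 - c₀) := by
      ring
    rw [this]
    exact (maximalIdeal A).mul_mem_left _ hY
  obtain ⟨β, hβm, hβ⟩ := hQ (y10 - c₀) (y00 + y * y10 - y11 + y * (y10 - c₀))
    (y * y00 + y ^ 2 * y10 - y01 - y * y11 + c₀ * x) hY hf1
  have hN : IsUnit (1 + β * y - β ^ 2 * x) := by
    refine isUnit_of_sub_mem isUnit_one ?_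
    have : 1 + β * y - β ^ 2 * x - 1 = β * (y - β * x) := by ring
    rw [this]
    exact (maximalIdeal A).mul_mem_right _ hβm
  obtain ⟨Nu, hNu⟩ := hN
  set N' : A := ((Nu⁻¹ : Aˣ) : A) with hN'def
  have hNN' : (1 + β * y - β ^ 2 * x) * N' = 1 := by rw [← hNu]; exact Nu.mul_inv
  let u : (M2 A)ˣ :=
    { val := !![1, β * x; β, 1 + β * y]
      inv := !![N' * (1 + β * y), -(N' * (β * x)); -(N' * β), N']
      val_inv := by
        ext i j
        fin_cases i <;> fin_cases j <;>
          simp [Matrix.mul_apply, Fin.sum_univ_two] <;>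
          first | ring1 | linear_combination hNN'
      inv_val := by
        ext i j
        fin_cases i <;> fin_cases j <;>
          simp [Matrix.mul_apply, Fin.sum_univ_two] <;>
          first | ring1 | linear_combination hNN' }
  have huval : (u : M2 A) = !![1, β * x; β, 1 + β * y] := rfl
  have huinv : ((u⁻¹ : (M2 A)ˣ) : M2 A) =
      !![N' * (1 + β * y), -(N' * (β * x)); -(N' * β), N'] := rfl
  refine ⟨u, ?_, ?_, ?_⟩
  · intro i j
    rw [huval]
    fin_cases i <;> fin_cases j
    · simp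
    · simpa using (maximalIdeal A).mul_mem_right x hβm
    · simpa using hβm
    · simpa using (maximalIdeal A).mul_mem_right y hβm
  · have hcomm : (u : M2 A) * C = C * (u : M2 A) := by
      rw [huval, hCeq]
      ext i j
      fin_cases i <;> fin_cases j <;>
        simp [Matrix.mul_apply, Fin.sum_univ_two] <;> ring
    rw [hcomm, mul_assoc, Units.mul_inv, mul_one]
  · rw [huval, huinv, hYeq]
    simp only [Matrix.mul_apply, Fin.sum_univ_two]
    simp
    linear_combination (c₀) * hNN' + N' * hβ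

/-- Rigidity: if `P` is invertible and intertwines `(C, Y)` with `(C', Y')`, where `C`, `C'`
have first column `(0, 1)`, `Y ≡ Y'` modulo the maximal ideal with equal `(1, 0)` entries,
and `[C, Y]` has a unit `(1, 0)` entry, then `P` is a scalar matrix. -/
theorem rigid (C C' Y Y' P : M2 A) (hP : IsUnit P) (h0 : C 0 0 = 0) (h1 : C 1 0 = 1)
    (h0' : C' 0 0 = 0) (h1' : C' 1 0 = 1)
    (hYY' : EntriesIn (maximalIdeal A) (Y - Y')) (hY10 : Y 1 0 = Y' 1 0)
    (hunit : IsUnit ((C * Y - Y * C) 1 0))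
    (hC : P * C = C' * P) (hY : P * Y = Y' * P) :
    ∃ p : A, IsUnit p ∧ P = p • (1 : M2 A) := by
  set p := P 0 0 with hp
  set q := P 1 0 with hq
  have hC'eq : C' = !![0, C' 0 1; 1, C' 1 1] := eq_of_first_col C' h0' h1'
  have hCeq : C = !![0, C 0 1; 1, C 1 1] := eq_of_first_col C h0 h1
  set x' := C' 0 1 with hx'
  set y' := C' 1 1 with hy'
  have hPeq0 : P = !![P 0 0, P 0 1; P 1 0, P 1 1] := Matrix.eta_fin_two P
  -- first column of the equation `P * C = C' * P`
  have e00 : P 0 1 = x' * q := by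
    have := congrFun (congrFun hC 0) 0
    rw [hCeq, hC'eq] at this
    simp only [Matrix.mul_apply, Fin.sum_univ_two] at this
    simpa using this
  have e10 : P 1 1 = p + y' * q := by
    have := congrFun (congrFun hC 1) 0
    rw [hCeq, hC'eq] at this
    simp only [Matrix.mul_apply, Fin.sum_univ_two] at this
    simpa using this
  have hPeq : P = !![p, x' * q; q, p + y' * q] := by
    rw [hPeq0]
    ext i j
    fin_cases i <;> fin_cases j <;> simp [e00, e10, hp, hq]
  have hcomm : P * C' = C' * P := by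
    rw [hPeq, hC'eq]
    ext i j
    fin_cases i <;> fin_cases j <;>
      simp [Matrix.mul_apply, Fin.sum_univ_two] <;> ring
  have hCC' : C = C' := by
    obtain ⟨Pu, hPu⟩ := hP
    have h2 : P * C = P * C' := by rw [hC, hcomm]
    rw [← hPu] at h2
    exact (Units.mul_right_inj Pu).mp h2
  -- now the second equation
  have hyy : y' = C 1 1 := by rw [hy', hCC']
  have hYeq : Y = !![Y 0 0, Y 0 1; Y 1 0, Y 1 1] := Matrix.eta_fin_two Y
  have hY'eq : Y' = !![Y' 0 0, Y' 0 1; Y' 1 0, Y' 1 1] := Matrix.eta_fin_two Y'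
  have hw : (C * Y - Y * C) 1 0 = Y 0 0 + y' * Y 1 0 - Y 1 1 := by
    rw [hCC', hC'eq, hYeq]
    simp [Matrix.mul_apply, Fin.sum_univ_two]
  rw [hw] at hunit
  have hunit' : IsUnit (Y 0 0 + y' * Y 1 0 - Y' 1 1) := by
    refine isUnit_of_sub_mem hunit ?_
    have : Y 0 0 + y' * Y 1 0 - Y' 1 1 - (Y 0 0 + y' * Y 1 0 - Y 1 1) = (Y - Y') 1 1 := by
      simp only [Matrix.sub_apply]; ring
    rw [this]
    exact hYY' 1 1
  have hq0 : q * (Y 0 0 + y' * Y 1 0 - Y' 1 1) = 0 := by
    have := congrFun (congrFun hY 1) 0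
    rw [hPeq] at this
    simp only [Matrix.mul_apply, Fin.sum_univ_two] at this
    simp at this
    rw [← hY10] at this
    linear_combination this
  have hq0' : q = 0 := by
    obtain ⟨w, hw⟩ := hunit'
    rw [← hw] at hq0
    exact (Units.mul_left_eq_zero w).mp hq0
  have hPp : P = p • (1 : M2 A) := by
    rw [hPeq, hq0']
    ext i j
    fin_cases i <;> fin_cases j <;> simp
  refine ⟨p, ?_, hPp⟩
  obtain ⟨Pu, hPu⟩ := hP
  have h3 : P * ((Pu⁻¹ : (M2 A)ˣ) : M2 A) = 1 := by rw [← hPu]; exact Pu.mul_inv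
  rw [hPp] at h3
  have h4 := congrFun (congrFun h3 0) 0
  simp at h4
  exact IsUnit.of_mul_eq_one _ h4

end Local

end Fermat.Agent.S53
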