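import Fermat.Agent.S53.H21_NormalForm

/-!
# S53: rigidification data attached to an absolutely irreducible residual representation
-/

set_option autoImplicit false

noncomputable section

namespace Fermat.Agent.S53

open IsLocalRing Matrix Module Mat

/-- If all `ρ σ` commute, an absolutely irreducible `ρ` cannot exist. -/
theorem exists_not_commute {k : Type} [Field k] (ρbar : ResidualGaloisRep k)
    (habs : ρbar.IsAbsolutelyIrreducible) :
    ∃ g₁ g₂ : GQ, ρbar.ρ g₁ * ρbar.ρ g₂ ≠ ρbar.ρ g₂ * ρbar.ρ g₁ := by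
  by_contra hcon
  push Not at hcon
  set K := AlgebraicClosure k
  set ρ' := ρbar.baseChange K with hρ'
  have hirr : ρ'.IsIrreducible := habs
  have hcomm : ∀ g h : GQ, ρ'.ρ g * ρ'.ρ h = ρ'.ρ h * ρ'.ρ g := by
    intro g h
    rw [← map_mul, ← map_mul]
    show (ρbar.ρ (g * h)).baseChange K = (ρbar.ρ (h * g)).baseChange K
    rw [map_mul, map_mul, hcon g h]
  have hfin : Module.finrank K ρ'.V = 2 := ρ'.finrank_eq
  have : FiniteDimensional K ρ'.V := Module.finite_of_finrank_eq_succ hfin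
  have : Nontrivial ρ'.V := Module.nontrivial_of_finrank_pos (R := K) (by rw [hfin]; norm_num)
  -- every `ρ' g` is a scalar
  have hscal : ∀ g : GQ, ∃ μ : K, ∀ x : ρ'.V, ρ'.ρ g x = μ • x := by
    intro g
    obtain ⟨μ, hμ⟩ := Module.End.exists_eigenvalue (ρ'.ρ g)
    refine ⟨μ, ?_⟩
    have hstab : ∀ σ : GQ, ∀ x ∈ Module.End.eigenspace (ρ'.ρ g) μ,
        ρ'.ρ σ x ∈ Module.End.eigenspace (ρ'.ρ g) μ := by
      intro σ x hx
      rw [Module.End.mem_eigenspace_iff] at hx ⊢
      have h1 : ρ'.ρ g (ρ'.ρ σ x) = (ρ'.ρ g * ρ'.ρ σ) x := rfl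
      rw [h1, hcomm g σ]
      show ρ'.ρ σ (ρ'.ρ g x) = _
      rw [hx, map_smul]
    rcases hirr _ hstab with h | h
    · exact absurd h hμ
    · intro x
      have : x ∈ Module.End.eigenspace (ρ'.ρ g) μ := by rw [h]; trivial
      exact Module.End.mem_eigenspace_iff.mp this
  obtain ⟨v, hv⟩ := exists_ne (0 : ρ'.V)
  have hstab : ∀ σ : GQ, ∀ x ∈ (K ∙ v), ρ'.ρ σ x ∈ (K ∙ v) := by
    intro σ x hx
    obtain ⟨μ, hμ⟩ := hscal σ
    rw [hμ x]
    exact Submodule.smul_mem _ _ hx
  rcases hirr _ hstab with h | h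
  · exact hv ((Submodule.span_singleton_eq_bot).mp h)
  · have h1 : Module.finrank K (K ∙ v) = 1 := finrank_span_singleton hv
    rw [h, finrank_top, hfin] at h1
    norm_num at h1

/-- Rigidification data for `ρbar`: a basis of `ρbar.V`, two elements `g₁ g₂` of the Galois group
and a set-theoretic lift `rbt` to `𝒪` of the matrices of `ρbar` in the basis, such that the
first column of `rbt g₁` is `(0, 1)` and the `(1, 0)` entry of `[rbt g₁, rbt g₂]` is a unit. -/
structure RigidData (𝒪 : Type) [CommRing 𝒪] [IsLocalRing 𝒪]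
    (ρbar : ResidualGaloisRep (ResidueField 𝒪)) where
  /-- the basis -/
  b : Module.Basis (Fin 2) (ResidueField 𝒪) ρbar.V
  /-- first element -/
  g₁ : GQ
  /-- second element -/
  g₂ : GQ
  /-- lifts of the matrix entries -/
  rbt : GQ → M2 𝒪
  rbt_spec : ∀ g i j, residue 𝒪 (rbt g i j) = LinearMap.toMatrix b b (ρbar.ρ g) i j
  rbt_g₁_00 : rbt g₁ 0 0 = 0
  rbt_g₁_10 : rbt g₁ 1 0 = 1
  isUnit_comm : IsUnit ((rbt g₁ * rbt g₂ - rbt g₂ * rbt g₁) 1 0)

/-- pure matrix lemma: if the `(1,0)` entries of `[C, Y]` and `[C, C * Y]` vanish,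
where `C` has first column `(0, 1)`, then `C` and `Y` commute. -/
lemma comm_of_entries {k : Type} [CommRing k] (C Y : M2 k) (h0 : C 0 0 = 0) (h1 : C 1 0 = 1)
    (hw : (C * Y - Y * C) 1 0 = 0) (hw' : (C * (C * Y) - (C * Y) * C) 1 0 = 0) :
    C * Y = Y * C := by
  have hCeq : C = !![0, C 0 1; 1, C 1 1] := eq_of_first_col C h0 h1
  have hYeq : Y = !![Y 0 0, Y 0 1; Y 1 0, Y 1 1] := Matrix.eta_fin_two Y
  set x := C 0 1
  set y := C 1 1
  set y00 := Y 0 0
  set y01 := Y 0 1
  set y10 := Y 1 0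
  set y11 := Y 1 1
  rw [hCeq, hYeq] at hw hw' ⊢
  simp [Matrix.mul_apply, Fin.sum_univ_two] at hw hw'
  ext i j
  fin_cases i <;> fin_cases j <;> simp [Matrix.mul_apply, Fin.sum_univ_two]
  · linear_combination hw' - y * hw
  · linear_combination (-x) * hw + y * hw' - y * y * hw
  · linear_combination hw
  · linear_combination (-1 : k) * hw' + y * hw

theorem exists_rigidData {𝒪 : Type} [CommRing 𝒪] [IsLocalRing 𝒪]
    (ρbar : ResidualGaloisRep (ResidueField 𝒪)) (habs : ρbar.IsAbsolutelyIrreducible) :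
    Nonempty (RigidData 𝒪 ρbar) := by
  classical
  obtain ⟨g₁, g₂, hne⟩ := exists_not_commute ρbar habs
  -- cyclic vector for `ρ g₁`
  have hcyc : ∃ v : ρbar.V, LinearIndependent (ResidueField 𝒪) ![v, ρbar.ρ g₁ v] := by
    by_contra hcon
    push Not at hcon
    obtain ⟨a, ha⟩ := LinearMap.exists_eq_smul_id_of_forall_notLinearIndependent
      (f := ρbar.ρ g₁) hcon
    apply hne
    rw [ha]
    ext x
    simp
  obtain ⟨v, hv⟩ := hcyc
  have hcard : Fintype.card (Fin 2) = Module.finrank (ResidueField 𝒪) ρbar.V := by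
    rw [ρbar.finrank_eq]; rfl
  let b : Module.Basis (Fin 2) (ResidueField 𝒪) ρbar.V :=
    basisOfLinearIndependentOfCardEqFinrank hv hcard
  have hb0 : b 0 = v := by
    simp [b, coe_basisOfLinearIndependentOfCardEqFinrank]
  have hb1 : b 1 = ρbar.ρ g₁ v := by
    simp [b, coe_basisOfLinearIndependentOfCardEqFinrank]
  let rb : GQ → M2 (ResidueField 𝒪) := fun g => LinearMap.toMatrix b b (ρbar.ρ g)
  have hrb_mul : ∀ g h, rb (g * h) = rb g * rb h := fun g h => by
    simp only [rb, map_mul]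
    exact LinearMap.toMatrix_mul b _ _
  have hC0 : rb g₁ 0 0 = 0 := by
    simp only [rb, LinearMap.toMatrix_apply, hb0, ← hb1]
    simp
  have hC1 : rb g₁ 1 0 = 1 := by
    simp only [rb, LinearMap.toMatrix_apply, hb0, ← hb1]
    simp
  have hnc : rb g₁ * rb g₂ ≠ rb g₂ * rb g₁ := by
    intro h
    apply hne
    have h2 : LinearMap.toMatrix b b (ρbar.ρ g₁ * ρbar.ρ g₂) =
        LinearMap.toMatrix b b (ρbar.ρ g₂ * ρbar.ρ g₁) := by
      rw [LinearMap.toMatrix_mul, LinearMap.toMatrix_mul]; exact h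
    exact (LinearMap.toMatrix b b).injective h2
  -- choose the second element
  have hg₂ : ∃ g : GQ, (rb g₁ * rb g - rb g * rb g₁) 1 0 ≠ 0 := by
    by_contra hcon
    push Not at hcon
    apply hnc
    refine comm_of_entries _ _ hC0 hC1 (hcon g₂) ?_
    have := hcon (g₁ * g₂)
    rwa [hrb_mul] at this
  obtain ⟨g₂', hg₂'⟩ := hg₂
  -- the lifts
  let rbt : GQ → M2 𝒪 := fun g => Matrix.of fun i j =>
    if g = g₁ ∧ j = 0 then (if i = 1 then (1 : 𝒪) else 0)
    else Function.surjInv (IsLocalRing.residue_surjective (R := 𝒪)) (rb g i j)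
  have hspec : ∀ g i j, residue 𝒪 (rbt g i j) = rb g i j := by
    intro g i j
    simp only [rbt, Matrix.of_apply]
    split_ifs with h1 h2
    · obtain ⟨rfl, rfl⟩ := h1
      subst h2
      rw [map_one, hC1]
    · obtain ⟨rfl, rfl⟩ := h1
      have : i = 0 := by omega
      subst this
      rw [map_zero, hC0]
    · exact Function.surjInv_eq _ _
  refine ⟨⟨b, g₁, g₂', rbt, hspec, ?_, ?_, ?_⟩⟩
  · simp [rbt]
  · simp [rbt]
  · rw [← IsLocalRing.notMem_maximalIdeal, ← IsLocalRing.residue_eq_zero_iff]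
    have : residue 𝒪 ((rbt g₁ * rbt g₂' - rbt g₂' * rbt g₁) 1 0) =
        (rb g₁ * rb g₂' - rb g₂' * rb g₁) 1 0 := by
      simp only [Matrix.sub_apply, Matrix.mul_apply, Fin.sum_univ_two, map_sub, map_add, map_mul,
        hspec]
    rw [this]
    exact hg₂'

end Fermat.Agent.S53
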