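import Fermat.Agent.S53.H28_Fam
import Fermat.Agent.S53.Assembly

/-!
# S53, WP-U2b: existence part of the universal property at Artinian level

Given the completion `R` of `Λ = MvPolynomial Idx 𝒪` along the level ideals (with
`ι : Λ → R`, `comap ι (𝔪_R ^ n) = levelIdeal n`, dense image), every normalized lift of
type `𝒟` over an Artinian test algebra is the push-forward of the universal representation.
-/

set_option autoImplicit false
set_option linter.style.haveILetI false
set_option linter.unusedSectionVars false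
set_option linter.unusedVariables false

namespace Fermat.Agent.S53

open IsLocalRing GaloisRep Mat Lvl

namespace H27

/-- An Artinian local ring with finite residue field is finite. -/
theorem finite_of_isArtinianRing_of_finite_residueField {A : Type} [CommRing A] [IsLocalRing A]
    [IsArtinianRing A] [Finite (ResidueField A)] : Finite A := by
  obtain ⟨n, hn⟩ : IsNilpotent (maximalIdeal A) := by
    have := IsArtinianRing.isNilpotent_jacobson_bot (R := A)
    rwa [IsLocalRing.jacobson_eq_maximalIdeal _ bot_ne_top] at this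
  haveI : Finite (A ⧸ maximalIdeal A) := ‹Finite (ResidueField A)›
  have hfg : (maximalIdeal A).FG := IsNoetherian.noetherian _
  have := Ideal.finite_quotient_pow hfg n
  rw [hn, Ideal.zero_eq_bot] at this
  exact .of_equiv _ (RingEquiv.quotientBot A).toEquiv

/-- The residue field of a local `𝒪`-algebra with `𝒪 → k_A` surjective is finite if that of
`𝒪` is. -/
theorem finite_residueField_of_residue_surjective {𝒪 : Type} [CommRing 𝒪] [IsLocalRing 𝒪]
    [Finite (ResidueField 𝒪)] {A : Type} [CommRing A] [IsLocalRing A] [Algebra 𝒪 A]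
    (hloc : IsLocalHom (algebraMap 𝒪 A))
    (hres : Function.Surjective (residue A ∘ algebraMap 𝒪 A)) : Finite (ResidueField A) := by
  haveI := hloc
  refine Finite.of_surjective (ResidueField.map (algebraMap 𝒪 A)) ?_
  intro y
  obtain ⟨c, hc⟩ := hres y
  exact ⟨residue 𝒪 c, by rw [ResidueField.map_residue]; exact hc⟩

/-- An Artinian test algebra over `𝒪` is finite if the residue field of `𝒪` is finite. -/
theorem finite_of_testAlgebra {𝒪 : Type} [CommRing 𝒪] [IsLocalRing 𝒪]
    [Finite (ResidueField 𝒪)] {A : Type} [CommRing A] [IsLocalRing A] [Algebra 𝒪 A]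
    (hA : IsArtinianTestAlgebra 𝒪 A) : Finite A := by
  haveI := hA.isArtinian
  haveI := finite_residueField_of_residue_surjective hA.isLocalHom hA.residue_surjective
  exact finite_of_isArtinianRing_of_finite_residueField

/-- The maximal ideal of an Artinian local ring is nilpotent, with positive exponent. -/
theorem exists_pos_maximalIdeal_pow_eq_bot {A : Type} [CommRing A] [IsLocalRing A]
    [IsArtinianRing A] : ∃ n : ℕ, n ≠ 0 ∧ maximalIdeal A ^ n = ⊥ := by
  obtain ⟨n, hn⟩ : IsNilpotent (maximalIdeal A) := by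
    have := IsArtinianRing.isNilpotent_jacobson_bot (R := A)
    rwa [IsLocalRing.jacobson_eq_maximalIdeal _ bot_ne_top] at this
  refine ⟨n + 1, Nat.succ_ne_zero n, ?_⟩
  rw [pow_succ, hn, Ideal.zero_eq_bot, Ideal.bot_mul]

/-- The abstract form of the classifying map: a map out of `R` extending a map out of `Λ`
which kills `comap ι (𝔪_R ^ n)`. -/
theorem exists_algHom_of_comap_le {𝒪 : Type} [CommRing 𝒪] {Λ : Type} [CommRing Λ] [Algebra 𝒪 Λ]
    {R : Type} [CommRing R] [IsLocalRing R] [Algebra 𝒪 R]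
    {A : Type} [CommRing A] [Algebra 𝒪 A]
    (ι : Λ →ₐ[𝒪] R) (n : ℕ)
    (hdense : ∀ x : R, ∃ l : Λ, x - ι l ∈ maximalIdeal R ^ n)
    (f : Λ →ₐ[𝒪] A)
    (hle : (maximalIdeal R ^ n).comap (ι : Λ →+* R) ≤ RingHom.ker (f : Λ →+* A)) :
    ∃ φ : R →ₐ[𝒪] A, ∀ l : Λ, φ (ι l) = f l := by
  let π : Λ →ₐ[𝒪] R ⧸ maximalIdeal R ^ n := (Ideal.Quotient.mkₐ 𝒪 (maximalIdeal R ^ n)).comp ι
  have hπ : Function.Surjective π := by
    intro y
    obtain ⟨x, rfl⟩ := Ideal.Quotient.mk_surjective y
    obtain ⟨l, hl⟩ := hdense x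
    refine ⟨l, ?_⟩
    show Ideal.Quotient.mk _ (ι l) = Ideal.Quotient.mk _ x
    rw [eq_comm, Ideal.Quotient.eq]
    exact hl
  have hker : RingHom.ker (π : Λ →+* R ⧸ maximalIdeal R ^ n) ≤ RingHom.ker (f : Λ →+* A) := by
    intro l hl
    apply hle
    rw [Ideal.mem_comap]
    rw [RingHom.mem_ker] at hl
    have : Ideal.Quotient.mk (maximalIdeal R ^ n) (ι l) = 0 := hl
    rwa [Ideal.Quotient.eq_zero_iff_mem] at this
  refine ⟨(AlgHom.liftOfSurjective π hπ f hker).comp (Ideal.Quotient.mkₐ 𝒪 (maximalIdeal R ^ n)),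
    fun l => ?_⟩
  exact AlgHom.liftOfSurjective_apply π hπ f hker l

end H27

section

variable {𝒪 : Type} [CommRing 𝒪] [IsLocalRing 𝒪] {ρbar : ResidualGaloisRep (ResidueField 𝒪)}
  {𝒟 : ∀ ⦃A : Type⦄ [CommRing A] [IsLocalRing A] [Algebra 𝒪 A], GaloisRepAdic A → Prop}

/-- (WP-U2b) existence part of the universal property at Artinian level. -/
theorem univExists_of_completion [IsNoetherianRing 𝒪] [Finite (ResidueField 𝒪)]
    (D : RigidData 𝒪 ρbar) (h𝒟 : IsDeformationCondition 𝒪 𝒟) {e : ℕ}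
    (H : LevelHyp (NLfam D 𝒟) D.base e)
    (R : Type) [CommRing R] [IsLocalRing R] [IsNoetherianRing R]
    [IsAdicComplete (maximalIdeal R) R] [Algebra 𝒪 R] [IsLocalHom (algebraMap 𝒪 R)]
    (hres : Function.Surjective (residue R ∘ algebraMap 𝒪 R))
    (ι : MvPolynomial Idx 𝒪 →ₐ[𝒪] R)
    (hcomap : ∀ n, (maximalIdeal R ^ n).comap (ι : MvPolynomial Idx 𝒪 →+* R) =
      levelIdeal (NLfam D 𝒟) D.base n)
    (hdense : ∀ n (x : R), ∃ l : MvPolynomial Idx 𝒪, x - ι l ∈ maximalIdeal R ^ n)
    (r : GQ →* Matrix (Fin 2) (Fin 2) R)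
    (hrι : ∀ σ i j, r σ i j = ι (MvPolynomial.X (σ, i, j))) :
    Asm.UnivExists (NLof D) r 𝒟 := by
  intro A _ _ _ hA s hs hNL hcond
  haveI : Finite A := H27.finite_of_testAlgebra hA
  haveI := hA.isArtinian
  obtain ⟨n, hn0, hn⟩ := H27.exists_pos_maximalIdeal_pow_eq_bot (A := A)
  have hx : NLfam D 𝒟 (famOf (s : GQ → Matrix (Fin 2) (Fin 2) A)) := nlfam_famOf hs hNL hcond
  have hle := levelIdeal_le_ker H hn0 hA hn hx
  rw [← hcomap n] at hle
  obtain ⟨φ, hφ⟩ := H27.exists_algHom_of_comap_le ι n (hdense n)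
    (MvPolynomial.aeval (famOf (s : GQ → Matrix (Fin 2) (Fin 2) A))) hle
  refine ⟨φ, ?_⟩
  ext σ i j
  rw [mapMat_apply]
  show φ (r σ i j) = s σ i j
  rw [hrι, hφ, MvPolynomial.aeval_X, famOf_apply]

end

end Fermat.Agent.S53
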