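import Fermat.Agent.S53.H28_Fam

/-!
# S53 (WP-F): the concrete point predicate `NLfam D 𝒟` is a level functor
-/

set_option autoImplicit false
set_option linter.unusedSectionVars false
set_option linter.unusedVariables false
set_option linter.style.haveILetI false

namespace Fermat.Agent.S53

open IsLocalRing GaloisRep Mat Lvl

section

variable {𝒪 : Type} [CommRing 𝒪] [IsLocalRing 𝒪] {ρbar : ResidualGaloisRep (ResidueField 𝒪)}
  {𝒟 : ∀ ⦃A : Type⦄ [CommRing A] [IsLocalRing A] [Algebra 𝒪 A], GaloisRepAdic A → Prop}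

/-- In an Artinian test algebra some power of the maximal ideal vanishes. -/
lemma exists_maximalIdeal_pow_eq_bot {A : Type} [CommRing A] [IsLocalRing A] [Algebra 𝒪 A]
    (hA : IsArtinianTestAlgebra 𝒪 A) : ∃ n : ℕ, maximalIdeal A ^ n = ⊥ := by
  haveI := hA.isArtinian
  have h := IsArtinianRing.isNilpotent_jacobson_bot (R := A)
  rw [IsLocalRing.jacobson_eq_maximalIdeal (⊥ : Ideal A) bot_ne_top] at h
  obtain ⟨n, hn⟩ := h
  exact ⟨n, by rwa [Ideal.zero_eq_bot] at hn⟩

/-- A local homomorphism reflects membership in the maximal ideal. -/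
lemma mem_maximalIdeal_of_map_mem {A B : Type} [CommRing A] [IsLocalRing A] [CommRing B]
    [IsLocalRing B] (φ : A →+* B) (hφ : IsLocalHom φ) {a : A} (h : φ a ∈ maximalIdeal B) :
    a ∈ maximalIdeal A := by
  rw [mem_maximalIdeal, mem_nonunits_iff] at h ⊢
  exact fun hu => h (hu.map φ)

/-- A local homomorphism preserves membership in the maximal ideal. -/
lemma map_mem_maximalIdeal_of_mem {A B : Type} [CommRing A] [IsLocalRing A] [CommRing B]
    [IsLocalRing B] (φ : A →+* B) (hφ : IsLocalHom φ) {a : A} (h : a ∈ maximalIdeal A) :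
    φ a ∈ maximalIdeal B := by
  rw [mem_maximalIdeal, mem_nonunits_iff] at h ⊢
  exact fun hu => h (hφ.map_nonunit a hu)

/-- Build a monoid hom into matrices from a family of entries, given a jointly injective
family of ring homs under which the entries become those of monoid homs. -/
noncomputable def monoidHomOfEntries {P : Type} [CommRing P] (x : Idx → P)
    (h1 : ∀ i j, x (1, i, j) = (1 : Matrix (Fin 2) (Fin 2) P) i j)
    (hmul : ∀ σ τ i j, x (σ * τ, i, j) = ∑ k, x (σ, i, k) * x (τ, k, j)) :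
    GQ →* Matrix (Fin 2) (Fin 2) P where
  toFun σ := Matrix.of fun i j => x (σ, i, j)
  map_one' := by
    ext i j
    exact h1 i j
  map_mul' σ τ := by
    ext i j
    rw [Matrix.mul_apply]
    exact hmul σ τ i j

@[simp] lemma monoidHomOfEntries_apply {P : Type} [CommRing P] (x : Idx → P)
    (h1 : ∀ i j, x (1, i, j) = (1 : Matrix (Fin 2) (Fin 2) P) i j)
    (hmul : ∀ σ τ i j, x (σ * τ, i, j) = ∑ k, x (σ, i, k) * x (τ, k, j)) (σ : GQ)
    (i j : Fin 2) : monoidHomOfEntries x h1 hmul σ i j = x (σ, i, j) := rfl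

/-- entries of the identity matrix under a ring hom -/
lemma map_one_entry {A B : Type} [CommRing A] [CommRing B] (φ : A →+* B) (i j : Fin 2) :
    φ ((1 : Matrix (Fin 2) (Fin 2) A) i j) = (1 : Matrix (Fin 2) (Fin 2) B) i j := by
  by_cases h : i = j
  · subst h; simp
  · simp [Matrix.one_apply_ne h]

theorem levelFunctor_NLfam (D : RigidData 𝒪 ρbar) (h𝒟 : IsDeformationCondition 𝒪 𝒟) :
    IsLevelFunctor (NLfam D 𝒟) D.base where
  map := by
    intro A B _ _ _ _ _ _ hA hB φ hφ x hx
    obtain ⟨r, hr, hrx, hNL, hD⟩ := hx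
    refine ⟨mapMat (φ : A →+* B) r, hr.map _ hφ, ?_, nlMap D φ hφ r hNL,
      cond_mapMat h𝒟 hA hB φ hφ hr hD⟩
    intro σ i j
    rw [mapMat_apply, hrx]
    rfl
  of_injective := by
    intro A B _ _ _ _ _ _ hA hB φ hφ hinj x hx
    obtain ⟨r', hr', hr'x, hNL', hD'⟩ := hx
    have hφx : ∀ σ i j, φ (x (σ, i, j)) = r' σ i j := fun σ i j => (hr'x σ i j).symm
    have h1 : ∀ i j, x (1, i, j) = (1 : Matrix (Fin 2) (Fin 2) A) i j := by
      intro i j
      apply hinj
      rw [hφx, map_one]
      exact (map_one_entry (φ : A →+* B) i j).symm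
    have hmul : ∀ σ τ i j, x (σ * τ, i, j) = ∑ k, x (σ, i, k) * x (τ, k, j) := by
      intro σ τ i j
      apply hinj
      rw [hφx, map_mul, Matrix.mul_apply, map_sum]
      refine Finset.sum_congr rfl fun k _ => ?_
      rw [map_mul, hφx, hφx]
    set r : GQ →* Matrix (Fin 2) (Fin 2) A := monoidHomOfEntries x h1 hmul with hrdef
    have hmap : mapMat (φ : A →+* B) r = r' := by
      ext σ i j
      rw [mapMat_apply]
      exact hφx σ i j
    -- continuity
    obtain ⟨n, hn⟩ := exists_maximalIdeal_pow_eq_bot hB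
    have hr : MatContinuous r := by
      obtain ⟨L, hL, hfac⟩ := hr'.factors hn
      refine MatContinuous.of_factors ⟨L, hL, fun σ hσ => ?_⟩
      ext i j
      apply hinj
      have := hfac σ hσ
      rw [show φ (r σ i j) = r' σ i j from hφx σ i j, this]
      exact (map_one_entry (φ : A →+* B) i j).symm
    refine ⟨r, hr, fun _ _ _ => rfl, ⟨?_, ?_⟩, ?_⟩
    · refine RigidData.IsLift.of_map φ (fun a ha => mem_maximalIdeal_of_map_mem _ hφ ha) ?_
      rw [hmap]
      exact hNL'.1
    · refine RigidData.IsNormalized.of_map φ hinj ?_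
      rw [hmap]
      exact hNL'.2
    · refine cond_of_mapMat_injective h𝒟 hA hB φ hφ hinj hr ?_
      have : ∀ (s : GQ →* Matrix (Fin 2) (Fin 2) B) (hs : MatContinuous s), s = r' →
          𝒟 (ofMat s hs) := by
        intro s hs hss
        subst hss
        exact hD'
      exact this _ _ hmap
  of_fibreProduct := by
    intro A B C P _ _ _ _ _ _ _ _ _ _ _ _ hA hB hC hP f g pA pB hpA hpB hfg hinj hex x hxA hxB
    obtain ⟨rA, hrA, hrAx, hNLA, hDA⟩ := hxA
    obtain ⟨rB, hrB, hrBx, hNLB, hDB⟩ := hxB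
    have hAx : ∀ σ i j, pA (x (σ, i, j)) = rA σ i j := fun σ i j => (hrAx σ i j).symm
    have hBx : ∀ σ i j, pB (x (σ, i, j)) = rB σ i j := fun σ i j => (hrBx σ i j).symm
    have hinj' : ∀ {a b : P}, pA a = pA b → pB a = pB b → a = b := by
      intro a b h1 h2
      apply hinj
      simp only [h1, h2]
    have h1 : ∀ i j, x (1, i, j) = (1 : Matrix (Fin 2) (Fin 2) P) i j := by
      intro i j
      apply hinj'
      · rw [hAx, map_one]
        exact (map_one_entry (pA : P →+* A) i j).symm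
      · rw [hBx, map_one]
        exact (map_one_entry (pB : P →+* B) i j).symm
    have hmul : ∀ σ τ i j, x (σ * τ, i, j) = ∑ k, x (σ, i, k) * x (τ, k, j) := by
      intro σ τ i j
      apply hinj'
      · rw [hAx, map_mul, Matrix.mul_apply, map_sum]
        refine Finset.sum_congr rfl fun k _ => ?_
        rw [map_mul, hAx, hAx]
      · rw [hBx, map_mul, Matrix.mul_apply, map_sum]
        refine Finset.sum_congr rfl fun k _ => ?_
        rw [map_mul, hBx, hBx]
    set r : GQ →* Matrix (Fin 2) (Fin 2) P := monoidHomOfEntries x h1 hmul with hrdef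
    have hmapA : mapMat (pA : P →+* A) r = rA := by
      ext σ i j
      rw [mapMat_apply]
      exact hAx σ i j
    have hmapB : mapMat (pB : P →+* B) r = rB := by
      ext σ i j
      rw [mapMat_apply]
      exact hBx σ i j
    obtain ⟨nA, hnA⟩ := exists_maximalIdeal_pow_eq_bot hA
    obtain ⟨nB, hnB⟩ := exists_maximalIdeal_pow_eq_bot hB
    have hr : MatContinuous r := by
      obtain ⟨LA, hLA, hfacA⟩ := hrA.factors hnA
      obtain ⟨LB, hLB, hfacB⟩ := hrB.factors hnB
      haveI := hLA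
      haveI := hLB
      refine MatContinuous.of_factors ⟨LA ⊔ LB, IntermediateField.finiteDimensional_sup LA LB,
        fun σ hσ => ?_⟩
      have hσA : ∀ y ∈ LA, σ y = y := fun y hy => hσ y ((le_sup_left : LA ≤ LA ⊔ LB) hy)
      have hσB : ∀ y ∈ LB, σ y = y := fun y hy => hσ y ((le_sup_right : LB ≤ LA ⊔ LB) hy)
      ext i j
      apply hinj'
      · rw [show pA (r σ i j) = rA σ i j from hAx σ i j, hfacA σ hσA]
        exact (map_one_entry (pA : P →+* A) i j).symm
      · rw [show pB (r σ i j) = rB σ i j from hBx σ i j, hfacB σ hσB]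
        exact (map_one_entry (pB : P →+* B) i j).symm
    refine ⟨r, hr, fun _ _ _ => rfl, ⟨?_, ?_, ?_, ?_⟩, ?_⟩
    · refine RigidData.IsLift.of_map pA (fun a ha => mem_maximalIdeal_of_map_mem _ hpA ha) ?_
      rw [hmapA]
      exact hNLA.1
    · apply hinj'
      · rw [show pA (r D.g₁ 0 0) = rA D.g₁ 0 0 from hAx _ _ _, hNLA.2.1, map_zero]
      · rw [show pB (r D.g₁ 0 0) = rB D.g₁ 0 0 from hBx _ _ _, hNLB.2.1, map_zero]
    · apply hinj'
      · rw [show pA (r D.g₁ 1 0) = rA D.g₁ 1 0 from hAx _ _ _, hNLA.2.2.1, map_one]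
      · rw [show pB (r D.g₁ 1 0) = rB D.g₁ 1 0 from hBx _ _ _, hNLB.2.2.1, map_one]
    · apply hinj'
      · rw [show pA (r D.g₂ 1 0) = rA D.g₂ 1 0 from hAx _ _ _, hNLA.2.2.2, AlgHom.commutes]
      · rw [show pB (r D.g₂ 1 0) = rB D.g₂ 1 0 from hBx _ _ _, hNLB.2.2.2, AlgHom.commutes]
    · have key : ∀ {E : Type} [CommRing E] [IsLocalRing E] [Algebra 𝒪 E]
          (s s' : GQ →* Matrix (Fin 2) (Fin 2) E) (hs : MatContinuous s)
          (hs' : MatContinuous s'), s = s' → 𝒟 (ofMat s' hs') → 𝒟 (ofMat s hs) := by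
        intro E _ _ _ s s' hs hs' hss h
        subst hss
        exact h
      exact cond_of_fibreProduct h𝒟 hA hB hC hP f g pA pB hpA hpB hfg hinj hex hr
        (key _ _ _ hrA hmapA hDA) (key _ _ _ hrB hmapB hDB)
  residue := by
    intro A _ _ _ hA x hx σ
    obtain ⟨r, hr, hrx, hNL, hD⟩ := hx
    obtain ⟨σ, i, j⟩ := σ
    rw [← hrx]
    exact hNL.1 σ i j

end

end Fermat.Agent.S53
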